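import Fermat.Agent.FunField.Degree

set_option autoImplicit false

noncomputable section

open AlgebraicCurve IsDedekindDomain WithZero

namespace Fermat.Agent.FunField

variable {K F : Type*} [Field K] [Field F] [Algebra K F]

open PlaceLemmas IntermediateField

theorem pow_mem_rr [IsFF K F] (x : F) (i : ℕ) :
    x ^ i ∈ riemannRochSpace ((i : ℤ) • (poleDiv x : Divisor K F)) := by
  rw [mem_rr]
  intro v
  rcases eq_or_ne x 0 with rfl | hx
  · rcases Nat.eq_zero_or_pos i with rfl | hi
    · simpa using one_mem_geSub_zero v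
    · rw [zero_pow hi.ne']; exact Submodule.zero_mem _
  rw [mem_geSub_of_ne (pow_ne_zero i hx), ord_pow, Finsupp.smul_apply, poleDiv_apply, smul_eq_mul]
  have h1 : -(v.ord x) ≤ max (-(v.ord x)) 0 := le_max_left _ _
  have h2 : (0 : ℤ) ≤ i := Int.natCast_nonneg i
  nlinarith

theorem mul_mem_rr {D E : Divisor K F} {f g : F} (hf : f ∈ riemannRochSpace D)
    (hg : g ∈ riemannRochSpace E) : f * g ∈ riemannRochSpace (D + E) := by
  rw [mem_rr] at hf hg ⊢
  intro v
  have := mul_mem_geSub (hf v) (hg v)
  rwa [Finsupp.add_apply, neg_add]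

theorem mem_rr_poleDiv [IsFF K F] (f : F) : f ∈ riemannRochSpace (poleDiv f : Divisor K F) := by
  have := pow_mem_rr (K := K) f 1
  simpa using this

theorem linearIndependent_pow_of_transcendental {L : Type*} [CommRing L] [Algebra K L] {x : L}
    (hx : Transcendental K x) : LinearIndependent K (fun i : ℕ => x ^ i) := by
  have h1 := (Polynomial.basisMonomials K).linearIndependent.map'
    (Polynomial.aeval x : Polynomial K →ₐ[K] L).toLinearMap (by
      rw [LinearMap.ker_eq_bot]
      exact transcendental_iff_injective.mp hx)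
  convert! h1 using 1
  funext i
  simp [Polynomial.aeval_monomial]

/-- The family `x^i u_j` gives a lower bound for `l(r (x)_∞ + C)`. -/
theorem exists_lower_bound [IsFF K F] {x : F} (hx : Transcendental K x) :
    ∃ C : Divisor K F, 0 ≤ C ∧ ∀ r : ℕ,
      Module.finrank K⟮x⟯ F * (r + 1) ≤
        Module.finrank K (riemannRochSpace ((r : ℤ) • (poleDiv x : Divisor K F) + C)) := by
  classical
  have hfin := finiteDimensional_adjoin_of_isFF (K := K) hx
  let u := Module.finBasis K⟮x⟯ F
  let C : Divisor K F := ∑ j, poleDiv (u j)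
  have hC : ∀ j, poleDiv (u j) ≤ C := fun j =>
    Finset.single_le_sum (f := fun j => (poleDiv (u j) : Divisor K F))
      (fun i _ => poleDiv_nonneg (u i)) (Finset.mem_univ j)
  refine ⟨C, Finset.sum_nonneg fun i _ => poleDiv_nonneg (u i), fun r => ?_⟩
  let xs : Fin (r + 1) → K⟮x⟯ := fun i => (AdjoinSimple.gen K x) ^ (i : ℕ)
  have hxs : LinearIndependent K xs := by
    have h1 : Transcendental K (AdjoinSimple.gen K x) := by
      intro halg
      apply hx
      have := halg.algebraMap (A := F)
      simpa using this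
    exact (linearIndependent_pow_of_transcendental h1).comp
      (fun i : Fin (r + 1) => (i : ℕ)) Fin.val_injective
  have hprod := linearIndependent_smul hxs u.linearIndependent
  have hmem : ∀ p : Fin (r + 1) × Fin (Module.finrank K⟮x⟯ F), xs p.1 • u p.2 ∈
      riemannRochSpace ((r : ℤ) • (poleDiv x : Divisor K F) + C) := by
    rintro ⟨i, j⟩
    have h1 : x ^ (i : ℕ) ∈ riemannRochSpace ((r : ℤ) • (poleDiv x : Divisor K F)) := by
      refine rr_mono ?_ (pow_mem_rr (K := K) x i)
      intro v
      rw [Finsupp.smul_apply, Finsupp.smul_apply, smul_eq_mul, smul_eq_mul]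
      have h2 : (0 : ℤ) ≤ poleDiv x v := poleDiv_nonneg (K := K) x v
      have h3 : ((i : ℕ) : ℤ) ≤ r := by exact_mod_cast Nat.lt_succ_iff.mp i.2
      exact mul_le_mul_of_nonneg_right h3 h2
    have h2 := rr_mono (hC j) (mem_rr_poleDiv (K := K) (u j))
    have h3 := mul_mem_rr h1 h2
    have h4 : xs i • u j = x ^ (i : ℕ) * u j := by
      rw [Algebra.smul_def]; rfl
    rw [h4]; exact h3
  have hli : LinearIndependent K (fun p : Fin (r + 1) × Fin (Module.finrank K⟮x⟯ F) =>
      (⟨xs p.1 • u p.2, hmem p⟩ :
        riemannRochSpace ((r : ℤ) • (poleDiv x : Divisor K F) + C))) := by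
    refine LinearIndependent.of_comp (Submodule.subtype _) ?_
    exact hprod
  have hcard := hli.fintype_card_le_finrank
  rw [Fintype.card_prod, Fintype.card_fin, Fintype.card_fin, mul_comm] at hcard
  exact hcard

theorem finrank_le_degree_poleDiv [IsFF K F] {x : F} (hx : Transcendental K x) :
    (Module.finrank K⟮x⟯ F : ℤ) ≤ Divisor.degree (poleDiv x : Divisor K F) := by
  obtain ⟨C, hC, h⟩ := exists_lower_bound hx
  set n : ℤ := (Module.finrank K⟮x⟯ F : ℤ) with hn
  set d : ℤ := Divisor.degree (poleDiv x : Divisor K F) with hd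
  set l0 : ℤ := (Module.finrank K (riemannRochSpace (0 : Divisor K F)) : ℤ) with hl0
  set c : ℤ := Divisor.degree C with hc
  have key : ∀ r : ℕ, n * (r + 1) ≤ l0 + (r * d + c) := by
    intro r
    have h1 := h r
    have h2 := finrank_rr_add_le (0 : Divisor K F) ((r : ℤ) • (poleDiv x : Divisor K F) + C)
      (add_nonneg (smul_nonneg (Int.natCast_nonneg r) (poleDiv_nonneg x)) hC)
    rw [zero_add, map_add, map_zsmul, smul_eq_mul] at h2
    have h1' : n * (r + 1) ≤
        Module.finrank K (riemannRochSpace ((r : ℤ) • (poleDiv x : Divisor K F) + C)) := by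
      rw [hn]; exact_mod_cast h1
    linarith
  by_contra hlt
  push Not at hlt
  have h1 := key (l0 + c).toNat
  have h2 : l0 + c ≤ ((l0 + c).toNat : ℤ) := Int.self_le_toNat _
  have h3 : (0 : ℤ) ≤ ((l0 + c).toNat : ℤ) := Int.natCast_nonneg _
  have hdn : d ≤ n - 1 := by omega
  have hn0 : 0 < n := by
    have hfin := finiteDimensional_adjoin_of_isFF (K := K) hx
    rw [hn]; exact_mod_cast Module.finrank_pos
  nlinarith

theorem adjoin_inv_eq (x : F) : K⟮x⁻¹⟯ = K⟮x⟯ := by
  apply le_antisymm
  · rw [adjoin_simple_le_iff]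
    exact inv_mem (mem_adjoin_simple_self K x)
  · rw [adjoin_simple_le_iff]
    have := inv_mem (mem_adjoin_simple_self K x⁻¹)
    rwa [inv_inv] at this

theorem finrank_adjoin_inv (x : F) : Module.finrank K⟮x⁻¹⟯ F = Module.finrank K⟮x⟯ F := by
  rw [adjoin_inv_eq]

/-- **Degree formula**: the pole divisor of `x` has degree `[F : K(x)]`. -/
theorem degree_poleDiv [IsFF K F] {x : F} (hx : Transcendental K x) :
    Divisor.degree (poleDiv x : Divisor K F) = Module.finrank K⟮x⟯ F := by
  apply le_antisymm
  · have h1 : Transcendental K x⁻¹ := fun ha => hx (by simpa using ha.inv)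
    have := degree_zeroDiv_le (K := K) x⁻¹ h1
    rw [finrank_adjoin_inv] at this
    exact this
  · exact finrank_le_degree_poleDiv hx

/-- **Degree formula**: the zero divisor of `x` has degree `[F : K(x)]`. -/
theorem degree_zeroDiv [IsFF K F] {x : F} (hx : Transcendental K x) :
    Divisor.degree (zeroDiv x : Divisor K F) = Module.finrank K⟮x⟯ F := by
  have h1 : Transcendental K x⁻¹ := fun ha => hx (by simpa using ha.inv)
  have := degree_poleDiv (K := K) h1
  rw [finrank_adjoin_inv] at this
  rw [← this]
  unfold poleDiv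
  rw [inv_inv]

/-- Principal divisors have degree zero. -/
theorem degree_divOf [IsFF K F] (f : F) : Divisor.degree (divOf f : Divisor K F) = 0 := by
  by_cases htr : Transcendental K f
  · rw [divOf_eq_sub, map_sub, degree_zeroDiv htr, degree_poleDiv htr, sub_self]
  · have : (divOf f : Divisor K F) = 0 := by
      ext v
      rw [divOf_apply, Finsupp.coe_zero, Pi.zero_apply]
      exact ord_eq_zero_of_isAlgebraic v (not_not.mp htr)
    rw [this, map_zero]

instance hasPrincipalDivisors [IsFF K F] : HasPrincipalDivisors K F where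
  exists_divisor f _ := ⟨divOf f, fun v => divOf_apply f v, degree_divOf f⟩

/-- The fundamental identity over the zeros of `x - a`, as a finsum. -/
theorem sum_ord_sub_algebraMap [IsFF K F] {x : F} (hx : Transcendental K x) (a : K) :
    Divisor.degree (zeroDiv (x - algebraMap K F a) : Divisor K F) = Module.finrank K⟮x⟯ F := by
  have h1 : Transcendental K (x - algebraMap K F a) := by
    intro h
    apply hx
    have := h.add (isAlgebraic_algebraMap (R := K) (A := F) a)
    rwa [sub_add_cancel] at this
  have h2 : K⟮x - algebraMap K F a⟯ = K⟮x⟯ := by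
    apply le_antisymm
    · rw [adjoin_simple_le_iff]
      exact sub_mem (mem_adjoin_simple_self K x) (IntermediateField.algebraMap_mem _ a)
    · rw [adjoin_simple_le_iff]
      have := add_mem (mem_adjoin_simple_self K (x - algebraMap K F a))
        (IntermediateField.algebraMap_mem K⟮x - algebraMap K F a⟯ a)
      rwa [sub_add_cancel] at this
  rw [degree_zeroDiv h1, h2]

/-- Over an algebraically closed field, algebraic elements are constants. -/
theorem mem_range_algebraMap_of_isAlgebraic [IsAlgClosed K] {f : F} (hf : IsAlgebraic K f) :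
    ∃ c : K, algebraMap K F c = f := by
  have h1 : Algebra.IsIntegral K (Algebra.adjoin K {f}) :=
    Algebra.IsIntegral.adjoin (fun x hx => by rw [Set.mem_singleton_iff.mp hx]; exact hf.isIntegral)
  obtain ⟨c, hc⟩ := (IsAlgClosed.algebraMap_bijective_of_isIntegral (k := K)
    (K := Algebra.adjoin K {f})).2 ⟨f, Algebra.self_mem_adjoin_singleton K f⟩
  exact ⟨c, congrArg Subtype.val hc⟩

theorem exists_eq_algebraMap_of_forall_ord_nonneg [IsFF K F] [IsAlgClosed K] {f : F}
    (h : ∀ v : Place K F, 0 ≤ v.ord f) : ∃ c : K, algebraMap K F c = f :=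
  mem_range_algebraMap_of_isAlgebraic (isAlgebraic_of_forall_ord_nonneg h)

theorem finrank_rr_zero [IsFF K F] [IsAlgClosed K] :
    Module.finrank K (riemannRochSpace (0 : Divisor K F)) = 1 := by
  have h1 : riemannRochSpace (0 : Divisor K F) = LinearMap.range (Algebra.linearMap K F) := by
    ext f
    rw [mem_rr_zero_iff, LinearMap.mem_range]
    constructor
    · intro h
      obtain ⟨c, hc⟩ := mem_range_algebraMap_of_isAlgebraic h
      exact ⟨c, hc⟩
    · rintro ⟨c, rfl⟩
      exact isAlgebraic_algebraMap c
  rw [h1, LinearMap.finrank_range_of_inj (algebraMap K F).injective, Module.finrank_self]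

end Fermat.Agent.FunField
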