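import Fermat.Agent.FunField.StrongApprox

/-! # Places of function fields over an algebraically closed field. -/

noncomputable section

open AlgebraicCurve IsDedekindDomain WithZero IsLocalRing

namespace Fermat.Agent.FunField

variable {K F : Type*} [Field K] [Field F] [Algebra K F]

open PlaceLemmas

/-- Over an algebraically closed field all places have degree one. -/
theorem residue_bijective [IsAlgClosed K] [IsFF K F] (v : Place K F) :
    Function.Bijective (algebraMap K v.ResidueField) := by
  haveI : Algebra.IsIntegral K v.ResidueField := Algebra.IsIntegral.of_finite K v.ResidueField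
  exact IsAlgClosed.algebraMap_bijective_of_isIntegral

theorem deg_eq_one [IsAlgClosed K] [IsFF K F] (v : Place K F) : v.deg = 1 := by
  have h : Module.finrank K v.ResidueField = 1 := by
    have e : K ≃ₗ[K] v.ResidueField :=
      LinearEquiv.ofBijective (Algebra.linearMap K v.ResidueField) (residue_bijective v)
    rw [← e.finrank_eq, Module.finrank_self]
  exact h

/-- The value of a regular function at a place. -/
theorem exists_sub_mem [IsAlgClosed K] [IsFF K F] (v : Place K F) {f : F} (hf : f ∈ geSub v 0) :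
    ∃ a : K, f - algebraMap K F a ∈ geSub v 1 := by
  obtain ⟨a, ha⟩ := (residue_bijective v).2 (residueLin v ⟨f, hf⟩)
  refine ⟨a, ?_⟩
  have h := (residueLin_eq_zero_iff v (⟨f, hf⟩ - ⟨algebraMap K F a, algebraMap_mem_geSub_zero v a⟩)).mp
    (by
      rw [map_sub, ← ha, sub_eq_zero]
      rfl)
  exact h

theorem eq_zero_of_algebraMap_mem (v : Place K F) {a : K} (h : algebraMap K F a ∈ geSub v 1) :
    a = 0 := by
  by_contra ha
  have h0 : algebraMap K F a ≠ 0 := by simpa using ha
  rw [mem_geSub_of_ne h0, ord_algebraMap] at h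
  omega

theorem sub_mem_unique (v : Place K F) {f : F} {a b : K}
    (ha : f - algebraMap K F a ∈ geSub v 1) (hb : f - algebraMap K F b ∈ geSub v 1) : a = b := by
  have h := Submodule.sub_mem _ hb ha
  have h2 : f - algebraMap K F b - (f - algebraMap K F a) = algebraMap K F (a - b) := by
    rw [map_sub]; ring
  rw [h2] at h
  exact sub_eq_zero.mp (eq_zero_of_algebraMap_mem v h)

/-- For `x` transcendental, each place is over exactly one `a : K` or over infinity. -/
theorem exists_ord_sub_pos_or [IsAlgClosed K] [IsFF K F] {x : F} (hx : Transcendental K x)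
    (v : Place K F) : (∃ a : K, 0 < v.ord (x - algebraMap K F a)) ∨ v.ord x < 0 := by
  by_cases h : v.ord x < 0
  · exact Or.inr h
  left
  have hx0 : x ≠ 0 := fun h0 => hx (h0 ▸ isAlgebraic_zero)
  obtain ⟨a, ha⟩ := exists_sub_mem v ((mem_geSub_of_ne hx0).mpr (not_lt.mp h))
  refine ⟨a, ?_⟩
  have hne : x - algebraMap K F a ≠ 0 := fun h0 => hx (by
    rw [sub_eq_zero.mp h0]; exact isAlgebraic_algebraMap a)
  rw [mem_geSub_of_ne hne] at ha
  omega

theorem sub_algebraMap_ne_zero {x : F} (hx : Transcendental K x) (a : K) :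
    x - algebraMap K F a ≠ 0 := fun h0 => hx (by
  rw [sub_eq_zero.mp h0]; exact isAlgebraic_algebraMap a)

theorem transcendental_sub_algebraMap {x : F} (hx : Transcendental K x) (a : K) :
    Transcendental K (x - algebraMap K F a) := by
  intro h
  apply hx
  have := h.add (isAlgebraic_algebraMap (R := K) (A := F) a)
  rwa [sub_add_cancel] at this

theorem eq_of_ord_sub_pos {x : F} (v : Place K F) {a b : K}
    (ha : 0 < v.ord (x - algebraMap K F a)) (hb : 0 < v.ord (x - algebraMap K F b)) : a = b := by
  have h0 : ∀ c : K, 0 < v.ord (x - algebraMap K F c) → x - algebraMap K F c ≠ 0 := by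
    intro c hc h0
    rw [h0, v.ord_zero] at hc
    exact lt_irrefl _ hc
  refine sub_mem_unique v (f := x) ?_ ?_
  · rw [mem_geSub_of_ne (h0 a ha)]; omega
  · rw [mem_geSub_of_ne (h0 b hb)]; omega

theorem ord_nonneg_of_ord_sub_pos {x : F} (v : Place K F) {a : K}
    (ha : 0 < v.ord (x - algebraMap K F a)) : 0 ≤ v.ord x := by
  have h0 : x - algebraMap K F a ≠ 0 := by
    intro h0
    rw [h0, v.ord_zero] at ha
    exact lt_irrefl _ ha
  have h1 : x - algebraMap K F a ∈ geSub v 0 := by
    rw [mem_geSub_of_ne h0]; exact ha.le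
  have h2 := Submodule.add_mem _ h1 (algebraMap_mem_geSub_zero v a)
  rw [sub_add_cancel] at h2
  by_cases hx : x = 0
  · rw [hx, v.ord_zero]
  · exact (mem_geSub_of_ne hx).mp h2

/-- There are at least two places. -/
theorem exists_place_ne [IsFF K F] (v : Place K F) : ∃ w : Place K F, w ≠ v := by
  obtain ⟨f, hf0, hv, hf⟩ := exists_pole_only v
  have htr : Transcendental K f := transcendental_of_ord_ne_zero v hv.ne
  obtain ⟨w, hw⟩ := exists_place_ord_pos htr
  refine ⟨w, fun h => ?_⟩
  rw [h] at hw
  omega

/-- `∑_{v ∣ a} e_v = [F : K(x)]` over an algebraically closed field. -/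
theorem sum_ord_sub_eq_finrank [IsAlgClosed K] [IsFF K F] {x : F} (hx : Transcendental K x)
    (a : K) :
    ∑ v ∈ (zeroDiv (x - algebraMap K F a) : Divisor K F).support, v.ord (x - algebraMap K F a) =
      (Module.finrank (IntermediateField.adjoin K {x}) F : ℤ) := by
  have h1 := sum_ord_sub_algebraMap hx a
  rw [degree_eq_sum, Finsupp.sum] at h1
  rw [← h1]
  refine Finset.sum_congr rfl fun v hv => ?_
  rw [deg_eq_one, Nat.cast_one, mul_one, zeroDiv_apply]
  rw [Finsupp.mem_support_iff, zeroDiv_apply] at hv
  rw [max_eq_left]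
  by_contra h
  exact hv (max_eq_right (not_le.mp h).le)

/-- `∑_{v ∣ ∞} e_v = [F : K(x)]` over an algebraically closed field. -/
theorem sum_ord_inv_eq_finrank [IsAlgClosed K] [IsFF K F] {x : F} (hx : Transcendental K x) :
    ∑ v ∈ (zeroDiv x⁻¹ : Divisor K F).support, v.ord x⁻¹ =
      (Module.finrank (IntermediateField.adjoin K {x}) F : ℤ) := by
  have h1 := degree_poleDiv hx
  unfold poleDiv at h1
  rw [degree_eq_sum, Finsupp.sum] at h1
  rw [← h1]
  refine Finset.sum_congr rfl fun v hv => ?_
  rw [deg_eq_one, Nat.cast_one, mul_one, zeroDiv_apply]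
  rw [Finsupp.mem_support_iff, zeroDiv_apply] at hv
  rw [max_eq_left]
  by_contra h
  exact hv (max_eq_right (not_le.mp h).le)

end Fermat.Agent.FunField
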