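import Fermat.Agent.FunField.RR

/-! # Consequences of Riemann–Roch: functions with prescribed poles, strong approximation. -/

noncomputable section

open AlgebraicCurve IsDedekindDomain WithZero IsLocalRing

namespace Fermat.Agent.FunField

variable {K F : Type*} [Field K] [Field F] [Algebra K F]

open PlaceLemmas

/-- Every adele is approximated by a constant one modulo `A(D)` when `H¹(D) = 0`. -/
theorem exists_sub_mem_repOf [IsFF K F] {D : Divisor K F} (hD : Subsingleton (H1 D))
    (α : repartitions K F) : ∃ f : F, ∀ v : Place K F,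
      (α : Place K F → F) v - f ∈ geSub v (-(D v)) := by
  obtain ⟨f, hf⟩ := mk_eq_zero_iff.mp (Subsingleton.elim (Submodule.Quotient.mk α : H1 D) 0)
  exact ⟨f, mem_repOf.mp hf⟩

/-- **Strong approximation**: simultaneous approximation at a finite set `S` of places with
integrality outside `S ∪ {P}`. -/
theorem strong_approximation [IsFF K F] (S : Finset (Place K F)) (P : Place K F) (hP : P ∉ S)
    (a : Place K F → F) (n : Place K F → ℤ) :
    ∃ f : F, (∀ v ∈ S, f - a v ∈ geSub v (n v)) ∧
      ∀ v, v ∉ S → v ≠ P → f ∈ geSub v 0 := by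
  classical
  obtain ⟨N, hN⟩ := exists_h1_vanishing (K := K) (F := F)
  let D₀ : Divisor K F := ∑ v ∈ S, Finsupp.single v (-(n v))
  let m : ℤ := max 0 (N - Divisor.degree D₀)
  let D : Divisor K F := D₀ + Finsupp.single P m
  have hdeg : N ≤ Divisor.degree D := by
    rw [map_add, Divisor.degree_single]
    have h1 : (1 : ℤ) ≤ P.deg := by exact_mod_cast deg_pos P
    have h2 : 0 ≤ m := le_max_left _ _
    have h3 : N - Divisor.degree D₀ ≤ m := le_max_right _ _
    nlinarith
  let α : repartitions K F := ⟨fun v => if v ∈ S then a v else 0, by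
    rw [mem_repartitions_iff]
    refine S.finite_toSet.subset fun v hv => ?_
    by_contra hcon
    apply hv
    have hcon' : v ∉ S := hcon
    simp only [if_neg hcon']
    exact Submodule.zero_mem _⟩
  have hα : ∀ v, (α : Place K F → F) v = if v ∈ S then a v else 0 := fun v => rfl
  obtain ⟨f, hf⟩ := exists_sub_mem_repOf (hN D hdeg) α
  have hD₀ : ∀ v, D₀ v = if v ∈ S then -(n v) else 0 := by
    intro v
    simp only [D₀, Finsupp.coe_finsetSum, Finset.sum_apply, Finsupp.single_apply]
    rw [Finset.sum_ite_eq' S v]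
  refine ⟨f, fun v hv => ?_, fun v hv hvP => ?_⟩
  · have h1 := hf v
    have h2 : D v = -(n v) := by
      simp only [D, Finsupp.add_apply, Finsupp.single_apply, hD₀, if_pos hv]
      rw [if_neg (show ¬ P = v from fun h => hP (h ▸ hv)), add_zero]
    rw [h2, neg_neg, hα, if_pos hv] at h1
    have := Submodule.neg_mem _ h1
    rwa [neg_sub] at this
  · have h1 := hf v
    have h2 : D v = 0 := by
      simp only [D, Finsupp.add_apply, Finsupp.single_apply, hD₀, if_neg hv]
      rw [if_neg (fun h => hvP h.symm), add_zero]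
    rw [h2, neg_zero, hα, if_neg hv, zero_sub] at h1
    have := Submodule.neg_mem _ h1
    rwa [neg_neg] at this

/-- Strong approximation, in the form `f = a_v` or `n_v ≤ ord_v (f - a_v)`. -/
theorem strong_approximation' [IsFF K F] (S : Finset (Place K F)) (P : Place K F) (hP : P ∉ S)
    (a : Place K F → F) (n : Place K F → ℤ) :
    ∃ f : F, (∀ v ∈ S, f = a v ∨ n v ≤ v.ord (f - a v)) ∧
      ∀ v, v ∉ S → v ≠ P → v.adicValuation f ≤ 1 := by
  obtain ⟨f, h1, h2⟩ := strong_approximation S P hP a n
  refine ⟨f, fun v hv => ?_, fun v hv hvP => ?_⟩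
  · by_cases h0 : f - a v = 0
    · left; exact sub_eq_zero.mp h0
    · right; exact (mem_geSub_of_ne h0).mp (h1 v hv)
  · have := h2 v hv hvP
    rw [mem_geSub_iff_adic] at this
    simpa using this

/-- In large degree `l(D) = deg D + const`. -/
theorem exists_finrank_rr_eq [IsFF K F] :
    ∃ N : ℤ, ∀ D : Divisor K F, N ≤ Divisor.degree D →
      (Module.finrank K (riemannRochSpace D) : ℤ) =
        Divisor.degree D + (Module.finrank K (riemannRochSpace (0 : Divisor K F)) : ℤ)
          - (genusFF K F : ℤ) := by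
  obtain ⟨N, hN⟩ := exists_h1_vanishing (K := K) (F := F)
  refine ⟨N, fun D hD => ?_⟩
  have h1 := riemann_roch' D
  haveI := hN D hD
  rw [Module.finrank_zero_of_subsingleton (R := K) (M := H1 D), Nat.cast_zero, sub_zero] at h1
  exact h1

/-- In large degree, there are functions in `L(D + v)` not in `L(D)`. -/
theorem exists_mem_rr_ord_eq [IsFF K F] :
    ∃ N : ℤ, ∀ (D : Divisor K F) (v : Place K F), N ≤ Divisor.degree D →
      ∃ f ∈ riemannRochSpace (D + Finsupp.single v 1), f ≠ 0 ∧ v.ord f = -(D v) - 1 := by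
  classical
  obtain ⟨N, hN⟩ := exists_finrank_rr_eq (K := K) (F := F)
  refine ⟨N, fun D v hD => ?_⟩
  have h1 := hN D hD
  have hdp : (1 : ℤ) ≤ v.deg := by exact_mod_cast deg_pos v
  have hdeg : Divisor.degree (D + Finsupp.single v 1) = Divisor.degree D + v.deg := by
    rw [map_add, Divisor.degree_single, one_mul]
  have h2 := hN (D + Finsupp.single v 1) (by rw [hdeg]; omega)
  have hlt : Module.finrank K (riemannRochSpace D) <
      Module.finrank K (riemannRochSpace (D + Finsupp.single v 1)) := by
    have : (Module.finrank K (riemannRochSpace D) : ℤ) <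
      Module.finrank K (riemannRochSpace (D + Finsupp.single v 1)) := by
      rw [h1, h2, hdeg]; omega
    exact_mod_cast this
  have hle := rr_mono (le_add_single D v)
  have hex : ∃ f ∈ riemannRochSpace (D + Finsupp.single v 1), f ∉ riemannRochSpace D := by
    by_contra hcon
    push Not at hcon
    have : riemannRochSpace (D + Finsupp.single v 1) ≤ riemannRochSpace D := hcon
    exact absurd (Submodule.finrank_mono this) (not_le.mpr hlt)
  obtain ⟨f, hf, hfn⟩ := hex
  have hf0 : f ≠ 0 := fun h => hfn (h ▸ Submodule.zero_mem _)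
  refine ⟨f, hf, hf0, ?_⟩
  have h3 : ∀ w, w ≠ v → f ∈ geSub w (-(D w)) := by
    intro w hw
    have := mem_rr.mp hf w
    rwa [Finsupp.add_apply, Finsupp.single_apply, if_neg (fun h => hw h.symm), add_zero] at this
  have h4 := mem_rr.mp hf v
  rw [mem_geSub_of_ne hf0, Finsupp.add_apply, Finsupp.single_eq_same] at h4
  have h5 : ¬ (-(D v) ≤ v.ord f) := by
    intro h
    apply hfn
    rw [mem_rr]
    intro w
    by_cases hw : w = v
    · subst hw; rw [mem_geSub_of_ne hf0]; exact h
    · exact h3 w hw
  omega

/-- There is a function with a pole at `P` and no other pole. -/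
theorem exists_pole_only [IsFF K F] (P : Place K F) :
    ∃ f : F, f ≠ 0 ∧ P.ord f < 0 ∧ ∀ w, w ≠ P → 0 ≤ w.ord f := by
  classical
  obtain ⟨N, hN⟩ := exists_mem_rr_ord_eq (K := K) (F := F)
  have hdp : (1 : ℤ) ≤ P.deg := by exact_mod_cast deg_pos P
  obtain ⟨f, hf, hf0, hord⟩ := hN (Finsupp.single P (max 0 N)) P (by
    rw [Divisor.degree_single]
    have h2 : 0 ≤ max 0 N := le_max_left _ _
    have h3 : N ≤ max 0 N := le_max_right _ _
    nlinarith)
  refine ⟨f, hf0, ?_, fun w hw => ?_⟩
  · rw [hord]
    have : (Finsupp.single P (max 0 N) : Divisor K F) P = max 0 N := Finsupp.single_eq_same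
    rw [this]
    have h2 : 0 ≤ max 0 N := le_max_left _ _
    omega
  · have := mem_rr.mp hf w
    have hw' : ¬ P = w := fun h => hw h.symm
    rw [mem_geSub_of_ne hf0, Finsupp.add_apply, Finsupp.single_apply, Finsupp.single_apply,
      if_neg hw', if_neg hw'] at this
    simpa using this

end Fermat.Agent.FunField
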