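import Fermat.Agent.FunField.Extension
import Fermat.Prelude.Def_AlgebraicCurve_Correspondence

/-! # The norm formula for finite extensions of function fields. -/

noncomputable section

open AlgebraicCurve IsDedekindDomain WithZero IsLocalRing IntermediateField

namespace Fermat.Agent.FunField

open PlaceLemmas

section Lin

variable {K : Type*} [Field K]

theorem finrank_quotient_step {V κ : Type*} [AddCommGroup V] [Module K V] [AddCommGroup κ]
    [Module K κ] [Module.Finite K κ] (W W' : Submodule K V) (hle : W' ≤ W) (φ : W →ₗ[K] κ)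
    (hφ : Function.Surjective φ) (hker : ∀ x, φ x = 0 ↔ x.1 ∈ W')
    (hfin : Module.Finite K (V ⧸ W)) :
    Module.Finite K (V ⧸ W') ∧
      Module.finrank K (V ⧸ W') = Module.finrank K (V ⧸ W) + Module.finrank K κ := by
  let g : (V ⧸ W') →ₗ[K] (V ⧸ W) := Submodule.factor hle
  have hg : Function.Surjective g := Submodule.factor_surjective hle
  let ψ : W →ₗ[K] V ⧸ W' := W'.mkQ.comp W.subtype
  have hrange : LinearMap.range ψ = LinearMap.ker g := by
    ext x
    obtain ⟨y, rfl⟩ := Submodule.Quotient.mk_surjective _ x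
    rw [LinearMap.mem_ker]
    have hgy : g (Submodule.Quotient.mk y) = Submodule.Quotient.mk y := rfl
    rw [hgy, Submodule.Quotient.mk_eq_zero]
    constructor
    · rintro ⟨z, hz⟩
      have hz' : (Submodule.Quotient.mk z.1 : V ⧸ W') = Submodule.Quotient.mk y := hz
      rw [Submodule.Quotient.eq] at hz'
      have h1 := hle hz'
      have h2 := Submodule.sub_mem _ z.2 h1
      rwa [sub_sub_cancel] at h2
    · intro hy
      exact ⟨⟨y, hy⟩, rfl⟩
  have hkerψ : LinearMap.ker ψ = LinearMap.ker φ := by
    ext x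
    rw [LinearMap.mem_ker, LinearMap.mem_ker, hker]
    show (Submodule.Quotient.mk x.1 : V ⧸ W') = 0 ↔ _
    rw [Submodule.Quotient.mk_eq_zero]
  let e : LinearMap.ker g ≃ₗ[K] κ :=
    (LinearEquiv.ofEq _ _ hrange.symm) ≪≫ₗ ψ.quotKerEquivRange.symm ≪≫ₗ
      (Submodule.quotEquivOfEq _ _ hkerψ) ≪≫ₗ φ.quotKerEquivOfSurjective hφ
  haveI h1 : Module.Finite K (LinearMap.ker g) := Module.Finite.equiv e.symm
  haveI h2 : Module.Finite K ((V ⧸ W') ⧸ LinearMap.ker g) :=
    Module.Finite.equiv (g.quotKerEquivOfSurjective hg).symm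
  haveI h3 : Module.Finite K (V ⧸ W') := Module.Finite.of_submodule_quotient (LinearMap.ker g)
  refine ⟨h3, ?_⟩
  have h4 := LinearMap.finrank_range_add_finrank_ker g
  rw [LinearMap.range_eq_top.mpr hg, finrank_top, e.finrank_eq] at h4
  exact h4.symm

end Lin

section LocalLength

variable {K F : Type*} [Field K] [Field F] [Algebra K F]

/-- The `K`-subspace `{ord ≥ n}` of the valuation ring. -/
def filt (v : Place K F) (n : ℤ) : Submodule K v.toValuationSubring :=
  (geSub v n).comap (IsScalarTower.toAlgHom K v.toValuationSubring F).toLinearMap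

theorem mem_filt {v : Place K F} {n : ℤ} {a : v.toValuationSubring} :
    a ∈ filt v n ↔ (a : F) ∈ geSub v n := Iff.rfl

theorem finrank_quotient_filt [IsFF K F] (v : Place K F) (n : ℕ) :
    Module.Finite K (v.toValuationSubring ⧸ filt v n) ∧
      Module.finrank K (v.toValuationSubring ⧸ filt v n) = n * v.deg := by
  induction n with
  | zero =>
    have h : filt v ((0 : ℕ) : ℤ) = ⊤ := by
      rw [eq_top_iff]
      intro a _
      rw [mem_filt, Nat.cast_zero, mem_geSub_zero]
      exact a.2
    rw [h]
    haveI : Subsingleton (v.toValuationSubring ⧸ (⊤ : Submodule K v.toValuationSubring)) :=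
      inferInstance
    refine ⟨inferInstance, ?_⟩
    rw [zero_mul]
    exact Module.finrank_zero_of_subsingleton
  | succ n ih =>
    obtain ⟨φ, hφ, hker⟩ := exists_step v (n : ℤ)
    let ψ : filt v (n : ℤ) →ₗ[K] geSub v (n : ℤ) :=
      { toFun := fun a => ⟨(a.1 : F), a.2⟩
        map_add' := fun _ _ => rfl
        map_smul' := fun c a => Subtype.ext (by
          show ((c • a.1 : v.toValuationSubring) : F) = c • (a.1 : F)
          rw [Algebra.smul_def, Algebra.smul_def]; rfl) }
    have hψ : Function.Surjective ψ := by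
      rintro ⟨b, hb⟩
      have hb0 : b ∈ v.toValuationSubring :=
        mem_geSub_zero.mp (geSub_anti v (Int.natCast_nonneg n) hb)
      exact ⟨⟨⟨b, hb0⟩, hb⟩, rfl⟩
    have h := finrank_quotient_step (filt v (n : ℤ)) (filt v ((n : ℤ) + 1))
      (fun a ha => geSub_anti v (by omega) ha) (φ.comp ψ) (hφ.comp hψ)
      (fun x => by rw [LinearMap.comp_apply, hker]; rfl) ih.1
    rw [ih.2] at h
    push_cast
    refine ⟨h.1, ?_⟩
    rw [h.2, add_mul, one_mul]
    rfl

theorem finrank_quotient_span [IsFF K F] (v : Place K F) {a : v.toValuationSubring}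
    (ha : a ≠ 0) :
    Module.Finite K (v.toValuationSubring ⧸ Ideal.span {a}) ∧
      (Module.finrank K (v.toValuationSubring ⧸ Ideal.span {a}) : ℤ) =
        v.ord (a : F) * v.deg := by
  have ha0 : (a : F) ≠ 0 := fun h => ha (Subtype.ext h)
  have hord : 0 ≤ v.ord (a : F) := (mem_iff_ord_nonneg v ha0).mp a.2
  obtain ⟨n, hn⟩ := Int.eq_ofNat_of_zero_le hord
  have hfilt : (Ideal.span {a}).restrictScalars K = filt v n := by
    ext b
    rw [Submodule.restrictScalars_mem, Ideal.mem_span_singleton', mem_filt]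
    constructor
    · rintro ⟨c, rfl⟩
      have h1 : (c : F) ∈ geSub v 0 := mem_geSub_zero.mpr c.2
      have h2 : (a : F) ∈ geSub v n := by rw [mem_geSub_of_ne ha0]; exact hn.ge
      have := mul_mem_geSub h1 h2
      rwa [zero_add] at this
    · intro hb
      have hmem : (b : F) / a ∈ v.toValuationSubring := by
        rw [← mem_geSub_zero, ← mul_mem_geSub_iff (n := 0) ha0, mul_div_cancel₀ _ ha0, hn, add_zero]
        exact hb
      exact ⟨⟨_, hmem⟩, Subtype.ext (div_mul_cancel₀ _ ha0)⟩
  let e : (v.toValuationSubring ⧸ Ideal.span {a}) ≃ₗ[K] (v.toValuationSubring ⧸ filt v n) :=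
    (Submodule.Quotient.restrictScalarsEquiv K (Ideal.span {a})).symm ≪≫ₗ
      Submodule.quotEquivOfEq _ _ hfilt
  obtain ⟨h1, h2⟩ := finrank_quotient_filt v n
  refine ⟨Module.Finite.equiv e.symm, ?_⟩
  rw [e.finrank_eq, h2, hn]
  push_cast
  rfl

end LocalLength

section Norm

variable {K F F' : Type*} [Field K] [Field F] [Field F'] [Algebra K F] [Algebra K F']
  [Algebra F F'] [IsScalarTower K F F']

/-- Elements regular at all places above `v` are integral over the valuation ring of `v`. -/
theorem isIntegral_of_forall_mem [IsFF K F'] [Algebra.IsIntegral F F'] (v : Place K F) {g : F'}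
    (hg : ∀ w : Place K F', w.restrict F = v → g ∈ w.toValuationSubring) :
    IsIntegral v.toValuationSubring g := by
  let ρ₀ : v.toValuationSubring →+* F' := algebraMap v.toValuationSubring F'
  have hρ₀ : ∀ a, ρ₀ a = algebraMap F F' (a : F) := fun a => rfl
  have h : g ∈ (⨅ V : {V : ValuationSubring F' // (ρ₀.range : Set F') ⊆ V.toSubring},
      V.1.toSubring) := by
    rw [Subring.mem_iInf]
    rintro ⟨B, hB⟩
    show g ∈ B
    have hR : ∀ a : F, a ∈ v.toValuationSubring → algebraMap F F' a ∈ B := fun a ha =>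
      hB ⟨⟨a, ha⟩, rfl⟩
    have hK : ∀ c : K, algebraMap K F' c ∈ B := by
      intro c
      rw [IsScalarTower.algebraMap_apply K F F']
      exact hR _ (v.algebraMap_mem' c)
    by_cases htop : B = ⊤
    · rw [htop]; exact ValuationSubring.mem_top _
    have hw : (placeOfValuationSubring B hK htop).restrict F = v :=
      (eq_of_le (fun a ha => hR a ha)).symm
    exact hg _ hw
  rw [iInf_valuationSubring_superset] at h
  have h2 : IsIntegral (Subring.closure (ρ₀.range : Set F')) g := h
  let ρ : v.toValuationSubring →+* Subring.closure (ρ₀.range : Set F') :=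
    ρ₀.codRestrict _ (fun a => Subring.subset_closure ⟨a, rfl⟩)
  letI : Algebra v.toValuationSubring (Subring.closure (ρ₀.range : Set F')) := ρ.toAlgebra
  haveI : IsScalarTower v.toValuationSubring (Subring.closure (ρ₀.range : Set F')) F' :=
    IsScalarTower.of_algebraMap_eq fun _ => rfl
  have hsurj : Function.Surjective ρ := by
    rintro ⟨b, hb⟩
    rw [Subring.closure_eq] at hb
    obtain ⟨a, ha⟩ := hb
    exact ⟨a, Subtype.ext ha⟩
  haveI : Algebra.IsIntegral v.toValuationSubring (Subring.closure (ρ₀.range : Set F')) :=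
    Algebra.isIntegral_of_surjective hsurj
  exact isIntegral_trans g h2

theorem mem_of_isIntegral [Algebra.IsIntegral F F'] (w : Place K F') {g : F'}
    (hg : IsIntegral (w.restrict F).toValuationSubring g) : g ∈ w.toValuationSubring := by
  letI : Algebra (w.restrict F).toValuationSubring w.toValuationSubring :=
    (Place.restrictInclusion F w).toAlgebra
  haveI : IsScalarTower (w.restrict F).toValuationSubring w.toValuationSubring F' :=
    IsScalarTower.of_algebraMap_eq fun _ => rfl
  obtain ⟨y, rfl⟩ := IsIntegrallyClosed.isIntegral_iff.mp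
    (hg.tower_top : IsIntegral w.toValuationSubring g)
  exact y.2

omit [Algebra K F'] [IsScalarTower K F F'] in
theorem norm_mem_of_isIntegral (v : Place K F) {g : F'}
    (hg : IsIntegral v.toValuationSubring g) : Algebra.norm F g ∈ v.toValuationSubring := by
  obtain ⟨y, hy⟩ := IsIntegrallyClosed.isIntegral_iff.mp (Algebra.isIntegral_norm F hg)
  exact hy ▸ y.2

theorem exists_regular_residue [IsFF K F'] [Algebra.IsIntegral F F'] (w0 : Place K F')
    (y : w0.ResidueField) :
    ∃ (g : F') (hg : g ∈ w0.toValuationSubring), IsLocalRing.residue _ ⟨g, hg⟩ = y ∧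
      ∀ w : Place K F', w.restrict F = w0.restrict F → g ∈ w.toValuationSubring := by
  classical
  obtain ⟨⟨a, ha⟩, rfl⟩ := IsLocalRing.residue_surjective y
  let ι := {w : Place K F' // w ∈ (w0.restrict F).fiber F'}
  have hinj : Function.Injective (fun w : ι => w.1) := Subtype.val_injective
  obtain ⟨g, hg⟩ := weak_approximation (fun w : ι => w.1) hinj
    (fun w => if w.1 = w0 then a else 0) 1
  have h0 : g - a ∈ geSub w0 1 := by
    have := hg ⟨w0, Place.restrict_mem_fiber w0⟩
    simp only [if_true] at this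
    rcases this with h | h
    · rw [h, sub_self]; exact Submodule.zero_mem _
    · by_cases h1 : g - a = 0
      · rw [h1]; exact Submodule.zero_mem _
      · rw [mem_geSub_of_ne h1]; exact h
  have hga : g ∈ geSub w0 0 := by
    have := Submodule.add_mem _ (geSub_anti w0 zero_le_one h0) (mem_geSub_zero.mpr ha)
    rwa [sub_add_cancel] at this
  refine ⟨g, mem_geSub_zero.mp hga, ?_, ?_⟩
  · have := (residueLin_eq_zero_iff w0 (⟨g, hga⟩ - ⟨a, mem_geSub_zero.mpr ha⟩)).mpr h0
    rw [map_sub, sub_eq_zero] at this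
    exact this
  · intro w hw
    by_cases hww : w = w0
    · rw [hww]; exact mem_geSub_zero.mp hga
    · have := hg ⟨w, Place.mem_fiber.mpr hw⟩
      simp only [if_neg hww] at this
      rcases this with h | h
      · rw [h]; exact zero_mem _
      · rw [sub_zero] at h
        by_cases h1 : g = 0
        · rw [h1]; exact zero_mem _
        · rw [mem_iff_ord_nonneg w h1]; omega

instance instIsScalarTowerPlace (v : Place K F) : IsScalarTower K v.toValuationSubring F' :=
  IsScalarTower.of_algebraMap_eq fun c => by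
    rw [IsScalarTower.algebraMap_apply K F F']; rfl

/-- `v(N f)·deg v = dim_K (M/fM)` for a finite free `O_v`-order `M` of `F'` containing `f`. -/
theorem ord_norm_mul_deg [IsFF K F] [FiniteDimensional F F'] (v : Place K F)
    (M : Subalgebra v.toValuationSubring F') [Module.Finite v.toValuationSubring M]
    (hM : ∀ z : F', ∃ r : v.toValuationSubring, r ≠ 0 ∧ r • z ∈ M) {f : M} (hf : f ≠ 0) :
    Module.Finite K (M ⧸ Ideal.span {f}) ∧
      v.ord (Algebra.norm F (f : F')) * v.deg = Module.finrank K (M ⧸ Ideal.span {f}) := by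
  classical
  let R := v.toValuationSubring
  haveI : Module.IsTorsionFree R F' := by
    refine Module.isTorsionFree_iff_algebraMap_injective.mpr ?_
    exact (algebraMap F F').injective.comp Subtype.val_injective
  haveI : Module.Free R M := inferInstance
  haveI : IsLocalization (Algebra.algebraMapSubmonoid M (nonZeroDivisors R)) F' := by
    refine ⟨?_, ?_, ?_⟩
    · rintro ⟨y, r, hr, rfl⟩
      have h1 : (r : R) ≠ 0 := nonZeroDivisors.ne_zero hr
      have h2 : algebraMap M F' (algebraMap R M r) ≠ 0 := by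
        rw [← IsScalarTower.algebraMap_apply R M F']
        intro h0
        exact h1 ((algebraMap F F').injective.comp Subtype.val_injective
          (a₁ := r) (a₂ := 0) (h0.trans (map_zero (algebraMap R F')).symm))
      exact isUnit_iff_ne_zero.mpr h2
    · intro z
      obtain ⟨r, hr, hz⟩ := hM z
      refine ⟨⟨⟨r • z, hz⟩, ⟨algebraMap R M r, r, mem_nonZeroDivisors_of_ne_zero hr, rfl⟩⟩, ?_⟩
      show z * algebraMap M F' (algebraMap R M r) = r • z
      rw [← IsScalarTower.algebraMap_apply R M F', Algebra.smul_def, mul_comm]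
    · intro x y hxy
      exact ⟨1, by rw [Subtype.ext hxy]⟩
  have hnorm : Algebra.norm F (f : F') = ((Algebra.norm R f : R) : F) :=
    Algebra.norm_localization (Rₘ := F) (Sₘ := F') R (nonZeroDivisors R) f
  let b := Module.Free.chooseBasis R M
  have hI : Ideal.span {f} ≠ ⊥ := Ideal.span_singleton_eq_bot.not.2 hf
  have hassoc := associated_norm_prod_smith b hf
  set a := Ideal.smithCoeffs b _ hI with ha
  have hcoeff : ∀ i, a i ≠ 0 := fun i => Ideal.smithCoeffs_ne_zero b _ hI i
  haveI hfin : ∀ i, Module.Finite K (R ⧸ Ideal.span ({a i} : Set R)) := fun i =>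
    (finrank_quotient_span v (hcoeff i)).1
  haveI hfree : ∀ i, Module.Free K (R ⧸ Ideal.span ({a i} : Set R)) := fun i =>
    Module.Free.of_divisionRing _ _
  have hsum : Module.finrank K (M ⧸ Ideal.span {f}) =
      ∑ i, Module.finrank K (R ⧸ Ideal.span ({a i} : Set R)) :=
    Ideal.finrank_quotient_eq_sum K hI b
  refine ⟨Module.Finite.equiv (Ideal.quotientEquivDirectSum K b hI).symm, ?_⟩
  rw [hsum, Nat.cast_sum, Finset.sum_congr rfl fun i _ => (finrank_quotient_span v (hcoeff i)).2,
    ← Finset.sum_mul, hnorm]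
  congr 1
  obtain ⟨u, hu⟩ := hassoc
  have h1 : ((∏ i, a i : R) : F) = ∏ i, (a i : F) := by
    exact map_prod (algebraMap R F) _ _
  have h2 : ∀ s : Finset (Module.Free.ChooseBasisIndex R M),
      v.ord (∏ i ∈ s, (a i : F)) = ∑ i ∈ s, v.ord (a i : F) := by
    intro s
    induction s using Finset.induction_on with
    | empty => simp
    | insert i s hi ih =>
      rw [Finset.prod_insert hi, Finset.sum_insert hi, v.ord_mul, ih]
      · exact fun h => hcoeff i (Subtype.ext h)
      · exact Finset.prod_ne_zero_iff.mpr fun j _ h => hcoeff j (Subtype.ext h)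
  rw [← h2, ← h1, ← hu]
  have h3 : ((Algebra.norm R f * (u : R) : R) : F) = (Algebra.norm R f : F) * ((u : R) : F) := rfl
  have h4 : (Algebra.norm R f : F) ≠ 0 := by
    rw [← hnorm]
    exact Algebra.norm_ne_zero_iff.mpr fun h => hf (Subtype.ext h)
  have h5 : ((u : R) : F) ≠ 0 := fun h => u.ne_zero (Subtype.ext h)
  rw [h3, v.ord_mul h4 h5, v.ord_coe_unit, add_zero]

theorem inertiaDeg_le_ord_norm [IsFF K F] [IsFF K F'] [FiniteDimensional F F'] (w0 : Place K F')
    {f : F'} (hf0 : f ≠ 0) (hf1 : 0 < w0.ord f)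
    (hf : ∀ w : Place K F', w.restrict F = w0.restrict F → f ∈ w.toValuationSubring) :
    (w0.inertiaDeg F : ℤ) ≤ (w0.restrict F).ord (Algebra.norm F f) := by
  classical
  set v := w0.restrict F with hv
  let R := v.toValuationSubring
  let b := Module.finBasis K w0.ResidueField
  choose g hg hgres hgreg using fun i => exists_regular_residue (F := F) w0 (b i)
  let c := Module.finBasis F F'
  have hc : ∀ j, ∃ r : R, r ≠ 0 ∧ IsIntegral R (r • c j) := by
    intro j
    have halg : IsAlgebraic R (c j) :=
      (IsFractionRing.isAlgebraic_iff R F F').mpr (Algebra.IsAlgebraic.isAlgebraic (c j))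
    exact halg.exists_integral_multiple
  choose r hr0 hrint using hc
  let T : Set F' := {f} ∪ Set.range g ∪ Set.range (fun j => r j • c j)
  have hTfin : T.Finite := ((Set.finite_singleton f).union (Set.finite_range g)).union
    (Set.finite_range _)
  have hTint : ∀ x ∈ T, IsIntegral R x := by
    rintro x ((hx | ⟨i, rfl⟩) | ⟨j, rfl⟩)
    · rw [Set.mem_singleton_iff] at hx
      subst hx
      exact isIntegral_of_forall_mem v hf
    · exact isIntegral_of_forall_mem v (hgreg i)
    · exact hrint j
  let M : Subalgebra R F' := Algebra.adjoin R T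
  haveI : Module.Finite R M := Algebra.finite_adjoin_of_finite_of_isIntegral hTfin hTint
  have hfM : f ∈ M := Algebra.subset_adjoin (Or.inl (Or.inl rfl))
  have hgM : ∀ i, g i ∈ M := fun i => Algebra.subset_adjoin (Or.inl (Or.inr ⟨i, rfl⟩))
  have hcM : ∀ j, r j • c j ∈ M := fun j => Algebra.subset_adjoin (Or.inr ⟨j, rfl⟩)
  have hM : ∀ z : F', ∃ s : R, s ≠ 0 ∧ s • z ∈ M := by
    intro z
    have hz : z ∈ Submodule.span F (Set.range c) := by rw [c.span_eq]; trivial
    induction hz using Submodule.span_induction with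
    | mem x hx =>
      obtain ⟨j, rfl⟩ := hx
      exact ⟨r j, hr0 j, hcM j⟩
    | zero => exact ⟨1, one_ne_zero, by rw [smul_zero]; exact zero_mem _⟩
    | add x y _ _ hx hy =>
      obtain ⟨s, hs, hsx⟩ := hx
      obtain ⟨t, ht, hty⟩ := hy
      refine ⟨s * t, mul_ne_zero hs ht, ?_⟩
      rw [smul_add]
      refine add_mem ?_ ?_
      · rw [mul_comm, mul_smul]; exact M.smul_mem hsx t
      · rw [mul_smul]; exact M.smul_mem hty s
    | smul q x _ hx =>
      obtain ⟨s, hs, hsx⟩ := hx
      obtain ⟨n, d, hd, hnd⟩ := IsFractionRing.div_surjective (A := R) q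
      have hd0 : d ≠ 0 := nonZeroDivisors.ne_zero hd
      have hd0' : algebraMap R F d ≠ 0 := fun h => hd0 (Subtype.ext h)
      refine ⟨d * s, mul_ne_zero hd0 hs, ?_⟩
      have : (d * s) • (q • x) = n • (s • x) := by
        rw [← hnd]
        simp only [Algebra.smul_def, IsScalarTower.algebraMap_apply R F F', map_mul, map_div₀]
        have : algebraMap F F' (algebraMap R F d) ≠ 0 := by simpa using hd0'
        field_simp
      rw [this]
      exact M.smul_mem hsx n
  have hMw : ∀ m : M, (m : F') ∈ w0.toValuationSubring := by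
    intro m
    have h1 : IsIntegral R m := Algebra.IsIntegral.isIntegral m
    have h2 : IsIntegral R (m : F') := h1.map (IsScalarTower.toAlgHom R M F')
    exact mem_of_isIntegral w0 h2
  let ρ : M →ₐ[K] w0.ResidueField :=
    { toFun := fun m => IsLocalRing.residue _ ⟨(m : F'), hMw m⟩
      map_one' := map_one (IsLocalRing.residue w0.toValuationSubring)
      map_mul' := fun x y => map_mul (IsLocalRing.residue w0.toValuationSubring)
        ⟨(x : F'), hMw x⟩ ⟨(y : F'), hMw y⟩
      map_zero' := map_zero (IsLocalRing.residue w0.toValuationSubring)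
      map_add' := fun x y => map_add (IsLocalRing.residue w0.toValuationSubring)
        ⟨(x : F'), hMw x⟩ ⟨(y : F'), hMw y⟩
      commutes' := fun k => by
        show IsLocalRing.residue _ ⟨((algebraMap K M k : M) : F'), _⟩ =
          IsLocalRing.residue _ (algebraMap K w0.toValuationSubring k)
        have h1 : ((algebraMap K M k : M) : F') = algebraMap K F' k :=
          (IsScalarTower.algebraMap_apply K M F' k).symm
        exact congrArg _ (Subtype.ext h1) }
  have hρapp : ∀ (m : M), ρ m = IsLocalRing.residue w0.toValuationSubring ⟨(m : F'), hMw m⟩ :=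
    fun m => rfl
  have hρf : ρ ⟨f, hfM⟩ = 0 := by
    rw [hρapp, IsLocalRing.residue_eq_zero_iff, mem_maximalIdeal_iff]
    exact Or.inr hf1
  have hρ : Function.Surjective ρ := by
    have hrange : LinearMap.range ρ.toLinearMap = ⊤ := by
      rw [eq_top_iff, ← b.span_eq, Submodule.span_le]
      rintro _ ⟨i, rfl⟩
      refine ⟨⟨g i, hgM i⟩, ?_⟩
      show ρ _ = _
      rw [hρapp, ← hgres i]
    exact LinearMap.range_eq_top.mp hrange
  have hf0' : (⟨f, hfM⟩ : M) ≠ 0 := fun h => hf0 (congrArg Subtype.val h)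
  obtain ⟨hfin, hdim⟩ := ord_norm_mul_deg (K := K) v M hM hf0'
  let χ : (M ⧸ Ideal.span {(⟨f, hfM⟩ : M)}) →ₐ[K] w0.ResidueField :=
    Ideal.Quotient.liftₐ _ ρ (fun x hx => by
      obtain ⟨y, rfl⟩ := Ideal.mem_span_singleton'.mp hx
      rw [map_mul, hρf, mul_zero])
  have hχ : Function.Surjective χ := by
    intro y
    obtain ⟨x, rfl⟩ := hρ y
    exact ⟨Ideal.Quotient.mk _ x, rfl⟩
  have hle : w0.deg ≤ Module.finrank K (M ⧸ Ideal.span {(⟨f, hfM⟩ : M)}) :=
    LinearMap.finrank_le_finrank_of_surjective (f := χ.toLinearMap) hχ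
  have h1 := w0.deg_restrict_mul_inertiaDeg (F := F)
  have h2 : (v.deg : ℤ) * w0.inertiaDeg F ≤ v.ord (Algebra.norm F f) * v.deg := by
    rw [hdim]
    exact_mod_cast h1.le.trans hle
  have h3 : (0 : ℤ) < v.deg := by exact_mod_cast deg_pos v
  rw [mul_comm] at h2
  exact le_of_mul_le_mul_right h2 h3

theorem map_prod_zpow_of_mul {E ι : Type*} [Field E] (φ : E → ℤ)
    (hmul : ∀ a b, a ≠ 0 → b ≠ 0 → φ (a * b) = φ a + φ b) (s : Finset ι) (u : ι → E)
    (hu : ∀ i, u i ≠ 0) (n : ι → ℤ) :
    φ (∏ i ∈ s, u i ^ n i) = ∑ i ∈ s, n i * φ (u i) := by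
  have h1 : φ 1 = 0 := by
    have := hmul 1 1 one_ne_zero one_ne_zero
    rw [mul_one] at this; omega
  let Φ : Eˣ →* Multiplicative ℤ :=
    { toFun := fun x => Multiplicative.ofAdd (φ x)
      map_one' := by rw [Units.val_one, h1]; rfl
      map_mul' := fun x y => by
        rw [Units.val_mul, hmul _ _ x.ne_zero y.ne_zero]; rfl }
  let u' : ι → Eˣ := fun i => Units.mk0 (u i) (hu i)
  have h2 : Φ (∏ i ∈ s, u' i ^ n i) = ∏ i ∈ s, Φ (u' i) ^ n i := by
    rw [map_prod]
    exact Finset.prod_congr rfl fun i _ => map_zpow _ _ _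
  have h3 : ((∏ i ∈ s, u' i ^ n i : Eˣ) : E) = ∏ i ∈ s, u i ^ n i := by
    rw [Units.coe_prod]
    exact Finset.prod_congr rfl fun i _ => by rw [Units.val_zpow_eq_zpow_val]; rfl
  have h4 : φ (∏ i ∈ s, u i ^ n i) = Multiplicative.toAdd (Φ (∏ i ∈ s, u' i ^ n i)) := by
    rw [← h3]; rfl
  rw [h4, h2, toAdd_prod]
  refine Finset.sum_congr rfl fun i _ => ?_
  rw [toAdd_zpow]
  show n i • φ (u i) = _
  rw [smul_eq_mul]

theorem ord_norm_eq_zero [IsFF K F'] [FiniteDimensional F F'] (v : Place K F) {g : F'}
    (hg0 : g ≠ 0) (hg : ∀ w : Place K F', w.restrict F = v → w.ord g = 0) :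
    v.ord (Algebra.norm F g) = 0 := by
  have hN : Algebra.norm F g ≠ 0 := Algebra.norm_ne_zero_iff.mpr hg0
  have h1 : 0 ≤ v.ord (Algebra.norm F g) := by
    rw [← mem_iff_ord_nonneg v hN]
    exact norm_mem_of_isIntegral v (isIntegral_of_forall_mem v fun w hw => by
      rw [mem_iff_ord_nonneg w hg0, hg w hw])
  have h2 : 0 ≤ v.ord (Algebra.norm F g⁻¹) := by
    rw [← mem_iff_ord_nonneg v (Algebra.norm_ne_zero_iff.mpr (inv_ne_zero hg0))]
    exact norm_mem_of_isIntegral v (isIntegral_of_forall_mem v fun w hw => by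
      rw [mem_iff_ord_nonneg w (inv_ne_zero hg0), w.ord_inv, hg w hw, neg_zero])
  have h3 : v.ord (Algebra.norm F g) + v.ord (Algebra.norm F g⁻¹) = 0 := by
    rw [← v.ord_mul hN (Algebra.norm_ne_zero_iff.mpr (inv_ne_zero hg0)), ← map_mul,
      mul_inv_cancel₀ hg0, map_one, v.ord_one]
  omega

/-- **Norm formula**: `v(N f) = ∑_{w ∣ v} w(f) f_w`. -/
theorem ord_norm [IsFF K F] [IsFF K F'] [FiniteDimensional F F'] (v : Place K F) {f : F'}
    (hf : f ≠ 0) :
    v.ord (Algebra.norm F f) = ∑ w ∈ v.fiber F', w.ord f * (w.inertiaDeg F : ℤ) := by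
  classical
  let ι := {w : Place K F' // w ∈ v.fiber F'}
  have hinj : Function.Injective (fun w : ι => w.1) := Subtype.val_injective
  choose u hu0 hu using fun w : ι => exists_forall_ord_eq (fun w : ι => w.1) hinj
    (fun w' => if w' = w then 1 else 0)
  let c : ι → ℤ := fun w => v.ord (Algebra.norm F (u w))
  -- structure formula
  have key : ∀ f : F', f ≠ 0 → v.ord (Algebra.norm F f) = ∑ w : ι, w.1.ord f * c w := by
    intro f hf
    let p : F' := ∏ w : ι, u w ^ (w.1.ord f)
    have hp0 : p ≠ 0 := Finset.prod_ne_zero_iff.mpr fun w _ => zpow_ne_zero _ (hu0 w)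
    have hordp : ∀ w : ι, w.1.ord p = w.1.ord f := by
      intro w
      have := map_prod_zpow_of_mul (fun x => w.1.ord x) (fun a b ha hb => w.1.ord_mul ha hb)
        Finset.univ u hu0 (fun w => w.1.ord f)
      rw [show w.1.ord p = _ from this]
      have h2 : ∀ w' : ι, w.1.ord (u w') = if w = w' then 1 else 0 := fun w' => hu w' w
      rw [Finset.sum_eq_single w]
      · rw [h2, if_pos rfl, mul_one]
      · intro w' _ hne
        rw [h2, if_neg (fun h => hne h.symm), mul_zero]
      · intro h
        exact absurd (Finset.mem_univ w) h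
    have hg : v.ord (Algebra.norm F (f / p)) = 0 := by
      refine ord_norm_eq_zero v (div_ne_zero hf hp0) fun w hw => ?_
      have := hordp ⟨w, Place.mem_fiber.mpr hw⟩
      rw [ord_div w hf hp0]
      simp only at this
      omega
    have hfp : f = (f / p) * p := (div_mul_cancel₀ f hp0).symm
    have hN : ∀ x : F', x ≠ 0 → Algebra.norm F x ≠ 0 := fun x hx =>
      Algebra.norm_ne_zero_iff.mpr hx
    have h3 := map_prod_zpow_of_mul (fun x => v.ord (Algebra.norm F x))
      (fun a b ha hb => by rw [map_mul, v.ord_mul (hN a ha) (hN b hb)])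
      Finset.univ u hu0 (fun w => w.1.ord f)
    calc v.ord (Algebra.norm F f) = v.ord (Algebra.norm F ((f / p) * p)) := by rw [← hfp]
      _ = v.ord (Algebra.norm F (f / p)) + v.ord (Algebra.norm F p) := by
          rw [map_mul, v.ord_mul (hN _ (div_ne_zero hf hp0)) (hN _ hp0)]
      _ = v.ord (Algebra.norm F p) := by rw [hg, zero_add]
      _ = _ := h3
  have hc : ∀ w : ι, (w.1.inertiaDeg F : ℤ) ≤ c w := by
    rintro ⟨w, hw⟩
    have hwv : w.restrict F = v := Place.mem_fiber.mp hw
    have h1 := inertiaDeg_le_ord_norm (F := F) w (hu0 ⟨w, hw⟩)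
      (by have := hu ⟨w, hw⟩ ⟨w, hw⟩
          simp only [if_true] at this
          omega)
      (fun w' hw' => by
        rw [mem_iff_ord_nonneg w' (hu0 ⟨w, hw⟩)]
        have := hu ⟨w, hw⟩ ⟨w', Place.mem_fiber.mpr (hw'.trans hwv)⟩
        simp only at this
        rw [this]; split_ifs <;> norm_num)
    rw [hwv] at h1
    exact h1
  -- apply to a uniformizer
  obtain ⟨π, hπ0, hπ⟩ := exists_ord_eq_one v
  have hπ' : algebraMap F F' π ≠ 0 := by simpa using hπ0
  have h1 := key _ hπ'
  rw [Algebra.norm_algebraMap, ord_pow, hπ, mul_one] at h1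
  have h2 := (sumRamificationInertia K F F').sum_ramificationIndex_mul_inertiaDeg v
  have hord : ∀ w : ι, w.1.ord (algebraMap F F' π) = w.1.ramificationIndex F := by
    rintro ⟨w, hw⟩
    show w.ord _ = _
    rw [w.ord_restrict π, Place.mem_fiber.mp hw, hπ, mul_one]
  have h3 : ∑ w ∈ v.fiber F', (w.ramificationIndex F : ℤ) * (w.inertiaDeg F : ℤ) =
      ∑ w : ι, (w.1.ramificationIndex F : ℤ) * (w.1.inertiaDeg F : ℤ) :=
    (Finset.sum_coe_sort (v.fiber F')
      (fun w => (w.ramificationIndex F : ℤ) * (w.inertiaDeg F : ℤ))).symm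
  have h4 : ∑ w : ι, (w.1.ramificationIndex F : ℤ) * (c w - (w.1.inertiaDeg F : ℤ)) = 0 := by
    simp only [mul_sub, Finset.sum_sub_distrib]
    rw [← h3, h2, h1, sub_eq_zero]
    exact Finset.sum_congr rfl fun w _ => by rw [hord w]
  have h5 : ∀ w : ι, c w = w.1.inertiaDeg F := by
    intro w
    have h6 : ∀ w : ι, w ∈ Finset.univ →
        0 ≤ (w.1.ramificationIndex F : ℤ) * (c w - (w.1.inertiaDeg F : ℤ)) := fun w _ =>
      mul_nonneg (by positivity) (sub_nonneg.mpr (hc w))
    have h7 := (Finset.sum_eq_zero_iff_of_nonneg h6).mp h4 w (Finset.mem_univ w)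
    have h8 : (w.1.ramificationIndex F : ℤ) ≠ 0 := by
      have := w.1.ramificationIndex_pos (F := F)
      omega
    have := (mul_eq_zero.mp h7).resolve_left h8
    omega
  rw [key f hf]
  simp only [h5]
  exact Finset.sum_coe_sort (v.fiber F') (fun w => w.ord f * (w.inertiaDeg F : ℤ))

variable (K F F') in
/-- The norm formula in the form of the Prelude. -/
theorem pushforwardNormFormula [IsFF K F] [IsFF K F'] [Module.Finite F F'] :
    Divisor.PushforwardNormFormula K F F' := by
  classical
  intro f hf D hD v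
  rw [Divisor.pushforward_apply, ord_norm v hf]
  rw [← Finset.sum_filter]
  have hsub : D.support.filter (fun w => w.restrict F = v) ⊆ v.fiber F' := by
    intro w hw
    exact Place.mem_fiber.mpr (Finset.mem_filter.mp hw).2
  rw [Finset.sum_subset hsub]
  · exact Finset.sum_congr rfl fun w _ => by rw [hD]
  · intro w hw hwn
    have : D w = 0 := by
      by_contra h
      exact hwn (Finset.mem_filter.mpr ⟨Finsupp.mem_support_iff.mpr h, Place.mem_fiber.mp hw⟩)
    rw [this, zero_mul]

end Norm

section Along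

variable {K F F' : Type*} [Field K] [Field F] [Field F'] [Algebra K F] [Algebra K F']

theorem fundamentalIdentityAlong [IsFF K F] [IsFF K F'] (φ : F →ₐ[K] F')
    (hφ : φ.toRingHom.IsIntegral) (hfin : FiniteAlong K φ) : FundamentalIdentityAlong K φ hφ := by
  letI := algebraAlong φ
  haveI := isScalarTower_along φ
  haveI := isIntegral_along φ hφ
  haveI : Module.Finite F F' := hfin
  exact fundamentalIdentity K F F'

theorem normFormulaAlong [IsFF K F] [IsFF K F'] (φ : F →ₐ[K] F') (hfin : FiniteAlong K φ) :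
    NormFormulaAlong K φ hfin := by
  letI := algebraAlong φ
  haveI := isScalarTower_along φ
  haveI : Module.Finite F F' := hfin
  exact pushforwardNormFormula K F F'

/-- Every `K`-homomorphism between function fields is finite. -/
theorem finiteAlong [IsFF K F] [IsFF K F'] (φ : F →ₐ[K] F') : FiniteAlong K φ := by
  letI := algebraAlong φ
  haveI := isScalarTower_along φ
  show Module.Finite F F'
  obtain ⟨x, hx, hfin⟩ := ‹IsFF K F›
  have hx' : Transcendental K (algebraMap F F' x) := transcendental_map hx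
  haveI : FiniteDimensional K⟮algebraMap F F' x⟯ F' := finiteDimensional_adjoin_of_isFF hx'
  -- F' finite over the image of K(x), hence over F
  let E := K⟮algebraMap F F' x⟯
  obtain ⟨s, hs⟩ := Module.Finite.fg_top (R := E) (M := F')
  refine ⟨⟨s, ?_⟩⟩
  rw [eq_top_iff]
  intro z _
  have hz : z ∈ Submodule.span E (s : Set F') := by rw [hs]; trivial
  have hE : ∀ e : E, ∃ a : F, algebraMap F F' a = (e : F') := by
    have hle : E ≤ (IsScalarTower.toAlgHom K F F').fieldRange := by
      rw [adjoin_le_iff, Set.singleton_subset_iff]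
      exact ⟨x, rfl⟩
    intro e
    obtain ⟨a, ha⟩ := hle e.2
    exact ⟨a, ha⟩
  induction hz using Submodule.span_induction with
  | mem y hy => exact Submodule.subset_span hy
  | zero => exact Submodule.zero_mem _
  | add y y' _ _ h h' => exact Submodule.add_mem _ (h trivial) (h' trivial)
  | smul e y _ h =>
    obtain ⟨a, ha⟩ := hE e
    have : e • y = a • y := by
      rw [Algebra.smul_def, Algebra.smul_def, ha]; rfl
    rw [this]
    exact Submodule.smul_mem _ _ (h trivial)

theorem isIntegral_of_isFF [IsFF K F] [IsFF K F'] (φ : F →ₐ[K] F') :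
    φ.toRingHom.IsIntegral := by
  letI := algebraAlong φ
  haveI : Module.Finite F F' := finiteAlong φ
  exact (inferInstance : Algebra.IsIntegral F F').isIntegral

end Along

end Fermat.Agent.FunField
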