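import Fermat.Agent.FunField.Adele

set_option autoImplicit false

noncomputable section

open AlgebraicCurve IsDedekindDomain WithZero

namespace Fermat.Agent.FunField

variable {K F : Type*} [Field K] [Field F] [Algebra K F]

open PlaceLemmas IntermediateField

/-- One-step comparison of `H¹`. -/
theorem h1_step [IsFF K F] (D : Divisor K F) (v : Place K F) :
    (Module.Finite K (H1 D) ↔ Module.Finite K (H1 (D + Finsupp.single v 1))) ∧
    (Module.Finite K (H1 D) →
      (Module.finrank K (H1 D) : ℤ) + Module.finrank K (riemannRochSpace (D + Finsupp.single v 1)) =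
        Module.finrank K (H1 (D + Finsupp.single v 1)) +
          Module.finrank K (riemannRochSpace D) + v.deg) := by
  obtain ⟨θ, hθr, hθk⟩ := exists_connecting D v
  have hsurj := h1Map_surjective (le_add_single D v)
  have hkfin : Module.Finite K (LinearMap.ker (h1Map (le_add_single D v))) := by
    rw [← hθr]; infer_instance
  constructor
  · constructor
    · intro h
      exact Module.Finite.of_surjective _ hsurj
    · intro h
      rw [Module.finite_def] at h hkfin ⊢
      refine Submodule.fg_of_fg_map_of_fg_inf_ker (h1Map (le_add_single D v)) ?_ ?_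
      · rw [Submodule.map_top, LinearMap.range_eq_top.mpr hsurj]
        exact h
      · rw [top_inf_eq]
        exact (Submodule.fg_top _).mp hkfin
  · intro h
    have h1 := LinearMap.finrank_range_add_finrank_ker (h1Map (le_add_single D v))
    rw [LinearMap.range_eq_top.mpr hsurj, finrank_top, ← hθr] at h1
    have h2 := LinearMap.finrank_range_add_finrank_ker θ
    have h3 : Module.finrank K v.ResidueField = v.deg := rfl
    rw [h3] at h2
    have h1' : (Module.finrank K (H1 (D + Finsupp.single v 1)) : ℤ) +
        Module.finrank K (LinearMap.range θ) = Module.finrank K (H1 D) := by exact_mod_cast h1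
    have h2' : (Module.finrank K (LinearMap.range θ) : ℤ) + Module.finrank K (LinearMap.ker θ) =
        v.deg := by exact_mod_cast h2
    have h4' : (Module.finrank K (LinearMap.ker θ) : ℤ) + Module.finrank K (riemannRochSpace D) =
        Module.finrank K (riemannRochSpace (D + Finsupp.single v 1)) := by exact_mod_cast hθk
    linarith

/-- If the defect does not increase from `D` to `D + v` then `H¹(D) → H¹(D+v)` is injective. -/
theorem h1Map_injective_of_defect [IsFF K F] (D : Divisor K F) (v : Place K F)
    (h : defect (D + Finsupp.single v 1) ≤ defect D) :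
    Function.Injective (h1Map (le_add_single D v)) := by
  obtain ⟨θ, hθr, hθk⟩ := exists_connecting D v
  rw [← LinearMap.ker_eq_bot, ← hθr]
  have h2 := LinearMap.finrank_range_add_finrank_ker θ
  have h3 : Module.finrank K v.ResidueField = v.deg := rfl
  rw [h3] at h2
  unfold defect at h
  rw [map_add, Divisor.degree_single, one_mul] at h
  have h2' : (Module.finrank K (LinearMap.range θ) : ℤ) + Module.finrank K (LinearMap.ker θ) =
        v.deg := by exact_mod_cast h2
  have h4' : (Module.finrank K (LinearMap.ker θ) : ℤ) + Module.finrank K (riemannRochSpace D) =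
        Module.finrank K (riemannRochSpace (D + Finsupp.single v 1)) := by exact_mod_cast hθk
  have h5 : (Module.finrank K (LinearMap.range θ) : ℤ) ≤ 0 := by linarith
  have h6 : Module.finrank K (LinearMap.range θ) = 0 := by omega
  exact Submodule.finrank_eq_zero.mp h6

theorem exists_mem_repOf [IsFF K F] (D : Divisor K F) (α : repartitions K F) :
    ∃ E : Divisor K F, 0 ≤ E ∧ α ∈ repartitionsOf (D + E) := by
  classical
  have hfin := mem_repartitions_iff.mp α.2
  -- bad places: those where α v ∉ geSub v (-(D v))
  have hbad : {v : Place K F | (α : Place K F → F) v ∉ geSub v (-(D v))}.Finite := by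
    refine (hfin.union D.support.finite_toSet).subset fun v hv => ?_
    by_contra hcon
    rw [Set.mem_union, not_or] at hcon
    simp only [Set.mem_ofPred_eq, not_not, Finset.mem_coe, Finsupp.mem_support_iff] at hcon
    apply hv
    rw [hcon.2, neg_zero]
    exact hcon.1
  let g : Place K F → ℤ := fun v =>
    if (α : Place K F → F) v ∈ geSub v (-(D v)) then 0
      else max (-(v.ord ((α : Place K F → F) v)) - D v) 0
  have hg : (Function.support g).Finite := by
    refine hbad.subset fun v hv => ?_
    simp only [Set.mem_ofPred_eq]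
    intro hmem
    apply hv
    simp only [g, if_pos hmem]
  refine ⟨Finsupp.ofSupportFinite g hg, ?_, ?_⟩
  · intro v
    show 0 ≤ g v
    simp only [g]
    split_ifs
    · exact le_rfl
    · exact le_max_right _ _
  · rw [mem_repOf]
    intro v
    show _ ∈ geSub v (-(D v + g v))
    by_cases hmem : (α : Place K F → F) v ∈ geSub v (-(D v))
    · simp only [g, if_pos hmem, add_zero]; exact hmem
    · have hne : (α : Place K F → F) v ≠ 0 := fun h0 => hmem (h0 ▸ Submodule.zero_mem _)
      rw [mem_geSub_of_ne hne]
      simp only [g, if_neg hmem]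
      have := le_max_left (-(v.ord ((α : Place K F → F) v)) - D v) 0
      omega

/-- `H¹` vanishes at divisors of maximal defect. -/
theorem h1_subsingleton_of_max [IsFF K F] (D₀ : Divisor K F)
    (hmax : ∀ D : Divisor K F, defect D ≤ defect D₀) : Subsingleton (H1 D₀) := by
  have hinj : ∀ E : Divisor K F, 0 ≤ E → ∀ hle : D₀ ≤ D₀ + E,
      Function.Injective (h1Map hle) := by
    apply effective_induction
    · intro hle
      have : ∀ c : H1 D₀, ∀ d : H1 D₀, h1Map hle c = h1Map hle d → c = d := by
        intro c d hcd
        obtain ⟨a, rfl⟩ := Submodule.Quotient.mk_surjective _ c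
        obtain ⟨b, rfl⟩ := Submodule.Quotient.mk_surjective _ d
        rw [h1Map_mk, h1Map_mk, ← sub_eq_zero, ← Submodule.Quotient.mk_sub, mk_eq_zero_iff] at hcd
        rw [← sub_eq_zero, ← Submodule.Quotient.mk_sub, mk_eq_zero_iff]
        obtain ⟨f, hf⟩ := hcd
        exact ⟨f, by rwa [add_zero] at hf⟩
      exact fun c d => this c d
    · intro E v hE ih hle
      have hle1 : D₀ ≤ D₀ + E := le_add_of_nonneg_right hE
      have h1 := ih hle1
      have h2 : Function.Injective (h1Map (le_add_single (D₀ + E) v)) := by
        apply h1Map_injective_of_defect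
        calc defect (D₀ + E + Finsupp.single v 1) ≤ defect D₀ := hmax _
          _ ≤ defect (D₀ + E) := defect_mono hle1
      intro c d hcd
      apply h1
      apply h2
      obtain ⟨a, rfl⟩ := Submodule.Quotient.mk_surjective _ c
      obtain ⟨b, rfl⟩ := Submodule.Quotient.mk_surjective _ d
      rw [h1Map_mk, h1Map_mk] at hcd ⊢
      rw [h1Map_mk, h1Map_mk]
      rw [← sub_eq_zero, ← Submodule.Quotient.mk_sub, mk_eq_zero_iff] at hcd ⊢
      obtain ⟨f, hf⟩ := hcd
      exact ⟨f, by rwa [← add_assoc] at hf⟩
  refine ⟨fun c d => ?_⟩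
  rw [← sub_eq_zero]
  obtain ⟨α, hα⟩ := Submodule.Quotient.mk_surjective _ (c - d)
  rw [← hα]
  obtain ⟨E, hE, hαE⟩ := exists_mem_repOf D₀ α
  apply hinj E hE (le_add_of_nonneg_right hE)
  rw [h1Map_mk, map_zero, mk_eq_zero_iff]
  refine ⟨0, ?_⟩
  unfold constAdele
  rw [map_zero, sub_zero]
  exact hαE

theorem int_divisor_induction [IsFF K F] {P : Divisor K F → Prop} (D₀ : Divisor K F) (h0 : P D₀)
    (hstep : ∀ (D : Divisor K F) (v : Place K F), P D ↔ P (D + Finsupp.single v 1)) :
    ∀ D, P D := by
  have hup : ∀ D : Divisor K F, ∀ E : Divisor K F, 0 ≤ E → (P D ↔ P (D + E)) := by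
    intro D
    apply effective_induction
    · rw [add_zero]
    · intro E v _ ih
      rw [ih, hstep (D + E) v, add_assoc]
  intro D
  set E : Divisor K F := (D - D₀).mapRange (fun n => max n 0) (by simp) with hE
  have hE0 : 0 ≤ E := fun v => by rw [hE, Finsupp.mapRange_apply]; exact le_max_right _ _
  have h1 : P (D₀ + E) := (hup D₀ E hE0).mp h0
  have hG : 0 ≤ D₀ + E - D := by
    intro v
    simp only [Finsupp.sub_apply, Finsupp.add_apply, hE, Finsupp.mapRange_apply, Finsupp.coe_zero,
      Pi.zero_apply]
    have := le_max_left (D v - D₀ v) 0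
    omega
  rw [hup D _ hG]
  rwa [add_sub_cancel]

/-- `H¹(D)` is finite dimensional. -/
instance h1_finite [IsFF K F] (D : Divisor K F) : Module.Finite K (H1 D) := by
  obtain ⟨D₀, hmax⟩ := exists_max_defect (K := K) (F := F)
  have h0 : Module.Finite K (H1 D₀) := by
    have := h1_subsingleton_of_max D₀ hmax
    infer_instance
  exact int_divisor_induction (P := fun D => Module.Finite K (H1 D)) D₀ h0
    (fun D v => (h1_step D v).1) D

/-- The Euler characteristic defect `l(D) - h¹(D) - deg D`. -/
def chi (D : Divisor K F) : ℤ :=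
  (Module.finrank K (riemannRochSpace D) : ℤ) - (Module.finrank K (H1 D) : ℤ) - Divisor.degree D

theorem chi_step [IsFF K F] (D : Divisor K F) (v : Place K F) :
    chi (D + Finsupp.single v 1) = chi D := by
  have h := (h1_step D v).2 (h1_finite D)
  unfold chi
  rw [map_add, Divisor.degree_single, one_mul]
  linarith

theorem chi_eq [IsFF K F] (D : Divisor K F) : chi D = chi (0 : Divisor K F) := by
  have key := int_divisor_induction (K := K) (F := F) (P := fun D => chi D = chi (0 : Divisor K F))
    0 rfl (fun D v => by rw [chi_step])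
  exact key D

/-- **Riemann–Roch** (weak form, arbitrary constant field). -/
theorem riemann_roch' [IsFF K F] (D : Divisor K F) :
    (Module.finrank K (riemannRochSpace D) : ℤ) - (Module.finrank K (H1 D) : ℤ) =
      Divisor.degree D + (Module.finrank K (riemannRochSpace (0 : Divisor K F)) : ℤ)
        - (genusFF K F : ℤ) := by
  have h := chi_eq D
  unfold chi at h
  rw [map_zero, sub_zero] at h
  have hg : Module.finrank K (H1 (0 : Divisor K F)) = genusFF K F := rfl
  rw [hg] at h
  linarith

/-- **Riemann–Roch** (weak form) over an algebraically closed constant field. -/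
theorem riemann_roch [IsFF K F] [IsAlgClosed K] (D : Divisor K F) :
    (Module.finrank K (riemannRochSpace D) : ℤ) - (Module.finrank K (H1 D) : ℤ) =
      Divisor.degree D + 1 - (genusFF K F : ℤ) := by
  have := riemann_roch' D
  rwa [finrank_rr_zero, Nat.cast_one] at this

/-- `H¹(D) = 0` for `deg D` large. -/
theorem exists_h1_vanishing [IsFF K F] :
    ∃ N : ℤ, ∀ D : Divisor K F, N ≤ Divisor.degree D → Subsingleton (H1 D) := by
  obtain ⟨D₀, hmax⟩ := exists_max_defect (K := K) (F := F)
  refine ⟨defect D₀ + Divisor.degree D₀ + 1, fun D hD => ?_⟩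
  have h1 : 0 < Module.finrank K (riemannRochSpace (D - D₀)) := by
    have h2 := hmax (D - D₀)
    unfold defect at h2 hD
    rw [map_sub] at h2
    have : (0 : ℤ) < Module.finrank K (riemannRochSpace (D - D₀)) := by linarith
    exact_mod_cast this
  obtain ⟨f, hf, hf0⟩ := exists_ne_zero_of_finrank_pos h1
  have h3 : D₀ ≤ D - divOf f⁻¹ := by
    intro v
    have := mem_rr.mp hf v
    rw [mem_geSub_of_ne hf0, Finsupp.sub_apply] at this
    rw [Finsupp.sub_apply, divOf_apply, v.ord_inv]
    omega
  apply h1_subsingleton_of_max
  intro E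
  calc defect E ≤ defect D₀ := hmax E
    _ ≤ defect (D - divOf f⁻¹) := defect_mono h3
    _ = defect D := defect_sub_divOf _ (inv_ne_zero hf0)

end Fermat.Agent.FunField
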