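import Fermat.Agent.FunField.Approx

set_option autoImplicit false

noncomputable section

open AlgebraicCurve IsDedekindDomain WithZero

namespace Fermat.Agent.FunField

variable {K F : Type*} [Field K] [Field F] [Algebra K F]

open PlaceLemmas

/-- The `K`-subspace of elements of order at least `n` at `v`. -/
def geSub (v : Place K F) (n : ℤ) : Submodule K F where
  carrier := {f | v.adicValuation f ≤ exp (-n)}
  zero_mem' := by simp
  add_mem' := by
    intro f g hf hg
    show v.adicValuation (f + g) ≤ exp (-n)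
    exact (v.adicValuation.map_add f g).trans (max_le hf hg)
  smul_mem' := by
    intro c f hf
    show v.adicValuation (c • f) ≤ exp (-n)
    rw [Algebra.smul_def, map_mul]
    exact (mul_le_of_le_one_left' (v.adicValuation_algebraMap_le_one c)).trans hf

theorem mem_geSub {v : Place K F} {n : ℤ} {f : F} :
    f ∈ geSub v n ↔ f = 0 ∨ n ≤ v.ord f := by
  show v.adicValuation f ≤ exp (-n) ↔ _
  rw [v.adicValuation_le_exp_iff, neg_neg]

theorem mem_geSub_iff_adic {v : Place K F} {n : ℤ} {f : F} :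
    f ∈ geSub v n ↔ v.adicValuation f ≤ exp (-n) := Iff.rfl

theorem mem_geSub_of_ne {v : Place K F} {n : ℤ} {f : F} (hf : f ≠ 0) :
    f ∈ geSub v n ↔ n ≤ v.ord f := by
  rw [mem_geSub, or_iff_right hf]

theorem geSub_anti (v : Place K F) {m n : ℤ} (h : m ≤ n) : geSub v n ≤ geSub v m := by
  intro f hf
  rw [mem_geSub] at hf ⊢
  exact hf.imp id fun h' => h.trans h'

theorem mul_mem_geSub {v : Place K F} {m n : ℤ} {f g : F} (hf : f ∈ geSub v m)
    (hg : g ∈ geSub v n) : f * g ∈ geSub v (m + n) := by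
  rcases eq_or_ne f 0 with rfl | hf0
  · simp
  rcases eq_or_ne g 0 with rfl | hg0
  · simp
  rw [mem_geSub_of_ne hf0] at hf
  rw [mem_geSub_of_ne hg0] at hg
  rw [mem_geSub_of_ne (mul_ne_zero hf0 hg0), v.ord_mul hf0 hg0]
  omega

theorem mul_mem_geSub_iff {v : Place K F} {n : ℤ} {f g : F} (hf : f ≠ 0) :
    f * g ∈ geSub v (v.ord f + n) ↔ g ∈ geSub v n := by
  rcases eq_or_ne g 0 with rfl | hg0
  · simp
  rw [mem_geSub_of_ne hg0, mem_geSub_of_ne (mul_ne_zero hf hg0), v.ord_mul hf hg0]
  omega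

theorem mem_geSub_zero {v : Place K F} {f : F} : f ∈ geSub v 0 ↔ f ∈ v.toValuationSubring := by
  rw [mem_iff_adicValuation_le_one, mem_geSub_iff_adic]
  simp

theorem one_mem_geSub_zero (v : Place K F) : (1 : F) ∈ geSub v 0 := by
  rw [mem_geSub_zero]; exact v.toValuationSubring.one_mem

theorem algebraMap_mem_geSub_zero (v : Place K F) (c : K) : algebraMap K F c ∈ geSub v 0 := by
  rw [mem_geSub_zero]; exact v.algebraMap_mem' c

theorem pow_mem_geSub_zero {v : Place K F} {f : F} (hf : f ∈ geSub v 0) (n : ℕ) :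
    f ^ n ∈ geSub v 0 := by
  rw [mem_geSub_zero] at hf ⊢; exact pow_mem hf n

/-- The residue map `O_v → κ(v)` on `geSub v 0`. -/
def residueLin (v : Place K F) : geSub v 0 →ₗ[K] v.ResidueField where
  toFun f := IsLocalRing.residue v.toValuationSubring ⟨f.1, mem_geSub_zero.mp f.2⟩
  map_add' f g := by
    rw [← map_add]; rfl
  map_smul' c f := by
    have h : (⟨(c • f : geSub v 0).1, mem_geSub_zero.mp (c • f).2⟩ : v.toValuationSubring)
        = c • ⟨f.1, mem_geSub_zero.mp f.2⟩ := by
      apply Subtype.ext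
      show c • f.1 = ((c • (⟨f.1, mem_geSub_zero.mp f.2⟩ : v.toValuationSubring) :
        v.toValuationSubring) : F)
      rw [Algebra.smul_def, Algebra.smul_def]
      rfl
    simp only [RingHom.id_apply]
    rw [h, Algebra.smul_def, map_mul, Algebra.smul_def]
    rfl

theorem residueLin_surjective (v : Place K F) : Function.Surjective (residueLin v) := by
  intro y
  obtain ⟨a, rfl⟩ := IsLocalRing.residue_surjective y
  exact ⟨⟨a.1, mem_geSub_zero.mpr a.2⟩, rfl⟩

theorem residueLin_eq_zero_iff (v : Place K F) (f : geSub v 0) :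
    residueLin v f = 0 ↔ f.1 ∈ geSub v 1 := by
  show IsLocalRing.residue v.toValuationSubring ⟨f.1, mem_geSub_zero.mp f.2⟩ = 0 ↔ _
  rw [IsLocalRing.residue_eq_zero_iff, mem_maximalIdeal_iff]
  refine Iff.trans ?_ (mem_geSub (v := v) (n := 1) (f := f.1)).symm
  exact or_congr Iff.rfl (by
    show 0 < v.ord f.1 ↔ 1 ≤ v.ord f.1
    omega)

theorem ker_residueLin (v : Place K F) :
    LinearMap.ker (residueLin v) = (geSub v 1).comap (geSub v 0).subtype := by
  ext f
  rw [LinearMap.mem_ker, residueLin_eq_zero_iff]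
  rfl

/-- A `K`-linear map `geSub v n → κ(v)`, surjective with kernel `geSub v (n+1)`. -/
theorem exists_step (v : Place K F) (n : ℤ) :
    ∃ φ : geSub v n →ₗ[K] v.ResidueField, Function.Surjective φ ∧
      ∀ f, φ f = 0 ↔ f.1 ∈ geSub v (n + 1) := by
  obtain ⟨t, ht0, ht⟩ := exists_ord_eq v (-n)
  have hmem : ∀ f : geSub v n, t * f.1 ∈ geSub v 0 := by
    intro f
    have : (0 : ℤ) = v.ord t + n := by omega
    rw [this, mul_mem_geSub_iff ht0]
    exact f.2
  let m : geSub v n →ₗ[K] geSub v 0 :=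
    { toFun := fun f => ⟨t * f.1, hmem f⟩
      map_add' := fun f g => Subtype.ext (by simp [mul_add])
      map_smul' := fun c f => Subtype.ext (by simp) }
  refine ⟨(residueLin v).comp m, ?_, ?_⟩
  · intro y
    obtain ⟨g, rfl⟩ := residueLin_surjective v y
    have hg : t⁻¹ * g.1 ∈ geSub v n := by
      have : n = v.ord t⁻¹ + 0 := by rw [v.ord_inv]; omega
      rw [this, mul_mem_geSub_iff (inv_ne_zero ht0)]
      exact g.2
    refine ⟨⟨t⁻¹ * g.1, hg⟩, ?_⟩
    rw [LinearMap.comp_apply]
    congr 1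
    apply Subtype.ext
    show t * (t⁻¹ * g.1) = g.1
    rw [← mul_assoc, mul_inv_cancel₀ ht0, one_mul]
  · intro f
    rw [LinearMap.comp_apply, residueLin_eq_zero_iff]
    show t * f.1 ∈ geSub v 1 ↔ _
    have := mul_mem_geSub_iff (v := v) (n := n + 1) (g := f.1) ht0
    rwa [show v.ord t + (n + 1) = 1 by omega] at this

/-- Local independence lemma. -/
theorem local_indep (v : Place K F) {π : F} (hπ0 : π ≠ 0) (hπ : v.ord π = 1) {d : ℕ}
    (s : Fin d → F) (hs : ∀ j, s j ∈ geSub v 0)
    (hind : ∀ c : Fin d → K, (∑ j, c j • s j) ∈ geSub v 1 → c = 0) (e : ℕ) :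
    ∀ c : Fin d → Fin e → K, (∑ j, ∑ a, c j a • (s j * π ^ (a : ℕ))) ∈ geSub v e → c = 0 := by
  induction e with
  | zero => intro c _; funext j a; exact a.elim0
  | succ e ih =>
    intro c hc
    have hsplit : (∑ j, ∑ a, c j a • (s j * π ^ (a : ℕ))) =
        (∑ j, c j 0 • s j) + π * (∑ j, ∑ a : Fin e, c j a.succ • (s j * π ^ (a : ℕ))) := by
      rw [Finset.mul_sum, ← Finset.sum_add_distrib]
      refine Finset.sum_congr rfl fun j _ => ?_
      rw [Fin.sum_univ_succ, Finset.mul_sum]
      simp only [Fin.val_zero, pow_zero, mul_one, Fin.val_succ]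
      congr 1
      refine Finset.sum_congr rfl fun a _ => ?_
      rw [mul_smul_comm, pow_succ]
      ring_nf
    have hsum0 : (∑ j, ∑ a : Fin e, c j a.succ • (s j * π ^ (a : ℕ))) ∈ geSub v 0 := by
      refine Submodule.sum_mem _ fun j _ => Submodule.sum_mem _ fun a _ =>
        Submodule.smul_mem _ _ ?_
      have := mul_mem_geSub (hs j) (pow_mem_geSub_zero (v := v) (f := π)
        (by rw [mem_geSub_of_ne hπ0, hπ]; norm_num) (a : ℕ))
      simpa using this
    have hπsum : π * (∑ j, ∑ a : Fin e, c j a.succ • (s j * π ^ (a : ℕ))) ∈ geSub v 1 := by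
      have : (1 : ℤ) = v.ord π + 0 := by omega
      rw [this, mul_mem_geSub_iff hπ0]
      exact hsum0
    have h0 : (∑ j, c j 0 • s j) ∈ geSub v 1 := by
      have h1 : (∑ j, c j 0 • s j) = (∑ j, ∑ a, c j a • (s j * π ^ (a : ℕ))) -
          π * (∑ j, ∑ a : Fin e, c j a.succ • (s j * π ^ (a : ℕ))) := by
        rw [hsplit]; ring
      rw [h1]
      refine Submodule.sub_mem _ (geSub_anti v ?_ hc) hπsum
      push_cast; omega
    have hc0 : (fun j => c j 0) = 0 := hind _ h0
    have h1 : (∑ j, ∑ a : Fin e, c j a.succ • (s j * π ^ (a : ℕ))) ∈ geSub v e := by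
      have h2 : (∑ j, c j 0 • s j) = 0 := by
        refine Finset.sum_eq_zero fun j _ => ?_
        have := congrFun hc0 j
        simp only [Pi.zero_apply] at this
        rw [this, zero_smul]
      rw [hsplit, h2, zero_add] at hc
      have : (((e + 1 : ℕ) : ℤ)) = v.ord π + e := by rw [hπ]; push_cast; ring
      rw [this, mul_mem_geSub_iff hπ0] at hc
      exact hc
    have h3 := ih (fun j a => c j a.succ) h1
    funext j a
    refine Fin.cases ?_ (fun a => ?_) a
    · exact congrFun hc0 j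
    · exact congrFun (congrFun h3 j) a

end Fermat.Agent.FunField
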