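import Fermat.Agent.FunField.DegreeFormula
import Fermat.Prelude.Def_AlgebraicCurve_IsCurveOver

/-! # Differentials of function fields and the bridge `IsCurveOver` / `IsFF`. -/

noncomputable section

open AlgebraicCurve IsDedekindDomain WithZero IsLocalRing IntermediateField
open scoped KaehlerDifferential TensorProduct IntermediateField.algebraAdjoinAdjoin

namespace Fermat.Agent.FunField

variable {K F : Type*} [Field K] [Field F] [Algebra K F]

/-- A separating transcendence basis `x` makes `F` formally étale over the polynomial ring. -/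
theorem formallyEtale_mvPolynomial {ι : Type*} {x : ι → F} (hx : AlgebraicIndependent K x)
    (hsep : Algebra.IsSeparable (IntermediateField.adjoin K (Set.range x)) F) :
    letI : Algebra (MvPolynomial ι K) F := (MvPolynomial.aeval x).toAlgebra
    Algebra.FormallyEtale (MvPolynomial ι K) F := by
  letI : Algebra (MvPolynomial ι K) F := (MvPolynomial.aeval x).toAlgebra
  set A := Algebra.adjoin K (Set.range x) with hA
  set E := IntermediateField.adjoin K (Set.range x) with hE
  letI algSA : Algebra (MvPolynomial ι K) A := (hx.aevalEquiv : MvPolynomial ι K →+* A).toAlgebra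
  haveI : IsScalarTower (MvPolynomial ι K) A F := by
    refine IsScalarTower.of_algebraMap_eq fun p => ?_
    change MvPolynomial.aeval x p = ((hx.aevalEquiv p : A) : F)
    exact (hx.algebraMap_aevalEquiv p).symm
  haveI h1 : Algebra.FormallyEtale (MvPolynomial ι K) A := by
    let e : MvPolynomial ι K ≃ₐ[MvPolynomial ι K] A :=
      { (hx.aevalEquiv : MvPolynomial ι K ≃+* A) with
        commutes' := fun r => rfl }
    exact Algebra.FormallyEtale.of_equiv e
  haveI h2 : Algebra.FormallyEtale A E :=
    Algebra.FormallyEtale.of_isLocalization (Rₘ := E) (nonZeroDivisors A)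
  haveI h3 : Algebra.FormallyEtale E F := Algebra.FormallyEtale.of_isSeparable E F
  haveI h4 : Algebra.FormallyEtale A F := Algebra.FormallyEtale.comp A E F
  exact Algebra.FormallyEtale.comp (MvPolynomial ι K) A F

/-- Basis `d x_i` of `Ω[F/K]` attached to a separating transcendence basis. -/
theorem exists_kaehlerBasis {ι : Type*} {x : ι → F} (hx : AlgebraicIndependent K x)
    (hsep : Algebra.IsSeparable (IntermediateField.adjoin K (Set.range x)) F) :
    ∃ b : Module.Basis ι F Ω[F⁄K], ∀ i, b i = KaehlerDifferential.D K F (x i) := by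
  letI : Algebra (MvPolynomial ι K) F := (MvPolynomial.aeval x).toAlgebra
  haveI : IsScalarTower K (MvPolynomial ι K) F := by
    refine IsScalarTower.of_algebraMap_eq fun p => ?_
    change _ = MvPolynomial.aeval x (MvPolynomial.C p)
    simp
  haveI := formallyEtale_mvPolynomial hx hsep
  let b0 : Module.Basis ι F (F ⊗[MvPolynomial ι K] Ω[MvPolynomial ι K⁄K]) :=
    Algebra.TensorProduct.basis F (KaehlerDifferential.mvPolynomialBasis K ι)
  let e := KaehlerDifferential.tensorKaehlerEquivOfFormallyEtale K (MvPolynomial ι K) F
  refine ⟨b0.map e, fun i => ?_⟩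
  have h1 : b0 i = 1 ⊗ₜ[MvPolynomial ι K] KaehlerDifferential.D K _ (MvPolynomial.X i) := by
    simp [b0]
  rw [Module.Basis.map_apply, h1]
  have h2 := KaehlerDifferential.tensorKaehlerEquivOfFormallyEtale_symm_D_algebraMap K
    (MvPolynomial ι K) F (MvPolynomial.X i)
  rw [← h2, LinearEquiv.apply_symm_apply]
  congr 1
  change MvPolynomial.aeval x (MvPolynomial.X i) = x i
  simp

/-- `dx` is a basis of `Ω[F/K]` for a separating element `x`. -/
theorem exists_kaehlerBasis_of_separable {x : F} (hx : Transcendental K x)
    [hsep : Algebra.IsSeparable K⟮x⟯ F] :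
    ∃ b : Module.Basis Unit F Ω[F⁄K], ∀ i, b i = KaehlerDifferential.D K F x := by
  have h1 : AlgebraicIndependent K (fun _ : Unit => x) := by
    rwa [algebraicIndependent_unique_type_iff]
  have h2 : Algebra.IsSeparable (IntermediateField.adjoin K (Set.range fun _ : Unit => x)) F := by
    have h3 : (Set.range fun _ : Unit => x) = {x} := Set.range_const
    rw [h3]; exact hsep
  exact exists_kaehlerBasis h1 h2

theorem kaehler_free_finrank_of_separable {x : F} (hx : Transcendental K x)
    [hsep : Algebra.IsSeparable K⟮x⟯ F] :
    Module.Free F Ω[F⁄K] ∧ Module.finrank F Ω[F⁄K] = 1 := by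
  obtain ⟨b, -⟩ := exists_kaehlerBasis_of_separable hx
  exact ⟨Module.Free.of_basis b, by rw [Module.finrank_eq_card_basis b]; simp⟩

/-- A function field having a separating element is a curve in the sense of the Prelude. -/
theorem isCurveOver_of_separable [IsFF K F] {x : F} (hx : Transcendental K x)
    [hsep : Algebra.IsSeparable K⟮x⟯ F] : IsCurveOver K F where
  toHasPrincipalDivisors := inferInstance
  finiteResidue _ := inferInstance
  kaehler_free_rank_one := kaehler_free_finrank_of_separable hx

/-- Over a perfect field, curves in the sense of the Prelude which are finitely generated are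
function fields. -/
theorem isFF_of_isCurveOver [PerfectField K] [h : IsCurveOver K F] [Algebra.EssFiniteType K F] :
    IsFF K F := by
  obtain ⟨s, hs, hsep⟩ := exists_isTranscendenceBasis_and_isSeparable_of_perfectField K F
  have hsep' : Algebra.IsSeparable
      (IntermediateField.adjoin K (Set.range ((↑) : s → F))) F := by
    convert! hsep <;> simp
  obtain ⟨b, hb⟩ := exists_kaehlerBasis hs.1 hsep'
  have hcard : s.card = 1 := by
    have := h.kaehler_free_rank_one.2
    rw [Module.finrank_eq_card_basis b] at this
    simpa using this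
  obtain ⟨x, rfl⟩ := Finset.card_eq_one.mp hcard
  have hx : Transcendental K x := by
    have := hs.1.transcendental ⟨x, by simp⟩
    simpa using this
  haveI : Algebra.IsSeparable K⟮x⟯ F := by
    have h3 : (({x} : Finset F) : Set F) = {x} := by simp
    rw [h3] at hsep
    exact hsep
  haveI : Algebra.EssFiniteType K⟮x⟯ F := Algebra.EssFiniteType.of_comp K K⟮x⟯ F
  haveI : Algebra.IsAlgebraic K⟮x⟯ F := inferInstance
  exact ⟨⟨x, hx, finiteDimensional_of_essFiniteType_of_isAlgebraic K⟮x⟯ F⟩⟩

variable (K F) in
/-- Over a perfect field a function field has a separating element. -/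
theorem exists_separating [PerfectField K] [h : IsFF K F] :
    ∃ x : F, Transcendental K x ∧ Algebra.IsSeparable K⟮x⟯ F ∧ FiniteDimensional K⟮x⟯ F := by
  obtain ⟨s, hs, hsep⟩ := exists_isTranscendenceBasis_and_isSeparable_of_perfectField K F
  obtain ⟨x, hx, hfin⟩ := h
  -- trdeg = 1
  have hb : IsTranscendenceBasis K (fun _ : Unit => x) := by
    rw [isTranscendenceBasis_iff_algebraicIndependent_isAlgebraic]
    refine ⟨by rwa [algebraicIndependent_unique_type_iff], ?_⟩
    have h3 : (Set.range fun _ : Unit => x) = {x} := Set.range_const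
    rw [h3]
    exact (IsFractionRing.comap_isAlgebraic_iff (A := Algebra.adjoin K {x})
      (K := K⟮x⟯) (C := F)).mpr inferInstance
  have hcard : s.card = 1 := by
    have := hs.lift_cardinalMk_eq hb
    simpa using this
  obtain ⟨y, rfl⟩ := Finset.card_eq_one.mp hcard
  have hy : Transcendental K y := by
    have := hs.1.transcendental ⟨y, by simp⟩
    simpa using this
  haveI : Algebra.IsSeparable K⟮y⟯ F := by
    have h3 : (({y} : Finset F) : Set F) = {y} := by simp
    rw [h3] at hsep
    exact hsep
  haveI : IsFF K F := ⟨⟨x, hx, hfin⟩⟩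
  exact ⟨y, hy, inferInstance, finiteDimensional_adjoin_of_isFF hy⟩

/-- Over a perfect field, a function field is a curve in the sense of the Prelude. -/
theorem isCurveOver_of_isFF [PerfectField K] [IsFF K F] : IsCurveOver K F := by
  obtain ⟨x, hx, hsep, -⟩ := exists_separating K F
  exact isCurveOver_of_separable hx

/-- If `dx ≠ 0` in the one-dimensional space of differentials then `x` is separating. -/
theorem isSeparable_of_D_ne_zero [Algebra.EssFiniteType K F] {x : F}
    (h1 : Module.finrank F Ω[F⁄K] = 1)
    (hx : KaehlerDifferential.D K F x ≠ 0) : Algebra.IsSeparable K⟮x⟯ F := by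
  haveI : Algebra.EssFiniteType K⟮x⟯ F := Algebra.EssFiniteType.of_comp K K⟮x⟯ F
  haveI : Subsingleton Ω[F⁄K⟮x⟯] := by
    have hspan : ∀ w : Ω[F⁄K], ∃ c : F, c • KaehlerDifferential.D K F x = w :=
      fun w => exists_smul_eq_of_finrank_eq_one h1 hx w
    have hD : KaehlerDifferential.D K⟮x⟯ F x = 0 := by
      exact Derivation.map_algebraMap (KaehlerDifferential.D K⟮x⟯ F)
        ⟨x, mem_adjoin_simple_self K x⟩
    have hsurj := KaehlerDifferential.map_surjective K K⟮x⟯ F
    refine ⟨fun a b => ?_⟩
    have hz : ∀ a : Ω[F⁄K⟮x⟯], a = 0 := by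
      intro a
      obtain ⟨w, rfl⟩ := hsurj a
      obtain ⟨c, rfl⟩ := hspan w
      rw [LinearMap.map_smul, KaehlerDifferential.map_D]
      simp [hD]
    rw [hz a, hz b]
  haveI : Algebra.FormallyUnramified K⟮x⟯ F := ⟨inferInstance⟩
  exact (Algebra.FormallyUnramified.iff_isSeparable K⟮x⟯ F).mp inferInstance

end Fermat.Agent.FunField
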