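import Fermat.Agent.FunField.ZeroBound

set_option autoImplicit false

noncomputable section

open AlgebraicCurve IsDedekindDomain WithZero

namespace Fermat.Agent.FunField

variable {K F : Type*} [Field K] [Field F] [Algebra K F]

open PlaceLemmas IntermediateField

variable (K F) in
/-- `F/K` is a function field in one variable (finite over some `K(x)`, `x` transcendental). -/
class IsFF : Prop where
  exists_transcendental : ∃ x : F, Transcendental K x ∧ FiniteDimensional K⟮x⟯ F

theorem isAlgebraic_of_isFF_aux {x t : F} (hx : Transcendental K x) [FiniteDimensional K⟮x⟯ F]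
    (ht : Transcendental K t) : IsAlgebraic K⟮t⟯ x := by
  refine isAlgebraic_adjoin_iff.mpr (.adjoin_singleton hx ht
    (isAlgebraic_adjoin_iff.mp (Algebra.IsAlgebraic.isAlgebraic t)))

theorem essFiniteType_of_finite {x : F} [FiniteDimensional K⟮x⟯ F] :
    Algebra.EssFiniteType K F := by
  have h1 : Algebra.EssFiniteType K K⟮x⟯ := essFiniteType_iff.mpr ⟨{x}, by simp⟩
  exact Algebra.EssFiniteType.comp K K⟮x⟯ F

/-- A finitely generated algebraic field extension is finite. -/
theorem finiteDimensional_of_essFiniteType_of_isAlgebraic (E L : Type*) [Field E] [Field L]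
    [Algebra E L] [Algebra.EssFiniteType E L] [Algebra.IsAlgebraic E L] :
    FiniteDimensional E L := by
  obtain ⟨s, hs⟩ := IntermediateField.fg_top E L
  have h : FiniteDimensional E (IntermediateField.adjoin E (s : Set L)) :=
    IntermediateField.finiteDimensional_adjoin fun x _ =>
      (Algebra.IsAlgebraic.isAlgebraic x).isIntegral
  rw [hs] at h
  exact Module.Finite.of_surjective (IntermediateField.topEquiv (F := E) (E := L)).toLinearMap
    (IntermediateField.topEquiv (F := E) (E := L)).surjective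

instance isFF_essFiniteType [h : IsFF K F] : Algebra.EssFiniteType K F := by
  obtain ⟨x, hx, hfin⟩ := h.exists_transcendental
  exact essFiniteType_of_finite (x := x)

theorem isAlgebraic_adjoin_of_isFF [h : IsFF K F] {t : F} (ht : Transcendental K t) :
    Algebra.IsAlgebraic K⟮t⟯ F := by
  obtain ⟨x, hx, hfin⟩ := h.exists_transcendental
  have hxt := isAlgebraic_of_isFF_aux hx ht
  refine ⟨fun a => ?_⟩
  have ha : IsAlgebraic K⟮x⟯ a := Algebra.IsAlgebraic.isAlgebraic a
  rw [isAlgebraic_adjoin_iff] at ha hxt ⊢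
  refine IsAlgebraic.adjoin_of_forall_isAlgebraic (s := {x}) ?_ ha
  rintro y ⟨rfl, _⟩
  exact hxt

theorem finiteDimensional_adjoin_of_isFF [h : IsFF K F] {t : F} (ht : Transcendental K t) :
    FiniteDimensional K⟮t⟯ F := by
  have h1 : Algebra.EssFiniteType K⟮t⟯ F := Algebra.EssFiniteType.of_comp K K⟮t⟯ F
  have h2 := isAlgebraic_adjoin_of_isFF (K := K) ht
  exact finiteDimensional_of_essFiniteType_of_isAlgebraic K⟮t⟯ F

/-- Value of a polynomial expression in a non-unit `t`. -/
theorem valuation_aeval (A : ValuationSubring F) (hK : ∀ c : K, algebraMap K F c ∈ A) {t : F}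
    (ht : t ∈ A.nonunits) (n : ℕ) :
    ∀ p : Polynomial K, p ≠ 0 → p.natDegree < n →
      ∃ k : ℕ, A.valuation (Polynomial.aeval t p) = A.valuation t ^ k := by
  have htA : t ∈ A := A.nonunits_subset ht
  have htlt : A.valuation t < 1 := (ValuationSubring.mem_nonunits_iff (A := A)).mp ht
  induction n with
  | zero => intro p _ h; omega
  | succ n ih =>
    intro p hp hdeg
    have hdecomp : Polynomial.aeval t p =
        t * Polynomial.aeval t (Polynomial.divX p) + algebraMap K F (p.coeff 0) := by
      conv_lhs => rw [← Polynomial.X_mul_divX_add p]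
      rw [map_add, map_mul, Polynomial.aeval_X, Polynomial.aeval_C]
    by_cases hc : p.coeff 0 = 0
    · have hne : Polynomial.divX p ≠ 0 := by
        intro h0
        apply hp
        rw [← Polynomial.X_mul_divX_add p, h0, hc]
        simp
      have hnd : p.natDegree ≠ 0 := by
        intro h0
        apply hne
        rw [Polynomial.divX_eq_zero_iff]
        exact Polynomial.eq_C_of_natDegree_eq_zero h0
      have hdeg' : (Polynomial.divX p).natDegree < n := by
        rw [Polynomial.natDegree_divX_eq_natDegree_tsub_one]; omega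
      obtain ⟨k, hk⟩ := ih _ hne hdeg'
      refine ⟨k + 1, ?_⟩
      rw [hdecomp, hc, map_zero, add_zero, map_mul, hk, pow_succ']
    · refine ⟨0, ?_⟩
      rw [pow_zero, hdecomp, add_comm]
      have h1 : A.valuation (algebraMap K F (p.coeff 0)) = 1 := by
        have ha := (A.valuation_le_one_iff (algebraMap K F (p.coeff 0))).mpr (hK _)
        have hb := (A.valuation_le_one_iff (algebraMap K F (p.coeff 0)⁻¹)).mpr (hK _)
        rw [map_inv₀, map_inv₀] at hb
        have h0 : A.valuation (algebraMap K F (p.coeff 0)) ≠ 0 := by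
          rw [Valuation.ne_zero_iff]
          simpa using hc
        apply le_antisymm ha
        rwa [inv_le_one₀ (zero_lt_iff.mpr h0)] at hb
      have h2 : A.valuation (t * Polynomial.aeval t (Polynomial.divX p)) < 1 := by
        rw [map_mul]
        have h3 : A.valuation (Polynomial.aeval t (Polynomial.divX p)) ≤ 1 := by
          rw [A.valuation_le_one_iff, Polynomial.aeval_eq_sum_range]
          refine sum_mem fun i _ => ?_
          rw [Algebra.smul_def]
          exact mul_mem (hK _) (pow_mem htA i)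
        exact mul_lt_one_of_lt_of_le htlt h3
      rw [← h1] at h2
      rw [Valuation.map_add_eq_of_lt_left _ h2, h1]

theorem valuation_adjoin (A : ValuationSubring F) (hK : ∀ c : K, algebraMap K F c ∈ A) {t : F}
    (ht : t ∈ A.nonunits) (htr : Transcendental K t) (c : K⟮t⟯) (hc : c ≠ 0) :
    ∃ k : ℤ, A.valuation (c : F) = A.valuation t ^ k := by
  have ht0 : t ≠ 0 := fun h0 => htr (h0 ▸ isAlgebraic_zero)
  have hv0 : A.valuation t ≠ 0 := (Valuation.ne_zero_iff _).mpr ht0
  obtain ⟨a, ha, b, hb, hab⟩ := mem_adjoin_iff_div.mp c.2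
  have hmem : ∀ z : F, z ∈ Algebra.adjoin K {t} → ∃ p : Polynomial K, Polynomial.aeval t p = z := by
    intro z hz
    rw [Algebra.adjoin_singleton_eq_range_aeval] at hz
    exact hz
  obtain ⟨p, rfl⟩ := hmem a ha
  obtain ⟨q, rfl⟩ := hmem b hb
  have hc' : (c : F) ≠ 0 := by exact_mod_cast hc
  have hp : p ≠ 0 := by
    rintro rfl
    apply hc'
    rw [hab]; simp
  have hq : q ≠ 0 := by
    rintro rfl
    apply hc'
    rw [hab]; simp
  obtain ⟨k, hk⟩ := valuation_aeval A hK ht _ p hp (Nat.lt_succ_self _)
  obtain ⟨l, hl⟩ := valuation_aeval A hK ht _ q hq (Nat.lt_succ_self _)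
  refine ⟨k - l, ?_⟩
  rw [hab, map_div₀, hk, hl, zpow_sub₀ hv0, zpow_natCast, zpow_natCast]

/-- Values of elements of `F` are commensurable with the value of `t`. -/
theorem exists_valuation_pow (A : ValuationSubring F) (hK : ∀ c : K, algebraMap K F c ∈ A) {t : F}
    (ht : t ∈ A.nonunits) (htr : Transcendental K t) [FiniteDimensional K⟮t⟯ F] (f : F)
    (hf : f ≠ 0) :
    ∃ k : ℤ, A.valuation f ^ (Module.finrank K⟮t⟯ F).factorial = A.valuation t ^ k := by
  classical
  have ht0 : t ≠ 0 := fun h0 => htr (h0 ▸ isAlgebraic_zero)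
  have hv0 : A.valuation t ≠ 0 := (Valuation.ne_zero_iff _).mpr ht0
  have hvf0 : A.valuation f ≠ 0 := (Valuation.ne_zero_iff _).mpr hf
  have hint : IsIntegral K⟮t⟯ f := Algebra.IsIntegral.isIntegral f
  set P := minpoly K⟮t⟯ f with hP
  have hP0 : P ≠ 0 := minpoly.ne_zero hint
  have hsum : ∑ i ∈ P.support, (P.coeff i : F) * f ^ i = 0 := by
    have := minpoly.aeval K⟮t⟯ f
    rw [Polynomial.aeval_def, Polynomial.eval₂_eq_sum, Polynomial.sum_def, ← hP] at this
    exact this
  have hne : P.support.Nonempty := Polynomial.support_nonempty.mpr hP0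
  obtain ⟨i₀, hi₀, hmax⟩ := Finset.exists_max_image P.support
    (fun i => A.valuation ((P.coeff i : F) * f ^ i)) hne
  have hterm0 : ∀ i ∈ P.support, A.valuation ((P.coeff i : F) * f ^ i) ≠ 0 := by
    intro i hi
    rw [Valuation.ne_zero_iff]
    refine mul_ne_zero ?_ (pow_ne_zero i hf)
    exact_mod_cast Polynomial.mem_support_iff.mp hi
  obtain ⟨j₀, hj₀, hne₀, heq⟩ : ∃ j ∈ P.support, j ≠ i₀ ∧
      A.valuation ((P.coeff j : F) * f ^ j) = A.valuation ((P.coeff i₀ : F) * f ^ i₀) := by
    by_contra hcon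
    push Not at hcon
    have hlt : A.valuation (∑ i ∈ P.support.erase i₀, (P.coeff i : F) * f ^ i) <
        A.valuation ((P.coeff i₀ : F) * f ^ i₀) := by
      refine Valuation.map_sum_lt _ (hterm0 i₀ hi₀) fun i hi => ?_
      have hi' := Finset.mem_of_mem_erase hi
      exact lt_of_le_of_ne (hmax i hi') (hcon i hi' (Finset.ne_of_mem_erase hi))
    have h1 : (∑ i ∈ P.support.erase i₀, (P.coeff i : F) * f ^ i) =
        -((P.coeff i₀ : F) * f ^ i₀) := by
      rw [← Finset.add_sum_erase _ _ hi₀] at hsum
      linear_combination hsum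
    rw [h1, Valuation.map_neg] at hlt
    exact lt_irrefl _ hlt
  -- extract the relation for `f ^ m`
  have key : ∀ i j : ℕ, i ∈ P.support → j ∈ P.support → i < j →
      A.valuation ((P.coeff j : F) * f ^ j) = A.valuation ((P.coeff i : F) * f ^ i) →
      ∃ k : ℤ, A.valuation f ^ (Module.finrank K⟮t⟯ F).factorial = A.valuation t ^ k := by
    intro i j hi hj hij h
    obtain ⟨a, ha⟩ := valuation_adjoin A hK ht htr (P.coeff i) (Polynomial.mem_support_iff.mp hi)
    obtain ⟨b, hb⟩ := valuation_adjoin A hK ht htr (P.coeff j) (Polynomial.mem_support_iff.mp hj)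
    rw [map_mul, map_mul, ha, hb, map_pow, map_pow] at h
    have h1 : A.valuation f ^ (j - i) = A.valuation t ^ (a - b) := by
      have hji : A.valuation f ^ j = A.valuation f ^ (j - i) * A.valuation f ^ i := by
        rw [← pow_add]; congr 1; omega
      rw [hji, ← mul_assoc] at h
      have h2 := mul_right_cancel₀ (pow_ne_zero i hvf0) h
      rw [zpow_sub₀ hv0, eq_div_iff (zpow_ne_zero b hv0), mul_comm]
      exact h2
    have hle : j ≤ Module.finrank K⟮t⟯ F :=
      (Polynomial.le_natDegree_of_mem_supp j hj).trans (minpoly.natDegree_le f)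
    have hdvd : (j - i) ∣ (Module.finrank K⟮t⟯ F).factorial :=
      Nat.dvd_factorial (by omega) (by omega)
    obtain ⟨m, hm⟩ := hdvd
    refine ⟨(a - b) * m, ?_⟩
    rw [hm, pow_mul, h1, zpow_mul, zpow_natCast]
  rcases lt_or_gt_of_ne hne₀ with hlt | hlt
  · exact key j₀ i₀ hj₀ hi₀ hlt heq.symm
  · exact key i₀ j₀ hi₀ hj₀ hlt heq

/-- A valuation ring of a one-variable function field, containing `K` and different from `F`,
is a discrete valuation ring. -/
theorem isPrincipalIdealRing_valuationSubring [h : IsFF K F] (A : ValuationSubring F)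
    (hK : ∀ c : K, algebraMap K F c ∈ A) (hA : A ≠ ⊤) : IsPrincipalIdealRing A := by
  classical
  -- choose a nonunit `t ≠ 0`
  obtain ⟨t, ht, ht0⟩ : ∃ t ∈ A.nonunits, t ≠ 0 := by
    by_contra hcon
    push Not at hcon
    apply hA
    rw [eq_top_iff]
    intro f _
    by_contra hf
    have hf0 : f ≠ 0 := fun h0 => hf (h0 ▸ A.zero_mem)
    have h1 : A.valuation f⁻¹ < 1 := by
      rw [map_inv₀]
      have : 1 < A.valuation f := by
        rw [← not_le, A.valuation_le_one_iff]; exact hf
      exact inv_lt_one_of_one_lt₀ this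
    exact inv_ne_zero hf0 (hcon _ ((ValuationSubring.mem_nonunits_iff (A := A)).mpr h1))
  have htlt : A.valuation t < 1 := (ValuationSubring.mem_nonunits_iff (A := A)).mp ht
  have hv0 : A.valuation t ≠ 0 := (Valuation.ne_zero_iff _).mpr ht0
  have htr : Transcendental K t := by
    intro halg
    have hinv : IsIntegral K t⁻¹ := halg.inv.isIntegral
    have hKA : ∀ z : F, IsIntegral K z → z ∈ A := by
      intro z hz
      let _ : Algebra K A := ((algebraMap K F).codRestrict A.toSubring hK).toAlgebra
      have : IsScalarTower K A F := IsScalarTower.of_algebraMap_eq fun _ => rfl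
      have hint' : IsIntegral A z := hz.tower_top
      obtain ⟨y, hy⟩ := IsIntegrallyClosed.isIntegral_iff.mp hint'
      rw [← hy]; exact y.2
    have h1 := (A.valuation_le_one_iff t⁻¹).mpr (hKA _ hinv)
    rw [map_inv₀, inv_le_one₀ (zero_lt_iff.mpr hv0)] at h1
    exact absurd htlt (not_lt.mpr h1)
  have hfin := finiteDimensional_adjoin_of_isFF (K := K) htr
  set N := (Module.finrank K⟮t⟯ F).factorial with hN
  have hN0 : N ≠ 0 := Nat.factorial_ne_zero _
  refine ⟨fun I => ?_⟩
  by_cases hI : I = ⊥
  · subst hI; infer_instance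
  -- elements of I with exponents
  have hex : ∃ k : ℕ, ∃ g : A, g ∈ I ∧ (g : F) ≠ 0 ∧
      A.valuation (g : F) ^ N = A.valuation t ^ (k : ℤ) := by
    obtain ⟨g, hg, hg0⟩ := Submodule.exists_mem_ne_zero_of_ne_bot hI
    have hg0' : (g : F) ≠ 0 := by exact_mod_cast hg0
    obtain ⟨k, hk⟩ := exists_valuation_pow A hK ht htr (g : F) hg0'
    have hk0 : 0 ≤ k := by
      by_contra hneg
      push Not at hneg
      have h1 : A.valuation (g : F) ^ N ≤ 1 :=
        pow_le_one₀ zero_le ((A.valuation_le_one_iff _).mpr g.2)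
      rw [hk] at h1
      have h2 : 1 < A.valuation t ^ k := one_lt_zpow_of_neg₀ (zero_lt_iff.mpr hv0) htlt hneg
      exact absurd h1 (not_le.mpr h2)
    refine ⟨k.toNat, g, hg, hg0', ?_⟩
    rw [Int.toNat_of_nonneg hk0]; exact hk
  obtain ⟨g, hg, hg0, hk⟩ := Nat.find_spec hex
  have hmin := fun m hm => Nat.find_min hex (m := m) hm
  set k := Nat.find hex with hkdef
  refine ⟨⟨g, ?_⟩⟩
  apply le_antisymm
  · intro a ha
    rw [Submodule.mem_span_singleton]
    rcases eq_or_ne (a : F) 0 with ha0 | ha0
    · refine ⟨0, ?_⟩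
      rw [zero_smul]
      exact_mod_cast ha0.symm
    obtain ⟨l, hl⟩ := exists_valuation_pow A hK ht htr (a : F) ha0
    have hlk : (k : ℤ) ≤ l := by
      by_contra hlt
      push Not at hlt
      have hl0 : 0 ≤ l := by
        by_contra hneg
        push Not at hneg
        have h1 : A.valuation (a : F) ^ N ≤ 1 :=
          pow_le_one₀ zero_le ((A.valuation_le_one_iff _).mpr a.2)
        rw [hl] at h1
        have h2 : 1 < A.valuation t ^ l := one_lt_zpow_of_neg₀ (zero_lt_iff.mpr hv0) htlt hneg
        exact absurd h1 (not_le.mpr h2)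
      refine hmin l.toNat (by omega) ⟨a, ha, ha0, ?_⟩
      rw [Int.toNat_of_nonneg hl0]; exact hl
    have hle : A.valuation (a : F) ^ N ≤ A.valuation (g : F) ^ N := by
      rw [hl, hk]
      exact zpow_le_zpow_right_of_le_one₀ (zero_lt_iff.mpr hv0) htlt.le hlk
    have hle' : A.valuation (a : F) ≤ A.valuation (g : F) :=
      (pow_le_pow_iff_left₀ zero_le zero_le hN0).mp hle
    have hquot : (a : F) / g ∈ A := by
      rw [← A.valuation_le_one_iff, map_div₀]
      exact div_le_one_of_le₀ hle' zero_le
    refine ⟨⟨(a : F) / g, hquot⟩, ?_⟩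
    apply Subtype.ext
    show (a : F) / g * g = a
    rw [div_mul_cancel₀ _ hg0]
  · rw [Submodule.span_le, Set.singleton_subset_iff]
    exact hg

/-- The place attached to a valuation ring. -/
def placeOfValuationSubring [IsFF K F] (A : ValuationSubring F)
    (hK : ∀ c : K, algebraMap K F c ∈ A) (hA : A ≠ ⊤) : Place K F where
  toValuationSubring := A
  algebraMap_mem' := hK
  ne_top' := hA
  isPrincipalIdealRing' := isPrincipalIdealRing_valuationSubring A hK hA

/-- Every transcendental element has a zero. -/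
theorem exists_place_ord_pos [IsFF K F] {t : F} (ht : Transcendental K t) :
    ∃ v : Place K F, 0 < v.ord t := by
  have ht0 : t ≠ 0 := fun h0 => ht (h0 ▸ isAlgebraic_zero)
  let A₀ : Subring F := (Algebra.adjoin K {t}).toSubring
  have htA₀ : t ∈ A₀ := Algebra.self_mem_adjoin_singleton K t
  let I : Ideal A₀ := Ideal.span {⟨t, htA₀⟩}
  have hI : I ≠ ⊤ := by
    intro htop
    rw [Ideal.eq_top_iff_one, Ideal.mem_span_singleton'] at htop
    obtain ⟨a, ha⟩ := htop
    have hmem : ∀ z : F, z ∈ Algebra.adjoin K {t} →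
        ∃ p : Polynomial K, Polynomial.aeval t p = z := by
      intro z hz
      rw [Algebra.adjoin_singleton_eq_range_aeval] at hz
      exact hz
    obtain ⟨p, hp⟩ := hmem a.1 a.2
    have h1 : (a : F) * t = 1 := congrArg Subtype.val ha
    rw [← hp] at h1
    have h2 : Polynomial.aeval t (p * Polynomial.X - 1) = 0 := by
      rw [map_sub, map_mul, Polynomial.aeval_X, map_one, h1, sub_self]
    have h3 : p * Polynomial.X - 1 = 0 := by
      by_contra hne
      exact ht ⟨_, hne, h2⟩
    have h4 := congrArg (Polynomial.eval 0) h3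
    simp at h4
  obtain ⟨B, hB, hBI⟩ := Ideal.image_subset_nonunits_valuationSubring I hI
  have hK : ∀ c : K, algebraMap K F c ∈ B := fun c =>
    hB ((Algebra.adjoin K {t}).algebraMap_mem c)
  have htB : t ∈ B.nonunits := hBI ⟨⟨t, htA₀⟩, Ideal.mem_span_singleton_self _, rfl⟩
  have htlt : B.valuation t < 1 := (ValuationSubring.mem_nonunits_iff (A := B)).mp htB
  have hBtop : B ≠ ⊤ := by
    intro htop
    have h1 : t⁻¹ ∈ B := by rw [htop]; exact ValuationSubring.mem_top _
    have h2 := (B.valuation_le_one_iff _).mpr h1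
    rw [map_inv₀, inv_le_one₀ (zero_lt_iff.mpr ((Valuation.ne_zero_iff _).mpr ht0))] at h2
    exact absurd htlt (not_lt.mpr h2)
  refine ⟨placeOfValuationSubring B hK hBtop, ?_⟩
  set v := placeOfValuationSubring B hK hBtop with hv
  have h1 : 0 ≤ v.ord t := by
    rw [← mem_iff_ord_nonneg v ht0]
    exact B.nonunits_subset htB
  rcases h1.lt_or_eq with h2 | h2
  · exact h2
  exfalso
  have h3 : t⁻¹ ∈ v.toValuationSubring := by
    rw [mem_iff_ord_nonneg v (inv_ne_zero ht0), v.ord_inv]; omega
  have h4 : t⁻¹ ∈ B := h3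
  have h5 := (B.valuation_le_one_iff _).mpr h4
  rw [map_inv₀, inv_le_one₀ (zero_lt_iff.mpr ((Valuation.ne_zero_iff _).mpr ht0))] at h5
  exact absurd htlt (not_lt.mpr h5)

/-- Elements without poles are algebraic over `K`. -/
theorem isAlgebraic_of_forall_ord_nonneg [IsFF K F] {f : F}
    (h : ∀ v : Place K F, 0 ≤ v.ord f) : IsAlgebraic K f := by
  by_contra htr
  have h0 : f ≠ 0 := by rintro rfl; exact htr isAlgebraic_zero
  obtain ⟨v, hv⟩ := exists_place_ord_pos (K := K) (t := f⁻¹)
    (fun ha => htr (by simpa using ha.inv))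
  rw [v.ord_inv] at hv
  have := h v
  omega

end Fermat.Agent.FunField
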