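import Fermat.Agent.FunField.Basic

set_option autoImplicit false

noncomputable section

open AlgebraicCurve IsDedekindDomain WithZero

namespace Fermat.Agent.FunField

variable {K F : Type*} [Field K] [Field F] [Algebra K F]

open PlaceLemmas

open Classical in
/-- The real absolute value attached to a place. -/
def placeAbv (v : Place K F) : AbsoluteValue F ℝ where
  toFun f := if f = 0 then 0 else (2 : ℝ) ^ (-(v.ord f))
  map_mul' f g := by
    rcases eq_or_ne f 0 with rfl | hf
    · simp
    rcases eq_or_ne g 0 with rfl | hg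
    · simp
    simp only [mul_eq_zero, hf, hg, or_self, if_false]
    rw [v.ord_mul hf hg, neg_add, zpow_add₀ (by norm_num)]
  nonneg' f := by
    split_ifs
    · exact le_rfl
    · positivity
  eq_zero' f := by
    constructor
    · intro h
      by_contra hf
      simp only [hf, if_false] at h
      exact absurd h (by positivity)
    · rintro rfl; simp
  add_le' f g := by
    rcases eq_or_ne f 0 with rfl | hf
    · simp
    rcases eq_or_ne g 0 with rfl | hg
    · simp
    rcases eq_or_ne (f + g) 0 with hfg | hfg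
    · simp only [hfg, if_true, hf, hg, if_false]
      positivity
    simp only [hf, hg, hfg, if_false]
    have h := min_ord_le_ord_add v hf hg hfg
    rcases le_total (v.ord f) (v.ord g) with hle | hle
    · rw [min_eq_left hle] at h
      have : (2 : ℝ) ^ (-(v.ord (f + g))) ≤ 2 ^ (-(v.ord f)) :=
        zpow_le_zpow_right₀ (by norm_num) (by omega)
      have h2 : (0 : ℝ) ≤ 2 ^ (-(v.ord g)) := by positivity
      linarith
    · rw [min_eq_right hle] at h
      have : (2 : ℝ) ^ (-(v.ord (f + g))) ≤ 2 ^ (-(v.ord g)) :=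
        zpow_le_zpow_right₀ (by norm_num) (by omega)
      have h2 : (0 : ℝ) ≤ 2 ^ (-(v.ord f)) := by positivity
      linarith

open Classical in
theorem placeAbv_apply (v : Place K F) {f : F} (hf : f ≠ 0) :
    placeAbv v f = (2 : ℝ) ^ (-(v.ord f)) := by
  show (if f = 0 then (0 : ℝ) else (2 : ℝ) ^ (-(v.ord f))) = _
  rw [if_neg hf]

theorem placeAbv_lt_iff (v : Place K F) {f : F} (hf : f ≠ 0) (n : ℤ) :
    placeAbv v f < (2 : ℝ) ^ (-n) ↔ n < v.ord f := by
  rw [placeAbv_apply v hf, zpow_lt_zpow_iff_right₀ (by norm_num)]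
  omega

theorem placeAbv_lt_one_iff (v : Place K F) {f : F} (hf : f ≠ 0) :
    placeAbv v f < 1 ↔ 0 < v.ord f := by
  have := placeAbv_lt_iff v hf 0
  simpa using this

theorem placeAbv_isNontrivial (v : Place K F) : (placeAbv v).IsNontrivial := by
  obtain ⟨t, ht, h1⟩ := exists_ord_eq_one v
  refine ⟨t, ht, ?_⟩
  rw [placeAbv_apply v ht, h1]
  norm_num

theorem placeAbv_not_isEquiv {v w : Place K F} (h : v ≠ w) :
    ¬ (placeAbv v).IsEquiv (placeAbv w) := by
  intro he
  apply h
  apply eq_of_le
  intro f hf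
  rcases eq_or_ne f 0 with rfl | hf0
  · exact w.toValuationSubring.zero_mem
  rw [mem_iff_ord_nonneg v hf0] at hf
  rw [mem_iff_ord_nonneg w hf0]
  by_contra hlt
  push Not at hlt
  have h1 : 0 < w.ord f⁻¹ := by rw [w.ord_inv]; omega
  rw [← placeAbv_lt_one_iff w (inv_ne_zero hf0), ← he.lt_one_iff,
    placeAbv_lt_one_iff v (inv_ne_zero hf0), v.ord_inv] at h1
  omega

/-- **Weak approximation** for finitely many places. -/
theorem weak_approximation {ι : Type*} [Finite ι] (v : ι → Place K F)
    (hv : Function.Injective v) (a : ι → F) (n : ℤ) :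
    ∃ f : F, ∀ i, f = a i ∨ n ≤ (v i).ord (f - a i) := by
  have hd := AbsoluteValue.denseRange_algebraMap_pi (v := fun i => placeAbv (v i))
    (fun i => placeAbv_isNontrivial (v i))
    (fun i j hij => placeAbv_not_isEquiv (fun h => hij (hv h)))
  have := Fintype.ofFinite ι
  rw [Metric.denseRange_iff] at hd
  obtain ⟨f, hf⟩ := hd (fun i => (WithAbs.equiv (placeAbv (v i))).symm (a i)) ((2 : ℝ) ^ (-n))
    (by positivity)
  refine ⟨f, fun i => ?_⟩
  by_cases h0 : f - a i = 0
  · left; exact sub_eq_zero.mp h0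
  right
  have h1 := (dist_pi_lt_iff (by positivity)).mp hf i
  rw [dist_comm, dist_eq_norm, WithAbs.norm_eq_apply_ofAbs] at h1
  have h2 : placeAbv (v i) (f - a i) < (2 : ℝ) ^ (-n) := h1
  rw [placeAbv_lt_iff (v i) h0] at h2
  exact h2.le

/-- Weak approximation with prescribed (possibly different) precision. -/
theorem weak_approximation' {ι : Type*} [Finite ι] (v : ι → Place K F)
    (hv : Function.Injective v) (a : ι → F) (n : ι → ℤ) :
    ∃ f : F, ∀ i, f = a i ∨ n i ≤ (v i).ord (f - a i) := by
  have := Fintype.ofFinite ι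
  rcases isEmpty_or_nonempty ι with he | hne
  · exact ⟨0, fun i => (he.false i).elim⟩
  obtain ⟨f, hf⟩ := weak_approximation v hv a (Finset.univ.sup' Finset.univ_nonempty n)
  exact ⟨f, fun i => (hf i).imp id fun h => (Finset.le_sup' n (Finset.mem_univ i)).trans h⟩

/-- There is an element with prescribed orders at finitely many places. -/
theorem exists_forall_ord_eq {ι : Type*} [Finite ι] (v : ι → Place K F)
    (hv : Function.Injective v) (n : ι → ℤ) :
    ∃ f : F, f ≠ 0 ∧ ∀ i, (v i).ord f = n i := by
  have := Fintype.ofFinite ι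
  rcases isEmpty_or_nonempty ι with he | hne
  · exact ⟨1, one_ne_zero, fun i => (he.false i).elim⟩
  choose t ht0 ht using fun i => exists_ord_eq (v i) (n i)
  obtain ⟨f, hf⟩ := weak_approximation' v hv t (fun i => n i + 1)
  have key : ∀ i, f ≠ 0 ∧ (v i).ord f = n i := by
    intro i
    rcases hf i with h | h
    · rw [h]; exact ⟨ht0 i, ht i⟩
    · have hlt : (v i).ord (t i) < (v i).ord (f - t i) := by rw [ht i]; omega
      have h1 := add_ne_zero_of_ord_lt (v i) (ht0 i) hlt
      have h2 := ord_add_eq_of_lt (v i) (ht0 i) (Or.inr hlt)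
      rw [add_sub_cancel] at h1 h2
      exact ⟨h1, h2.trans (ht i)⟩
  obtain ⟨i0⟩ := hne
  exact ⟨f, (key i0).1, fun i => (key i).2⟩

end Fermat.Agent.FunField
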