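import Fermat.Agent.FunField.StrongApprox
import Fermat.Prelude.Def_AlgebraicCurve_DivisorPushPull

/-! # Finite extensions of function fields: fundamental identity. -/

noncomputable section

open AlgebraicCurve IsDedekindDomain WithZero IsLocalRing IntermediateField

namespace Fermat.Agent.FunField

variable {K F F' : Type*} [Field K] [Field F] [Field F'] [Algebra K F] [Algebra K F']
  [Algebra F F'] [IsScalarTower K F F']

open PlaceLemmas

theorem transcendental_map {x : F} (hx : Transcendental K x) :
    Transcendental K (algebraMap F F' x) :=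
  (transcendental_algebraMap_iff (algebraMap F F').injective).mpr hx

theorem finite_adjoin_map (x : F) [FiniteDimensional K⟮x⟯ F] [FiniteDimensional F F'] :
    FiniteDimensional K⟮algebraMap F F' x⟯ F' ∧
      Module.finrank K⟮algebraMap F F' x⟯ F' = Module.finrank K⟮x⟯ F * Module.finrank F F' := by
  let f : F →ₐ[K] F' := IsScalarTower.toAlgHom K F F'
  have hmap : K⟮x⟯.map f = K⟮algebraMap F F' x⟯ := by
    rw [IntermediateField.adjoin_map, Set.image_singleton]
    rfl
  let e : K⟮x⟯ ≃ₐ[K] K⟮algebraMap F F' x⟯ := (equivMap K⟮x⟯ f).trans (equivOfEq hmap)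
  have hcomp : (algebraMap K⟮algebraMap F F' x⟯ F').comp (e.toRingEquiv : _ →+* _) =
      (RingEquiv.refl F' : F' →+* F').comp (algebraMap K⟮x⟯ F') := by
    ext a
    rfl
  haveI : Module.Finite K⟮x⟯ F' := Module.Finite.trans F F'
  refine ⟨Module.Finite.of_equiv_equiv e.toRingEquiv (RingEquiv.refl F') hcomp, ?_⟩
  rw [Module.finrank_mul_finrank]
  exact (Algebra.finrank_eq_of_equiv_equiv e.toRingEquiv (RingEquiv.refl F') hcomp).symm

variable (K F F') in
/-- A finite extension of a function field is a function field. -/
theorem isFF_of_finite [h : IsFF K F] [FiniteDimensional F F'] : IsFF K F' := by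
  obtain ⟨x, hx, hfin⟩ := h
  exact ⟨⟨_, transcendental_map hx, (finite_adjoin_map x).1⟩⟩

/-! ### The fundamental identity -/

section FI

variable [IsFF K F] [FiniteDimensional F F'] [IsFF K F']

theorem zeroDiv_algebraMap {f : F} (w : Place K F') :
    (zeroDiv (algebraMap F F' f) : Divisor K F') w =
      w.ramificationIndex F * (zeroDiv f : Divisor K F) (w.restrict F) := by
  rw [zeroDiv_apply, zeroDiv_apply, w.ord_restrict f]
  have : (0 : ℤ) < w.ramificationIndex F := by
    have := w.ramificationIndex_pos (F := F)
    exact_mod_cast this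
  rcases le_total ((w.restrict F).ord f) 0 with h | h
  · rw [max_eq_right h, mul_zero, max_eq_right]
    nlinarith
  · rw [max_eq_left h, max_eq_left]
    positivity

theorem pullback_zeroDiv (f : F) :
    Divisor.pullback F' (zeroDiv f : Divisor K F) = zeroDiv (algebraMap F F' f) := by
  ext w
  rw [Divisor.pullback_apply, zeroDiv_algebraMap]

/-- `deg (π^* (f)₀) = [F' : F] deg (f)₀`. -/
theorem degree_pullback_zeroDiv (f : F) :
    Divisor.degree (Divisor.pullback F' (zeroDiv f : Divisor K F)) =
      (Module.finrank F F' : ℤ) * Divisor.degree (zeroDiv f : Divisor K F) := by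
  by_cases hf : Transcendental K f
  · haveI := finiteDimensional_adjoin_of_isFF hf
    rw [pullback_zeroDiv, degree_zeroDiv hf, degree_zeroDiv (transcendental_map hf),
      (finite_adjoin_map f).2]
    push_cast; ring
  · have hz : (zeroDiv f : Divisor K F) = 0 := by
      ext v
      rw [zeroDiv_apply]
      have : v.ord f = 0 := ord_eq_zero_of_isAlgebraic v (by
        unfold Transcendental at hf; rwa [not_not] at hf)
      rw [this]; rfl
    rw [hz]; simp

theorem degree_pullback_single_one (P : Place K F) :
    Divisor.degree (Divisor.pullback F' (Finsupp.single P 1 : Divisor K F)) =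
      (Module.finrank F F' : ℤ) * P.deg := by
  classical
  obtain ⟨f, hf0, hP, hf⟩ := exists_pole_only P
  have h1 : (zeroDiv f⁻¹ : Divisor K F) = (-(P.ord f)) • Finsupp.single P 1 := by
    ext w
    rw [zeroDiv_apply, Finsupp.smul_apply, Finsupp.single_apply, w.ord_inv]
    split_ifs with h
    · subst h
      rw [max_eq_left (by omega)]; simp
    · have := hf w (fun h' => h h'.symm)
      rw [max_eq_right (by omega)]; simp
  have h2 := degree_pullback_zeroDiv (K := K) (F := F) (F' := F') f⁻¹
  rw [h1, map_zsmul, map_zsmul, map_zsmul, Divisor.degree_single, one_mul] at h2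
  have h3 : (-(P.ord f)) ≠ 0 := by omega
  simp only [smul_eq_mul] at h2
  have h4 : (-(P.ord f)) * Divisor.degree (Divisor.pullback F' (Finsupp.single P 1 : Divisor K F))
      = (-(P.ord f)) * ((Module.finrank F F' : ℤ) * P.deg) := by
    rw [h2]; ring
  exact mul_left_cancel₀ h3 h4

variable (K F F') in
/-- **Fundamental identity** `∑_{w ∣ v} e_w deg w = [F' : F] deg v`. -/
theorem fundamentalIdentity : FundamentalIdentity K F F' where
  sum_ramificationIndex_mul_deg v := by
    have h := degree_pullback_single_one (K := K) (F := F) (F' := F') v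
    rw [Divisor.pullback_single, map_sum] at h
    rw [← h]
    refine Finset.sum_congr rfl fun w _ => ?_
    rw [Divisor.degree_single, one_mul]

variable (K F F') in
/-- **Fundamental identity** `∑_{w ∣ v} e_w f_w = [F' : F]`. -/
theorem sumRamificationInertia : SumRamificationInertia K F F' where
  sum_ramificationIndex_mul_inertiaDeg v := by
    have h := (fundamentalIdentity K F F').sum_ramificationIndex_mul_deg v
    have hv : (0 : ℤ) < v.deg := by exact_mod_cast deg_pos v
    have h2 : (v.deg : ℤ) * ∑ w ∈ v.fiber F', (w.ramificationIndex F : ℤ) * (w.inertiaDeg F : ℤ)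
        = (v.deg : ℤ) * (Module.finrank F F' : ℤ) := by
      rw [Finset.mul_sum, mul_comm (v.deg : ℤ), ← h]
      refine Finset.sum_congr rfl fun w hw => ?_
      have htower : ((w.restrict F).deg : ℤ) * (w.inertiaDeg F : ℤ) = (w.deg : ℤ) := by
        exact_mod_cast w.deg_restrict_mul_inertiaDeg (F := F)
      rw [Place.mem_fiber.mp hw] at htower
      rw [← htower]; ring
    exact mul_left_cancel₀ hv.ne' h2

theorem fiber_nonempty (v : Place K F) : (v.fiber F').Nonempty := by
  by_contra h
  rw [Finset.not_nonempty_iff_eq_empty] at h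
  have h1 := (fundamentalIdentity K F F').sum_ramificationIndex_mul_deg v
  rw [h, Finset.sum_empty] at h1
  have h2 : 0 < Module.finrank F F' := Module.finrank_pos
  have h3 := deg_pos v
  have h4 : (0 : ℤ) < (Module.finrank F F' : ℤ) * (v.deg : ℤ) := by positivity
  omega

theorem exists_restrict_eq (v : Place K F) : ∃ w : Place K F', w.restrict F = v := by
  obtain ⟨w, hw⟩ := fiber_nonempty (F' := F') v
  exact ⟨w, Place.mem_fiber.mp hw⟩

end FI

end Fermat.Agent.FunField
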