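import Fermat.Agent.FunField.DegreeFormula

set_option autoImplicit false

noncomputable section

open AlgebraicCurve IsDedekindDomain WithZero

namespace Fermat.Agent.FunField

variable {K F : Type*} [Field K] [Field F] [Algebra K F]

open PlaceLemmas IntermediateField

/-! ### Riemann's inequality -/

/-- `deg D - l(D)`. -/
def defect (D : Divisor K F) : ℤ :=
  Divisor.degree D - Module.finrank K (riemannRochSpace D)

theorem defect_mono [IsFF K F] {D E : Divisor K F} (h : D ≤ E) : defect D ≤ defect E := by
  have := finrank_rr_le_of_le h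
  unfold defect
  linarith

theorem mul_mem_rr_divOf [IsFF K F] {D : Divisor K F} {f g : F} (hf : f ≠ 0) :
    f * g ∈ riemannRochSpace (D - divOf f) ↔ g ∈ riemannRochSpace D := by
  rw [mem_rr, mem_rr]
  refine forall_congr' fun v => ?_
  rw [Finsupp.sub_apply, divOf_apply]
  have := mul_mem_geSub_iff (v := v) (n := -(D v)) (g := g) hf
  rwa [show v.ord f + -(D v) = -(D v - v.ord f) by ring] at this

/-- Multiplication by `f` is an isomorphism `L(D) ≃ L(D - div f)`. -/
def rrEquivSub [IsFF K F] (D : Divisor K F) {f : F} (hf : f ≠ 0) :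
    riemannRochSpace D ≃ₗ[K] riemannRochSpace (D - divOf f) where
  toFun g := ⟨f * g.1, (mul_mem_rr_divOf hf).mpr g.2⟩
  map_add' g h := Subtype.ext (by simp [mul_add])
  map_smul' c g := Subtype.ext (by simp)
  invFun g := ⟨f⁻¹ * g.1, by
    rw [← mul_mem_rr_divOf hf, ← mul_assoc, mul_inv_cancel₀ hf, one_mul]
    exact g.2⟩
  left_inv g := Subtype.ext (by simp [hf])
  right_inv g := Subtype.ext (by simp [hf])

theorem finrank_rr_sub_divOf [IsFF K F] (D : Divisor K F) {f : F} (hf : f ≠ 0) :
    Module.finrank K (riemannRochSpace (D - divOf f)) = Module.finrank K (riemannRochSpace D) :=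
  (rrEquivSub D hf).finrank_eq.symm

theorem defect_sub_divOf [IsFF K F] (D : Divisor K F) {f : F} (hf : f ≠ 0) :
    defect (D - divOf f) = defect D := by
  unfold defect
  rw [finrank_rr_sub_divOf D hf, map_sub, degree_divOf, sub_zero]

theorem exists_ne_zero_of_finrank_pos {D : Divisor K F}
    (h : 0 < Module.finrank K (riemannRochSpace D)) : ∃ f ∈ riemannRochSpace D, f ≠ 0 := by
  have := Module.nontrivial_of_finrank_pos h
  obtain ⟨⟨f, hf⟩, hne⟩ := exists_ne (0 : riemannRochSpace D)
  exact ⟨f, hf, fun h0 => hne (Subtype.ext h0)⟩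

/-- Riemann's inequality, qualitative form. -/
theorem exists_defect_bound [h : IsFF K F] : ∃ γ : ℤ, ∀ D : Divisor K F, defect D ≤ γ := by
  obtain ⟨x, hx, _⟩ := h.exists_transcendental
  obtain ⟨C, hC, hlow⟩ := exists_lower_bound hx
  set P : Divisor K F := poleDiv x with hP
  have hdegP : Divisor.degree P = Module.finrank K⟮x⟯ F := degree_poleDiv hx
  set n : ℤ := (Module.finrank K⟮x⟯ F : ℤ) with hn
  have hn0 : 0 < n := by
    have hfin := finiteDimensional_adjoin_of_isFF (K := K) hx
    rw [hn]; exact_mod_cast Module.finrank_pos
  have hlow' : ∀ r : ℕ, n * (r + 1) - Divisor.degree C ≤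
      Module.finrank K (riemannRochSpace ((r : ℤ) • P)) := by
    intro r
    have h1 := hlow r
    have h2 := finrank_rr_add_le ((r : ℤ) • P) C hC
    have h1' : n * (r + 1) ≤ Module.finrank K (riemannRochSpace ((r : ℤ) • P + C)) := by
      rw [hn]; exact_mod_cast h1
    linarith
  refine ⟨Divisor.degree C - n, fun D => ?_⟩
  set D₁ : Divisor K F := D.mapRange (fun n => max n 0) (by simp) with hD₁
  have hDD₁ : D ≤ D₁ := fun v => by rw [hD₁, Finsupp.mapRange_apply]; exact le_max_left _ _
  have hD₁0 : 0 ≤ D₁ := fun v => by rw [hD₁, Finsupp.mapRange_apply]; exact le_max_right _ _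
  obtain ⟨r, hr⟩ : ∃ r : ℕ, 0 < n * (r + 1) - Divisor.degree C - Divisor.degree D₁ := by
    refine ⟨(Divisor.degree C + Divisor.degree D₁).toNat, ?_⟩
    have h1 := Int.self_le_toNat (Divisor.degree C + Divisor.degree D₁)
    have h2 : (0 : ℤ) ≤ ((Divisor.degree C + Divisor.degree D₁).toNat : ℤ) := Int.natCast_nonneg _
    nlinarith
  have h3 : 0 < Module.finrank K (riemannRochSpace ((r : ℤ) • P - D₁)) := by
    have h4 := finrank_rr_add_le ((r : ℤ) • P - D₁) D₁ hD₁0
    rw [sub_add_cancel] at h4
    have h5 := hlow' r
    have : (0 : ℤ) < Module.finrank K (riemannRochSpace ((r : ℤ) • P - D₁)) := by linarith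
    exact_mod_cast this
  obtain ⟨f, hf, hf0⟩ := exists_ne_zero_of_finrank_pos h3
  have h6 : D₁ ≤ (r : ℤ) • P - divOf f⁻¹ := by
    intro v
    have := mem_rr.mp hf v
    rw [mem_geSub_of_ne hf0, Finsupp.sub_apply] at this
    rw [Finsupp.sub_apply, divOf_apply, v.ord_inv]
    omega
  calc defect D ≤ defect D₁ := defect_mono hDD₁
    _ ≤ defect ((r : ℤ) • P - divOf f⁻¹) := defect_mono h6
    _ = defect ((r : ℤ) • P) := defect_sub_divOf _ (inv_ne_zero hf0)
    _ ≤ Divisor.degree C - n := by
      unfold defect
      rw [map_zsmul, smul_eq_mul, hdegP]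
      have := hlow' r
      linarith

/-- There is a divisor of maximal defect. -/
theorem exists_max_defect [IsFF K F] : ∃ D₀ : Divisor K F, ∀ D : Divisor K F,
    defect D ≤ defect D₀ := by
  obtain ⟨γ, hγ⟩ := exists_defect_bound (K := K) (F := F)
  obtain ⟨m, ⟨D₀, hD₀⟩, hm⟩ := Int.exists_greatest_of_bdd (P := fun z => ∃ D : Divisor K F, defect D = z)
    ⟨γ, fun z ⟨D, hD⟩ => hD ▸ hγ D⟩ ⟨_, 0, rfl⟩
  exact ⟨D₀, fun D => hD₀ ▸ hm _ ⟨D, rfl⟩⟩

/-! ### Adeles -/

theorem not_le_one_iff {v : Place K F} {f : F} :
    ¬ v.adicValuation f ≤ 1 ↔ f ∉ geSub v 0 := by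
  rw [mem_geSub_iff_adic]; simp

theorem mem_repartitions_iff [IsFF K F] {α : Place K F → F} :
    α ∈ repartitions K F ↔ {v : Place K F | α v ∉ geSub v 0}.Finite := by
  constructor
  · intro h
    induction h using Algebra.adjoin_induction with
    | mem α hα =>
      refine hα.subset fun v hv => ?_
      exact not_le_one_iff.mpr hv
    | algebraMap r =>
      rcases eq_or_ne r 0 with rfl | hr
      · convert Set.finite_empty
        ext v
        simp only [Set.mem_ofPred_eq, Set.mem_empty_iff_false, iff_false, not_not]
        rw [map_zero]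
        exact Submodule.zero_mem _
      · refine (finite_support (K := K) r hr).subset fun v hv => ?_
        simp only [Set.mem_ofPred_eq] at hv ⊢
        intro h0
        apply hv
        show r ∈ geSub v 0
        rw [mem_geSub_of_ne hr, h0]
    | add α β _ _ hα hβ =>
      refine (hα.union hβ).subset fun v hv => ?_
      by_contra hcon
      rw [Set.mem_union, not_or] at hcon
      simp only [Set.mem_ofPred_eq, not_not] at hcon
      exact hv (Submodule.add_mem _ hcon.1 hcon.2)
    | mul α β _ _ hα hβ =>
      refine (hα.union hβ).subset fun v hv => ?_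
      by_contra hcon
      rw [Set.mem_union, not_or] at hcon
      simp only [Set.mem_ofPred_eq, not_not] at hcon
      apply hv
      have := mul_mem_geSub hcon.1 hcon.2
      simpa using this
  · intro h
    apply mem_repartitions_of_finite
    refine h.subset fun v hv => ?_
    exact not_le_one_iff.mp hv

theorem mem_repOf {D : Divisor K F} {α : repartitions K F} :
    α ∈ repartitionsOf D ↔ ∀ v, (α : Place K F → F) v ∈ geSub v (-(D v)) := by
  show (∀ v : Place K F, v.adicValuation ((α : Place K F → F) v) ≤ exp (D v)) ↔ _
  refine forall_congr' fun v => ?_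
  rw [mem_geSub_iff_adic, neg_neg]

/-- The constant (principal) adele. -/
def constAdele [IsFF K F] (f : F) : repartitions K F := algebraMap F (repartitions K F) f

theorem constAdele_apply [IsFF K F] (f : F) (v : Place K F) :
    ((constAdele f : repartitions K F) : Place K F → F) v = f := rfl

theorem constAdele_mem [IsFF K F] (f : F) : constAdele f ∈ principalRepartitions K F := by
  rw [mem_principalRepartitions_iff]
  exact ⟨f, rfl⟩

theorem mem_principal_iff [IsFF K F] {α : repartitions K F} :
    α ∈ principalRepartitions K F ↔ ∃ f : F, α = constAdele f := by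
  rw [mem_principalRepartitions_iff]
  constructor
  · rintro ⟨f, hf⟩
    exact ⟨f, Subtype.ext hf⟩
  · rintro ⟨f, rfl⟩
    exact ⟨f, rfl⟩

open Classical in
/-- The adele supported at one place. -/
def singleAdele [IsFF K F] (v : Place K F) : F →ₗ[K] repartitions K F where
  toFun a := ⟨fun w => if w = v then a else 0, by
    rw [mem_repartitions_iff]
    refine (Set.finite_singleton v).subset fun w hw => ?_
    by_contra hne
    apply hw
    have : w ≠ v := hne
    simp only [if_neg this]
    exact Submodule.zero_mem _⟩
  map_add' a b := Subtype.ext (by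
    funext w
    show (if w = v then a + b else 0) = (if w = v then a else 0) + (if w = v then b else 0)
    split_ifs <;> simp)
  map_smul' c a := Subtype.ext (by
    funext w
    show (if w = v then c • a else 0) = c • (if w = v then a else 0)
    split_ifs <;> simp)

open Classical in
theorem singleAdele_apply [IsFF K F] (v w : Place K F) (a : F) :
    ((singleAdele v a : repartitions K F) : Place K F → F) w = if w = v then a else 0 := rfl

theorem singleAdele_same [IsFF K F] (v : Place K F) (a : F) :
    ((singleAdele v a : repartitions K F) : Place K F → F) v = a := by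
  rw [singleAdele_apply, if_pos rfl]

theorem singleAdele_ne [IsFF K F] {v w : Place K F} (h : w ≠ v) (a : F) :
    ((singleAdele v a : repartitions K F) : Place K F → F) w = 0 := by
  rw [singleAdele_apply, if_neg h]

theorem le_add_single (D : Divisor K F) (v : Place K F) : D ≤ D + Finsupp.single v 1 := by
  classical
  intro w
  rw [Finsupp.add_apply, Finsupp.single_apply]; split_ifs <;> omega

theorem h1_le {D E : Divisor K F} (h : D ≤ E) :
    repartitionsOf D ⊔ principalRepartitions K F ≤
      repartitionsOf E ⊔ principalRepartitions K F :=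
  sup_le_sup_right (repartitionsOf_mono h) _

/-- The natural surjection `H¹(D) → H¹(E)` for `D ≤ E`. -/
def h1Map {D E : Divisor K F} (h : D ≤ E) : H1 D →ₗ[K] H1 E :=
  Submodule.factor (h1_le h)

theorem h1Map_surjective {D E : Divisor K F} (h : D ≤ E) : Function.Surjective (h1Map h) :=
  Submodule.factor_surjective (h1_le h)

theorem h1Map_mk {D E : Divisor K F} (h : D ≤ E) (α : repartitions K F) :
    h1Map h (Submodule.Quotient.mk α) = Submodule.Quotient.mk α := rfl

theorem mk_eq_zero_iff [IsFF K F] {D : Divisor K F} {α : repartitions K F} :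
    (Submodule.Quotient.mk α : H1 D) = 0 ↔ ∃ f : F, α - constAdele f ∈ repartitionsOf D := by
  rw [Submodule.Quotient.mk_eq_zero, Submodule.mem_sup]
  constructor
  · rintro ⟨β, hβ, γ, hγ, rfl⟩
    obtain ⟨f, rfl⟩ := mem_principal_iff.mp hγ
    exact ⟨f, by rw [add_sub_cancel_right]; exact hβ⟩
  · rintro ⟨f, hf⟩
    exact ⟨_, hf, _, constAdele_mem f, sub_add_cancel _ _⟩

/-- The connecting map `κ(v) → H¹(D)`. -/
theorem exists_connecting [IsFF K F] (D : Divisor K F) (v : Place K F) :
    ∃ θ : v.ResidueField →ₗ[K] H1 D,
      LinearMap.range θ = LinearMap.ker (h1Map (le_add_single D v)) ∧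
      Module.finrank K (LinearMap.ker θ) + Module.finrank K (riemannRochSpace D) =
        Module.finrank K (riemannRochSpace (D + Finsupp.single v 1)) := by
  classical
  obtain ⟨φ, hφs, hφ⟩ := exists_step v (-(D v) - 1)
  obtain ⟨s, hs⟩ := φ.exists_rightInverse_of_surjective (LinearMap.range_eq_top.mpr hφs)
  have hs' : ∀ y, φ (s y) = y := fun y => by
    have := LinearMap.congr_fun hs y
    simpa using this
  let θ : v.ResidueField →ₗ[K] H1 D :=
    (Submodule.mkQ (repartitionsOf D ⊔ principalRepartitions K F)).comp
      ((singleAdele v).comp ((geSub v (-(D v) - 1)).subtype.comp s))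
  have hθ : ∀ y, θ y = Submodule.Quotient.mk (singleAdele v (s y).1) := fun y => rfl
  have hDv : (D + Finsupp.single v 1 : Divisor K F) v = D v + 1 := by
    rw [Finsupp.add_apply, Finsupp.single_eq_same]
  have hDw : ∀ w, w ≠ v → (D + Finsupp.single v 1 : Divisor K F) w = D w := by
    intro w hw
    rw [Finsupp.add_apply, Finsupp.single_apply, if_neg (Ne.symm hw), add_zero]
  refine ⟨θ, ?_, ?_⟩
  · ext c
    rw [LinearMap.mem_range, LinearMap.mem_ker]
    constructor
    · rintro ⟨y, rfl⟩
      rw [hθ, h1Map_mk, mk_eq_zero_iff]
      refine ⟨0, ?_⟩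
      rw [mem_repOf]
      intro w
      have h0 : (singleAdele v (s y).1 - constAdele 0 : repartitions K F) =
          singleAdele v (s y).1 := by
        unfold constAdele; rw [map_zero, sub_zero]
      rw [h0]
      by_cases hw : w = v
      · subst hw
        rw [singleAdele_same, hDv]
        exact geSub_anti w (by omega) (s y).2
      · rw [singleAdele_ne hw]; exact Submodule.zero_mem _
    · obtain ⟨α, rfl⟩ := Submodule.Quotient.mk_surjective _ c
      rw [h1Map_mk, mk_eq_zero_iff]
      rintro ⟨f, hf⟩
      rw [mem_repOf] at hf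
      have hfv : ((α - constAdele f : repartitions K F) : Place K F → F) v ∈
          geSub v (-(D v) - 1) := by
        have := hf v
        rwa [hDv, show -(D v + 1) = -(D v) - 1 by ring] at this
      refine ⟨φ ⟨_, hfv⟩, ?_⟩
      rw [hθ]
      rw [← sub_eq_zero, ← Submodule.Quotient.mk_sub, mk_eq_zero_iff]
      refine ⟨-f, ?_⟩
      rw [mem_repOf]
      intro w
      by_cases hw : w = v
      · subst hw
        have h1 : ((singleAdele w (s (φ ⟨_, hfv⟩)).1 - α - constAdele (-f) :
            repartitions K F) : Place K F → F) w =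
            (s (φ ⟨_, hfv⟩)).1 - ((α - constAdele f : repartitions K F) : Place K F → F) w := by
          show ((singleAdele w (s (φ ⟨_, hfv⟩)).1 : repartitions K F) : Place K F → F) w - (α : Place K F → F) w - (-f)
            = _ - ((α : Place K F → F) w - f)
          rw [singleAdele_same]; ring
        rw [h1]
        have h2 := (hφ (s (φ ⟨_, hfv⟩) - ⟨_, hfv⟩)).mp (by rw [map_sub, hs', sub_self])
        rwa [show -(D w) - 1 + 1 = -(D w) by ring] at h2
      · have h1 : ((singleAdele v (s (φ ⟨_, hfv⟩)).1 - α - constAdele (-f) :
            repartitions K F) : Place K F → F) w =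
            -((α - constAdele f : repartitions K F) : Place K F → F) w := by
          show ((singleAdele v (s (φ ⟨_, hfv⟩)).1 : repartitions K F) : Place K F → F) w - (α : Place K F → F) w - (-f)
            = -((α : Place K F → F) w - f)
          rw [singleAdele_ne hw]; ring
        rw [h1]
        have := hf w
        rw [hDw w hw] at this
        exact Submodule.neg_mem _ this
  · -- kernel of θ is the image of L(D+v)
    have hle : ∀ f : riemannRochSpace (D + Finsupp.single v 1), f.1 ∈ geSub v (-(D v) - 1) := by
      intro f
      have := mem_rr.mp f.2 v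
      rwa [hDv, show -(D v + 1) = -(D v) - 1 by ring] at this
    let ι : riemannRochSpace (D + Finsupp.single v 1) →ₗ[K] geSub v (-(D v) - 1) :=
      { toFun := fun f => ⟨f.1, hle f⟩
        map_add' := fun f g => rfl
        map_smul' := fun c f => rfl }
    let ψ := φ.comp ι
    have hψ0 : ∀ f, ψ f = 0 ↔ f.1 ∈ riemannRochSpace D := by
      intro f
      rw [LinearMap.comp_apply, hφ]
      show f.1 ∈ geSub v (-(D v) - 1 + 1) ↔ _
      rw [sub_add_cancel, mem_rr]
      constructor
      · intro h w
        by_cases hw : w = v
        · subst hw; exact h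
        · have := mem_rr.mp f.2 w
          rwa [hDw w hw] at this
      · intro h; exact h v
    have hker : LinearMap.ker θ = LinearMap.range ψ := by
      ext y
      rw [LinearMap.mem_ker, hθ, mk_eq_zero_iff, LinearMap.mem_range]
      constructor
      · rintro ⟨f, hf⟩
        rw [mem_repOf] at hf
        have hfv := hf v
        have hval : ((singleAdele v (s y).1 - constAdele f : repartitions K F) :
            Place K F → F) v = (s y).1 - f := by
          show ((singleAdele v (s y).1 : repartitions K F) : Place K F → F) v - f = _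
          rw [singleAdele_same]
        rw [hval] at hfv
        have hfmem : f ∈ riemannRochSpace (D + Finsupp.single v 1) := by
          rw [mem_rr]
          intro w
          by_cases hw : w = v
          · subst hw
            rw [hDv]
            have h1 : (s y).1 ∈ geSub w (-(D w + 1)) := geSub_anti w (by omega) (s y).2
            have h2 := Submodule.sub_mem _ h1 (geSub_anti w (by omega) hfv)
            rwa [sub_sub_cancel] at h2
          · rw [hDw w hw]
            have := hf w
            have hval' : ((singleAdele v (s y).1 - constAdele f : repartitions K F) :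
              Place K F → F) w = -f := by
              show ((singleAdele v (s y).1 : repartitions K F) : Place K F → F) w - f = _
              rw [singleAdele_ne hw, zero_sub]
            rw [hval'] at this
            simpa using this
        refine ⟨⟨f, hfmem⟩, ?_⟩
        have h3 : φ (s y - ι ⟨f, hfmem⟩) = 0 := by
          rw [hφ, sub_add_cancel]; exact hfv
        rw [map_sub, hs', sub_eq_zero] at h3
        exact h3.symm
      · rintro ⟨f, rfl⟩
        refine ⟨f.1, ?_⟩
        rw [mem_repOf]
        intro w
        by_cases hw : w = v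
        · subst hw
          show ((singleAdele w (s (ψ f)).1 : repartitions K F) : Place K F → F) w - f.1 ∈ _
          rw [singleAdele_same]
          have h2 := (hφ (s (ψ f) - ι f)).mp (by rw [map_sub, hs']; exact sub_self _)
          rwa [show -(D w) - 1 + 1 = -(D w) by ring] at h2
        · show ((singleAdele v (s (ψ f)).1 : repartitions K F) : Place K F → F) w - f.1 ∈ _
          rw [singleAdele_ne hw, zero_sub]
          have := mem_rr.mp f.2 w
          rw [hDw w hw] at this
          exact Submodule.neg_mem _ this
    have hleD := rr_mono (le_add_single D v)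
    let e : riemannRochSpace D ≃ₗ[K] LinearMap.ker ψ :=
      { toFun := fun f => ⟨⟨f.1, hleD f.2⟩, by rw [LinearMap.mem_ker, hψ0]; exact f.2⟩
        map_add' := fun f g => rfl
        map_smul' := fun c f => rfl
        invFun := fun f => ⟨f.1.1, by have := f.2; rw [LinearMap.mem_ker, hψ0] at this; exact this⟩
        left_inv := fun f => rfl
        right_inv := fun f => rfl }
    rw [hker, e.finrank_eq]
    exact LinearMap.finrank_range_add_finrank_ker ψ

end Fermat.Agent.FunField
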