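import Mathlib
import Fermat.Prelude.Def_AlgebraicCurve_DivisorClassGroup
import Fermat.Prelude.Def_AlgebraicCurve_Repartitions

set_option autoImplicit false

noncomputable section

open AlgebraicCurve IsDedekindDomain WithZero

namespace Fermat.Agent.FunField

variable {K F : Type*} [Field K] [Field F] [Algebra K F]

namespace PlaceLemmas

variable (v : Place K F)

/-- Membership in the valuation ring through `ord`. -/
theorem mem_iff_ord_nonneg {f : F} (hf : f ≠ 0) : f ∈ v.toValuationSubring ↔ 0 ≤ v.ord f := by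
  constructor
  · intro h
    have := v.adicValuation_le_one_of_mem h
    rw [v.adicValuation_le_one_iff] at this
    exact this.resolve_left hf
  · intro h
    obtain ⟨π, hπ⟩ := IsDiscreteValuationRing.exists_irreducible v.toValuationSubring
    obtain ⟨u, hu⟩ := v.exists_unit_mul_zpow hf hπ
    rw [hu]
    obtain ⟨n, hn⟩ := Int.eq_ofNat_of_zero_le h
    rw [hn]
    refine v.toValuationSubring.mul_mem _ _ (u : v.toValuationSubring).2 ?_
    rw [zpow_natCast]
    exact pow_mem π.2 n

theorem mem_iff_adicValuation_le_one {f : F} :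
    f ∈ v.toValuationSubring ↔ v.adicValuation f ≤ 1 := by
  rcases eq_or_ne f 0 with rfl | hf
  · simp
  · rw [mem_iff_ord_nonneg v hf, v.adicValuation_le_one_iff]
    exact ⟨Or.inr, fun h => h.resolve_left hf⟩

theorem adicValuation_le_iff {f g : F} (hf : f ≠ 0) (hg : g ≠ 0) :
    v.adicValuation f ≤ v.adicValuation g ↔ v.ord g ≤ v.ord f := by
  rw [v.adicValuation_eq_exp_neg_ord hf, v.adicValuation_eq_exp_neg_ord hg, exp_le_exp]
  omega

theorem adicValuation_lt_iff {f g : F} (hf : f ≠ 0) (hg : g ≠ 0) :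
    v.adicValuation f < v.adicValuation g ↔ v.ord g < v.ord f := by
  rw [v.adicValuation_eq_exp_neg_ord hf, v.adicValuation_eq_exp_neg_ord hg, exp_lt_exp]
  omega

theorem adicValuation_lt_one_iff {f : F} (hf : f ≠ 0) :
    v.adicValuation f < 1 ↔ 0 < v.ord f := by
  have := adicValuation_lt_iff v hf (one_ne_zero (α := F))
  simpa using this

theorem adicValuation_eq_one_iff {f : F} (hf : f ≠ 0) :
    v.adicValuation f = 1 ↔ v.ord f = 0 := by
  rw [v.adicValuation_eq_exp_neg_ord hf, ← exp_zero, exp_inj]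
  omega

/-- `ord` of a sum. -/
theorem min_ord_le_ord_add {f g : F} (hf : f ≠ 0) (hg : g ≠ 0) (hfg : f + g ≠ 0) :
    min (v.ord f) (v.ord g) ≤ v.ord (f + g) := by
  have h := v.adicValuation.map_add f g
  rcases le_total (v.adicValuation f) (v.adicValuation g) with hle | hle
  · rw [max_eq_right hle] at h
    have := (adicValuation_le_iff v hfg hg).mp h
    exact (min_le_right _ _).trans this
  · rw [max_eq_left hle] at h
    have := (adicValuation_le_iff v hfg hf).mp h
    exact (min_le_left _ _).trans this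

theorem ord_neg (f : F) : v.ord (-f) = v.ord f := by
  unfold Place.ord
  rw [Valuation.map_neg]

theorem add_ne_zero_of_ord_lt {f g : F} (hf : f ≠ 0) (h : v.ord f < v.ord g) : f + g ≠ 0 := by
  intro h0
  have : g = -f := by linear_combination h0
  rw [this, ord_neg] at h
  exact lt_irrefl _ h

theorem ord_add_eq_of_lt {f g : F} (hf : f ≠ 0) (h : g = 0 ∨ v.ord f < v.ord g) :
    v.ord (f + g) = v.ord f := by
  rcases h with rfl | h
  · simp
  rcases eq_or_ne g 0 with rfl | hg
  · simp
  have hfg := add_ne_zero_of_ord_lt v hf h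
  apply le_antisymm
  · by_contra hlt
    push Not at hlt
    have h1 := min_ord_le_ord_add v hfg (neg_ne_zero.mpr hg) (by simpa using hf)
    rw [ord_neg, add_neg_cancel_right] at h1
    have : v.ord f < min (v.ord (f + g)) (v.ord g) := lt_min hlt h
    omega
  · have := min_ord_le_ord_add v hf hg hfg
    rwa [min_eq_left h.le] at this

theorem ord_pow (f : F) (n : ℕ) : v.ord (f ^ n) = n * v.ord f := by
  have := v.ord_zpow f n
  rwa [zpow_natCast] at this

theorem ord_div {f g : F} (hf : f ≠ 0) (hg : g ≠ 0) : v.ord (f / g) = v.ord f - v.ord g := by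
  rw [div_eq_mul_inv, v.ord_mul hf (inv_ne_zero hg), v.ord_inv, sub_eq_add_neg]

theorem ord_algebraMap (c : K) : v.ord (algebraMap K F c) = 0 := by
  rcases eq_or_ne c 0 with rfl | hc
  · simp
  have h1 : 0 ≤ v.ord (algebraMap K F c) := by
    rw [← mem_iff_ord_nonneg v (by simpa using hc)]
    exact v.algebraMap_mem' c
  have h2 : 0 ≤ v.ord (algebraMap K F c⁻¹) := by
    rw [← mem_iff_ord_nonneg v (by simpa using hc)]
    exact v.algebraMap_mem' c⁻¹
  rw [map_inv₀, v.ord_inv] at h2
  omega

theorem ord_smul_of_ne_zero {c : K} (hc : c ≠ 0) (f : F) : v.ord (c • f) = v.ord f := by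
  rcases eq_or_ne f 0 with rfl | hf
  · simp
  rw [Algebra.smul_def, v.ord_mul (by simpa using hc) hf, ord_algebraMap, zero_add]

theorem exists_ord_eq_one : ∃ t : F, t ≠ 0 ∧ v.ord t = 1 := by
  obtain ⟨π, hπ⟩ := IsDiscreteValuationRing.exists_irreducible v.toValuationSubring
  refine ⟨π, ?_, v.ord_coe_irreducible hπ⟩
  simpa using hπ.ne_zero

theorem exists_ord_eq (n : ℤ) : ∃ t : F, t ≠ 0 ∧ v.ord t = n := by
  obtain ⟨t, ht, h1⟩ := exists_ord_eq_one v
  exact ⟨t ^ n, zpow_ne_zero n ht, by rw [v.ord_zpow, h1, mul_one]⟩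

theorem mem_maximalIdeal_iff {a : v.toValuationSubring} :
    a ∈ IsLocalRing.maximalIdeal v.toValuationSubring ↔ (a : F) = 0 ∨ 0 < v.ord (a : F) := by
  rcases eq_or_ne (a : F) 0 with ha | ha
  · have : a = 0 := by exact_mod_cast ha
    simp [this]
  · rw [IsLocalRing.mem_maximalIdeal, mem_nonunits_iff, ← v.adicValuation_coe_eq_one_iff,
      adicValuation_eq_one_iff v ha]
    have := (mem_iff_ord_nonneg v ha).mp a.2
    constructor
    · intro h; right; omega
    · rintro (h | h)
      · exact absurd h ha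
      · omega

/-- an element integral over `K` has `ord = 0` everywhere. -/
theorem ord_eq_zero_of_isAlgebraic {f : F} (hf : IsAlgebraic K f) : v.ord f = 0 := by
  have key : ∀ g : F, IsAlgebraic K g → g ≠ 0 → 0 ≤ v.ord g := by
    intro g hg hg0
    rw [← mem_iff_ord_nonneg v hg0]
    have hint : IsIntegral K g := hg.isIntegral
    have hint' : IsIntegral v.toValuationSubring g := hint.tower_top
    obtain ⟨y, hy⟩ := IsIntegrallyClosed.isIntegral_iff.mp hint'
    rw [← hy]
    exact y.2
  rcases eq_or_ne f 0 with rfl | hf0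
  · simp
  have h1 := key f hf hf0
  have h2 := key f⁻¹ hf.inv (inv_ne_zero hf0)
  rw [v.ord_inv] at h2
  omega

theorem transcendental_of_ord_ne_zero {f : F} (h : v.ord f ≠ 0) : Transcendental K f :=
  fun ha => h (ord_eq_zero_of_isAlgebraic v ha)

/-- Two places with comparable valuation rings are equal. -/
theorem eq_of_le {v w : Place K F} (h : v.toValuationSubring ≤ w.toValuationSubring) : v = w := by
  apply Place.ext
  apply le_antisymm h
  intro f hf
  by_contra hfv
  -- f ∉ O_v, f ∈ O_w; 1/f ∈ m_v. For every g: g ∈ O_v * f^n ⊆ O_w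
  apply w.ne_top'
  rw [eq_top_iff]
  intro g _
  have hf0 : f ≠ 0 := fun h0 => hfv (h0 ▸ v.toValuationSubring.zero_mem)
  rcases eq_or_ne g 0 with rfl | hg0
  · exact w.toValuationSubring.zero_mem
  have hneg : v.ord f < 0 := by
    by_contra hge
    exact hfv ((mem_iff_ord_nonneg v hf0).mpr (not_lt.mp hge))
  -- choose n with n * (-ord f) ≥ -ord g
  obtain ⟨n, hn⟩ : ∃ n : ℕ, -(v.ord g) ≤ n * (-(v.ord f)) := by
    refine ⟨(-(v.ord g)).toNat, ?_⟩
    have h1 : (-(v.ord g)) ≤ ((-(v.ord g)).toNat : ℤ) := Int.self_le_toNat _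
    nlinarith [Int.natCast_nonneg ((-(v.ord g)).toNat)]
  have hmem : g / f ^ n ∈ v.toValuationSubring := by
    rw [mem_iff_ord_nonneg v (div_ne_zero hg0 (pow_ne_zero n hf0)),
      ord_div v hg0 (pow_ne_zero n hf0), ord_pow]
    linarith
  have : g = (g / f ^ n) * f ^ n := by
    field_simp
  rw [this]
  exact w.toValuationSubring.mul_mem _ _ (h hmem) (pow_mem hf n)

end PlaceLemmas

end Fermat.Agent.FunField
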