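import Fermat.Agent.FunField.Deriv
import Fermat.Prelude.Def_AlgebraicCurve_CanonicalDivisor

/-! # Orders of differentials and the degree of the canonical divisor (characteristic zero). -/

noncomputable section

open AlgebraicCurve IsDedekindDomain WithZero IsLocalRing IntermediateField
open scoped KaehlerDifferential

namespace Fermat.Agent.FunField

variable {K F : Type*} [Field K] [Field F] [Algebra K F]

open PlaceLemmas

section CharZero

variable [CharZero K] [IsFF K F]

theorem isSeparable_adjoin {x : F} (hx : Transcendental K x) : Algebra.IsSeparable K⟮x⟯ F := by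
  haveI := finiteDimensional_adjoin_of_isFF hx
  haveI : CharZero K⟮x⟯ := charZero_of_injective_algebraMap (algebraMap K K⟮x⟯).injective
  infer_instance

/-- The derivation `d/dx`. -/
theorem exists_deriv {x : F} (hx : Transcendental K x) :
    ∃ δ : Derivation K F F, δ x = 1 ∧
      ∀ f, KaehlerDifferential.D K F f = δ f • KaehlerDifferential.D K F x := by
  haveI := isSeparable_adjoin hx
  obtain ⟨b, hb⟩ := exists_kaehlerBasis_of_separable hx
  refine ⟨(b.coord ()).compDer (KaehlerDifferential.D K F), ?_, fun f => ?_⟩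
  · show b.coord () (KaehlerDifferential.D K F x) = 1
    rw [← hb ()]
    simp
  · show _ = b.coord () (KaehlerDifferential.D K F f) • _
    rw [← hb ()]
    conv_lhs => rw [← b.sum_repr (KaehlerDifferential.D K F f)]
    simp

theorem D_ne_zero {x : F} (hx : Transcendental K x) : KaehlerDifferential.D K F x ≠ 0 := by
  haveI := isSeparable_adjoin hx
  obtain ⟨b, hb⟩ := exists_kaehlerBasis_of_separable hx
  rw [← hb ()]
  exact b.ne_zero ()

theorem exists_smul_D {x : F} (hx : Transcendental K x) (ω : Ω[F⁄K]) :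
    ∃ c : F, ω = c • KaehlerDifferential.D K F x := by
  haveI := isSeparable_adjoin hx
  obtain ⟨b, hb⟩ := exists_kaehlerBasis_of_separable hx
  refine ⟨b.repr ω (), ?_⟩
  rw [← hb ()]
  conv_lhs => rw [← b.sum_repr ω]
  simp

omit [CharZero K] [IsFF K F] in
theorem exists_dCoord_eq (v : Place K F) :
    ∃ t : F, v.ord t = 1 ∧ v.dCoord = KaehlerDifferential.D K F t := by
  refine ⟨((IsDiscreteValuationRing.exists_irreducible v.toValuationSubring).choose : F), ?_, rfl⟩
  exact v.ord_coe_irreducible
    (IsDiscreteValuationRing.exists_irreducible v.toValuationSubring).choose_spec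

instance dCoordGenerates (v : Place K F) : v.DCoordGenerates where
  span_eq_top := by
    obtain ⟨t, ht, hd⟩ := exists_dCoord_eq v
    have htr : Transcendental K t := transcendental_of_ord_ne_zero v (by omega)
    rw [hd, eq_top_iff]
    intro ω _
    obtain ⟨c, rfl⟩ := exists_smul_D htr ω
    exact Submodule.smul_mem _ c (Submodule.mem_span_singleton_self _)

variable (K F) in
theorem nontrivial_kaehler : Nontrivial Ω[F⁄K] := by
  obtain ⟨x, hx, -⟩ := ‹IsFF K F›
  exact ⟨_, 0, D_ne_zero hx⟩

theorem differentialCoeff_ne_zero (v : Place K F) {ω : Ω[F⁄K]} (hω : ω ≠ 0) :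
    v.differentialCoeff ω ≠ 0 := by
  intro h
  apply hω
  rw [← v.differentialCoeff_smul_dCoord ω, h, zero_smul]

theorem ordDifferential_smul' (v : Place K F) {c : F} (hc : c ≠ 0) {ω : Ω[F⁄K]} (hω : ω ≠ 0) :
    v.ordDifferential (c • ω) = v.ord c + v.ordDifferential ω := by
  haveI := nontrivial_kaehler K F
  exact v.ordDifferential_smul hc (differentialCoeff_ne_zero v hω)

variable [IsAlgClosed K]

/-- `ord_v (df) = ord_v f - 1` when `ord_v f ≠ 0`. -/
theorem ordDifferential_D (v : Place K F) {f : F} (he : v.ord f ≠ 0) :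
    v.ordDifferential (KaehlerDifferential.D K F f) = v.ord f - 1 := by
  haveI := nontrivial_kaehler K F
  obtain ⟨t, ht, hd⟩ := exists_dCoord_eq v
  have htr : Transcendental K t := transcendental_of_ord_ne_zero v (by omega)
  obtain ⟨δ, hδ1, hδ⟩ := exists_deriv htr
  have hf : f ≠ 0 := by rintro rfl; exact he v.ord_zero
  have h1 : KaehlerDifferential.D K F f = δ f • v.dCoord := by rw [hd, hδ]
  unfold Place.ordDifferential
  rw [v.differentialCoeff_unique h1]
  exact (ord_deriv δ v ht hδ1 hf (by exact_mod_cast he)).2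

theorem ordDifferential_D_sub (v : Place K F) {x : F} {a : K}
    (ha : 0 < v.ord (x - algebraMap K F a)) :
    v.ordDifferential (KaehlerDifferential.D K F x) = v.ord (x - algebraMap K F a) - 1 := by
  have h1 : KaehlerDifferential.D K F x = KaehlerDifferential.D K F (x - algebraMap K F a) := by
    rw [map_sub, Derivation.map_algebraMap, sub_zero]
  rw [h1]
  exact ordDifferential_D v ha.ne'

/-- **Degree of a canonical divisor** (Riemann–Hurwitz for differentials). -/
theorem degree_canonical {x : F} (hx : Transcendental K x) (S : Finset K)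
    (hS : ∀ a : K, a ∉ S → ∀ v : Place K F, 0 < v.ord (x - algebraMap K F a) →
      v.ord (x - algebraMap K F a) = 1)
    {ω : Ω[F⁄K]} (hω : ω ≠ 0) {D : Divisor K F} (hD : ∀ v, D v = v.ordDifferential ω) :
    Divisor.degree D = -2 * (Module.finrank K⟮x⟯ F : ℤ) +
      ∑ a ∈ S, ∑ v ∈ (zeroDiv (x - algebraMap K F a) : Divisor K F).support,
        (v.ord (x - algebraMap K F a) - 1) +
      ∑ v ∈ (zeroDiv x⁻¹ : Divisor K F).support, (v.ord x⁻¹ - 1) := by
  classical
  obtain ⟨c, hc⟩ := exists_smul_D hx ω
  have hc0 : c ≠ 0 := by rintro rfl; rw [zero_smul] at hc; exact hω hc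
  have hx0 : x ≠ 0 := fun h0 => hx (h0 ▸ isAlgebraic_zero)
  set E : Divisor K F := D - divOf c with hE
  have hdeg : Divisor.degree D = Divisor.degree E := by
    rw [hE, map_sub, degree_divOf, sub_zero]
  have hEv : ∀ v, E v = v.ordDifferential (KaehlerDifferential.D K F x) := by
    intro v
    rw [hE, Finsupp.sub_apply, hD, divOf_apply, hc, ordDifferential_smul' v hc0 (D_ne_zero hx)]
    ring
  have hEa : ∀ (a : K) (v : Place K F), 0 < v.ord (x - algebraMap K F a) →
      E v = v.ord (x - algebraMap K F a) - 1 := fun a v hv => by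
    rw [hEv, ordDifferential_D_sub v hv]
  have hEinf : ∀ v : Place K F, v.ord x < 0 → E v = -(v.ord x⁻¹) - 1 := fun v hv => by
    rw [hEv, ordDifferential_D v hv.ne, v.ord_inv]; ring
  have hmem0 : ∀ (a : K) (v : Place K F),
      v ∈ (zeroDiv (x - algebraMap K F a) : Divisor K F).support ↔
        0 < v.ord (x - algebraMap K F a) := by
    intro a v
    rw [Finsupp.mem_support_iff, zeroDiv_apply]
    constructor
    · intro h; by_contra h'; exact h (max_eq_right (not_lt.mp h'))
    · intro h; rw [max_eq_left h.le]; exact h.ne'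
  have hmemi : ∀ v : Place K F, v ∈ (zeroDiv x⁻¹ : Divisor K F).support ↔ v.ord x < 0 := by
    intro v
    rw [Finsupp.mem_support_iff, zeroDiv_apply, v.ord_inv]
    constructor
    · intro h; by_contra h'; exact h (max_eq_right (by omega))
    · intro h; rw [max_eq_left (by omega)]; omega
  let T₁ : Finset (Place K F) :=
    S.biUnion fun a => (zeroDiv (x - algebraMap K F a) : Divisor K F).support
  let T₂ : Finset (Place K F) := (zeroDiv x⁻¹ : Divisor K F).support
  have hdisj : Disjoint T₁ T₂ := by
    rw [Finset.disjoint_left]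
    intro v hv1 hv2
    obtain ⟨a, -, ha⟩ := Finset.mem_biUnion.mp hv1
    have h1 := ord_nonneg_of_ord_sub_pos v ((hmem0 a v).mp ha)
    have h2 := (hmemi v).mp hv2
    omega
  have hpair : ((S : Set K)).PairwiseDisjoint
      (fun a => (zeroDiv (x - algebraMap K F a) : Divisor K F).support) := by
    intro a _ b _ hab
    rw [Function.onFun, Finset.disjoint_left]
    intro v hv1 hv2
    exact hab (eq_of_ord_sub_pos v ((hmem0 a v).mp hv1) ((hmem0 b v).mp hv2))
  have hsupp : E.support ⊆ T₁ ∪ T₂ := by
    intro v hv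
    rw [Finsupp.mem_support_iff] at hv
    rcases exists_ord_sub_pos_or hx v with ⟨a, ha⟩ | h
    · by_cases haS : a ∈ S
      · exact Finset.mem_union_left _ (Finset.mem_biUnion.mpr ⟨a, haS, (hmem0 a v).mpr ha⟩)
      · exfalso
        apply hv
        rw [hEa a v ha, hS a haS v ha, sub_self]
    · exact Finset.mem_union_right _ ((hmemi v).mpr h)
  have hdegE : Divisor.degree E = ∑ v ∈ T₁ ∪ T₂, E v := by
    rw [degree_eq_sum, Finsupp.sum_of_support_subset E hsupp (fun v n => n * (v.deg : ℤ))
      (fun _ _ => zero_mul _)]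
    refine Finset.sum_congr rfl fun v _ => ?_
    rw [deg_eq_one, Nat.cast_one, mul_one]
  rw [hdeg, hdegE, Finset.sum_union hdisj, Finset.sum_biUnion hpair]
  have h1 : ∑ a ∈ S, ∑ v ∈ (zeroDiv (x - algebraMap K F a) : Divisor K F).support, E v =
      ∑ a ∈ S, ∑ v ∈ (zeroDiv (x - algebraMap K F a) : Divisor K F).support,
        (v.ord (x - algebraMap K F a) - 1) :=
    Finset.sum_congr rfl fun a _ => Finset.sum_congr rfl fun v hv => hEa a v ((hmem0 a v).mp hv)
  have h2 : ∑ v ∈ T₂, E v = ∑ v ∈ (zeroDiv x⁻¹ : Divisor K F).support, (v.ord x⁻¹ - 1) -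
      2 * ∑ v ∈ (zeroDiv x⁻¹ : Divisor K F).support, v.ord x⁻¹ := by
    rw [Finset.mul_sum, ← Finset.sum_sub_distrib]
    refine Finset.sum_congr rfl fun v hv => ?_
    rw [hEinf v ((hmemi v).mp hv)]
    ring
  rw [h1, h2, sum_ord_inv_eq_finrank hx]
  ring

/-- The genus of the Prelude, computed from any presentation with `deg = 2 g - 2`. -/
theorem genus_eq_of_sum [HasCanonicalDivisor (K := K) (F := F)] {x : F} (hx : Transcendental K x)
    (S : Finset K)
    (hS : ∀ a : K, a ∉ S → ∀ v : Place K F, 0 < v.ord (x - algebraMap K F a) →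
      v.ord (x - algebraMap K F a) = 1) (g : ℕ)
    (hg : -2 * (Module.finrank K⟮x⟯ F : ℤ) +
      ∑ a ∈ S, ∑ v ∈ (zeroDiv (x - algebraMap K F a) : Divisor K F).support,
        (v.ord (x - algebraMap K F a) - 1) +
      ∑ v ∈ (zeroDiv x⁻¹ : Divisor K F).support, (v.ord x⁻¹ - 1) = 2 * (g : ℤ) - 2) :
    AlgebraicCurve.genus K F = g := by
  classical
  have hex : ∃ ω : Ω[F⁄K], ω ≠ 0 := ⟨_, D_ne_zero hx⟩
  unfold AlgebraicCurve.genus
  rw [dif_pos hex]
  rw [degree_canonical hx S hS hex.choose_spec (canonicalDivisorOf_apply hex.choose_spec), hg]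
  have : (2 * (g : ℤ) - 2 + 2).toNat = 2 * g := by omega
  rw [this]
  omega

end CharZero

end Fermat.Agent.FunField
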