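import Fermat.Agent.FunField.Setup

set_option autoImplicit false

noncomputable section

open AlgebraicCurve IsDedekindDomain WithZero

namespace Fermat.Agent.FunField

variable {K F : Type*} [Field K] [Field F] [Algebra K F]

open PlaceLemmas IntermediateField

theorem transcendental_of_place {v : Place K F} {f : F} (h : v.ord f ≠ 0) : Transcendental K f :=
  transcendental_of_ord_ne_zero v h

instance finite_residueField [IsFF K F] (v : Place K F) : Module.Finite K v.ResidueField := by
  obtain ⟨t, _, ht⟩ := exists_ord_eq_one v
  have htr : Transcendental K t := transcendental_of_place (v := v) (by rw [ht]; exact one_ne_zero)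
  have := finiteDimensional_adjoin_of_isFF (K := K) htr
  exact finite_residueField_of_pos t htr v (by rw [ht]; exact one_pos)

theorem deg_pos [IsFF K F] (v : Place K F) : 0 < v.deg := Module.finrank_pos

/-- Finiteness of the set of zeros. -/
theorem finite_zeros [IsFF K F] (f : F) (hf : f ≠ 0) : {v : Place K F | 0 < v.ord f}.Finite := by
  classical
  by_cases htr : Transcendental K f
  · have := finiteDimensional_adjoin_of_isFF (K := K) htr
    by_contra hinf
    obtain ⟨S, hS, hcard⟩ := Set.Infinite.exists_subset_card_eq hinf (Module.finrank K⟮f⟯ F + 1)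
    have h := sum_ord_mul_deg_le f htr S (fun v hv => hS hv)
    have h2 : (S.card : ℤ) ≤ ∑ v ∈ S, v.ord f * v.deg := by
      rw [Finset.card_eq_sum_ones, Nat.cast_sum]
      refine Finset.sum_le_sum fun v hv => ?_
      have h3 : 0 < v.ord f := hS hv
      have h4 : (1 : ℤ) ≤ v.deg := by exact_mod_cast deg_pos v
      rw [Nat.cast_one]
      nlinarith
    rw [hcard] at h2
    push_cast at h2
    omega
  · have : {v : Place K F | 0 < v.ord f} = ∅ := by
      ext v
      simp only [Set.mem_ofPred_eq, Set.mem_empty_iff_false, iff_false]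
      intro h
      exact htr (transcendental_of_place (v := v) (ne_of_gt h))
    rw [this]; exact Set.finite_empty

theorem finite_support [IsFF K F] (f : F) (hf : f ≠ 0) : {v : Place K F | v.ord f ≠ 0}.Finite := by
  have h1 := finite_zeros (K := K) f hf
  have h2 := finite_zeros (K := K) f⁻¹ (inv_ne_zero hf)
  refine (h1.union h2).subset fun v hv => ?_
  simp only [Set.mem_ofPred_eq] at hv
  rcases lt_or_gt_of_ne hv with h | h
  · right
    show 0 < v.ord f⁻¹
    rw [v.ord_inv]; omega
  · left; exact h

/-- The divisor of a function. -/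
def divOf [IsFF K F] (f : F) : Divisor K F :=
  open Classical in
  if hf : f = 0 then 0 else
    Finsupp.ofSupportFinite (fun v : Place K F => v.ord f) (finite_support (K := K) f hf)

@[simp]
theorem divOf_apply [IsFF K F] (f : F) (v : Place K F) : divOf f v = v.ord f := by
  classical
  unfold divOf
  split_ifs with h
  · subst h; simp
  · rfl

/-- The divisor of zeros. -/
def zeroDiv [IsFF K F] (f : F) : Divisor K F :=
  (divOf f).mapRange (fun n => max n 0) (by simp)

@[simp]
theorem zeroDiv_apply [IsFF K F] (f : F) (v : Place K F) :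
    zeroDiv f v = max (v.ord f) 0 := by
  simp [zeroDiv]

/-- The divisor of poles. -/
def poleDiv [IsFF K F] (f : F) : Divisor K F := zeroDiv f⁻¹

@[simp]
theorem poleDiv_apply [IsFF K F] (f : F) (v : Place K F) :
    poleDiv f v = max (-(v.ord f)) 0 := by
  simp [poleDiv, v.ord_inv]

theorem divOf_eq_sub [IsFF K F] (f : F) : (divOf f : Divisor K F) = zeroDiv f - poleDiv f := by
  ext v
  rw [Finsupp.sub_apply, divOf_apply, zeroDiv_apply, poleDiv_apply]
  omega

theorem zeroDiv_nonneg [IsFF K F] (f : F) : (0 : Divisor K F) ≤ zeroDiv f := fun v => by simp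

theorem poleDiv_nonneg [IsFF K F] (f : F) : (0 : Divisor K F) ≤ poleDiv f := fun v => by simp

theorem degree_eq_sum (D : Divisor K F) : Divisor.degree D = D.sum fun v n => n * (v.deg : ℤ) := by
  rw [Divisor.degree, Finsupp.liftAddHom_apply]
  rfl

theorem degree_nonneg {D : Divisor K F} (hD : 0 ≤ D) : 0 ≤ Divisor.degree D := by
  rw [degree_eq_sum]
  exact Finset.sum_nonneg fun v _ => mul_nonneg (hD v) (Int.natCast_nonneg _)

theorem degree_mono {D E : Divisor K F} (h : D ≤ E) : Divisor.degree D ≤ Divisor.degree E := by
  have : 0 ≤ Divisor.degree (E - D) := degree_nonneg (fun v => by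
    have := h v
    simp only [Finsupp.coe_zero, Pi.zero_apply, Finsupp.sub_apply]
    omega)
  rw [map_sub] at this
  omega

theorem degree_zeroDiv_le [IsFF K F] (f : F) (hf : Transcendental K f) :
    Divisor.degree (zeroDiv f : Divisor K F) ≤ Module.finrank K⟮f⟯ F := by
  have := finiteDimensional_adjoin_of_isFF (K := K) hf
  rw [degree_eq_sum, Finsupp.sum]
  have hpos : ∀ v ∈ (zeroDiv f : Divisor K F).support, 0 < v.ord f := by
    intro v hv
    rw [Finsupp.mem_support_iff, zeroDiv_apply] at hv
    by_contra hle
    push Not at hle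
    exact hv (max_eq_right hle)
  refine le_trans (le_of_eq ?_) (sum_ord_mul_deg_le f hf _ hpos)
  refine Finset.sum_congr rfl fun v hv => ?_
  rw [zeroDiv_apply, max_eq_left (hpos v hv).le]

/-- Induction on effective divisors. -/
theorem effective_induction {P : Divisor K F → Prop} (h0 : P 0)
    (hs : ∀ (E : Divisor K F) (v : Place K F), 0 ≤ E → P E → P (E + Finsupp.single v 1)) :
    ∀ E : Divisor K F, 0 ≤ E → P E := by
  classical
  have key : ∀ n : ℕ, ∀ E : Divisor K F, 0 ≤ E → (∑ v ∈ E.support, E v).toNat = n → P E := by
    intro n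
    induction n with
    | zero =>
      intro E hE hsum
      have hE0 : E = 0 := by
        by_contra hne
        obtain ⟨v, hv⟩ := Finsupp.support_nonempty_iff.mpr hne
        have h1 : 0 < E v := lt_of_le_of_ne (hE v) (Ne.symm (Finsupp.mem_support_iff.mp hv))
        have h2 : E v ≤ ∑ v ∈ E.support, E v :=
          Finset.single_le_sum (fun w _ => hE w) hv
        omega
      rw [hE0]; exact h0
    | succ n ih =>
      intro E hE hsum
      have hne : E ≠ 0 := by
        rintro rfl
        simp at hsum
      obtain ⟨v, hv⟩ := Finsupp.support_nonempty_iff.mpr hne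
      have h1 : 0 < E v := lt_of_le_of_ne (hE v) (Ne.symm (Finsupp.mem_support_iff.mp hv))
      have hE' : 0 ≤ E - Finsupp.single v 1 := by
        intro w
        rw [Finsupp.sub_apply, Finsupp.single_apply]
        have := hE w
        simp only [Finsupp.coe_zero, Pi.zero_apply] at this ⊢
        split_ifs with h
        · subst h; omega
        · omega
      have hsum' : (∑ w ∈ (E - Finsupp.single v 1 : Divisor K F).support,
          (E - Finsupp.single v 1 : Divisor K F) w).toNat = n := by
        have hs1 : (∑ w ∈ (E - Finsupp.single v 1 : Divisor K F).support,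
            (E - Finsupp.single v 1 : Divisor K F) w) =
            ∑ w ∈ E.support, (E - Finsupp.single v 1 : Divisor K F) w := by
          apply Finset.sum_subset
          · intro w hw
            rw [Finsupp.mem_support_iff] at hw ⊢
            intro hEw
            apply hw
            rw [Finsupp.sub_apply, hEw, Finsupp.single_apply]
            split_ifs with h
            · subst h; omega
            · simp
          · intro w _ hw
            exact Finsupp.notMem_support_iff.mp hw
        rw [hs1]
        have hs2 : (∑ w ∈ E.support, (E - Finsupp.single v 1 : Divisor K F) w) =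
            (∑ w ∈ E.support, E w) - 1 := by
          simp only [Finsupp.sub_apply, Finset.sum_sub_distrib]
          congr 1
          rw [Finset.sum_eq_single v]
          · simp
          · intro w _ hw
            rw [Finsupp.single_apply, if_neg (Ne.symm hw)]
          · intro h; exact absurd hv h
        rw [hs2]
        omega
      have := hs _ v hE' (ih _ hE' hsum')
      rwa [sub_add_cancel] at this
  intro E hE
  exact key _ E hE rfl

theorem mem_rr {D : Divisor K F} {f : F} :
    f ∈ riemannRochSpace D ↔ ∀ v : Place K F, f ∈ geSub v (-(D v)) := by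
  rw [mem_riemannRochSpace_iff]
  exact forall_congr' fun v => mem_geSub.symm

theorem rr_mono {D E : Divisor K F} (h : D ≤ E) : riemannRochSpace D ≤ riemannRochSpace E := by
  intro f hf
  rw [mem_rr] at hf ⊢
  intro v
  exact geSub_anti v (by have := h v; omega) (hf v)

/-- One-step map `L(D + v) → κ(v)` with kernel `L(D)`. -/
theorem exists_rr_step (D : Divisor K F) (v : Place K F) :
    ∃ φ : riemannRochSpace (D + Finsupp.single v 1) →ₗ[K] v.ResidueField,
      ∀ f, φ f = 0 ↔ f.1 ∈ riemannRochSpace D := by
  classical
  obtain ⟨φ, _, hφ⟩ := exists_step v (-(D v) - 1)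
  have hle : ∀ f : riemannRochSpace (D + Finsupp.single v 1), f.1 ∈ geSub v (-(D v) - 1) := by
    intro f
    have := mem_rr.mp f.2 v
    rw [Finsupp.add_apply, Finsupp.single_eq_same] at this
    rwa [show -(D v) - 1 = -(D v + 1) by ring]
  let ι : riemannRochSpace (D + Finsupp.single v 1) →ₗ[K] geSub v (-(D v) - 1) :=
    { toFun := fun f => ⟨f.1, hle f⟩
      map_add' := fun f g => rfl
      map_smul' := fun c f => rfl }
  refine ⟨φ.comp ι, fun f => ?_⟩
  rw [LinearMap.comp_apply, hφ]
  show f.1 ∈ geSub v (-(D v) - 1 + 1) ↔ _
  rw [sub_add_cancel, mem_rr]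
  constructor
  · intro h w
    by_cases hw : w = v
    · subst hw; exact h
    · have := mem_rr.mp f.2 w
      rwa [Finsupp.add_apply, Finsupp.single_apply, if_neg (Ne.symm hw), add_zero] at this
  · intro h; exact h v

theorem rr_step_finite [IsFF K F] (D : Divisor K F) (v : Place K F)
    (h : Module.Finite K (riemannRochSpace D)) :
    Module.Finite K (riemannRochSpace (D + Finsupp.single v 1)) ∧
      Module.finrank K (riemannRochSpace (D + Finsupp.single v 1)) ≤
        Module.finrank K (riemannRochSpace D) + v.deg := by
  classical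
  obtain ⟨φ, hφ⟩ := exists_rr_step D v
  have hle : riemannRochSpace D ≤ riemannRochSpace (D + Finsupp.single v 1) :=
    rr_mono (fun w => by
      rw [Finsupp.add_apply, Finsupp.single_apply]; split_ifs <;> omega)
  -- kernel of φ ≃ L(D)
  let e : riemannRochSpace D ≃ₗ[K] LinearMap.ker φ :=
    { toFun := fun f => ⟨⟨f.1, hle f.2⟩, by rw [LinearMap.mem_ker, hφ]; exact f.2⟩
      map_add' := fun f g => rfl
      map_smul' := fun c f => rfl
      invFun := fun f => ⟨f.1.1, by have := f.2; rw [LinearMap.mem_ker, hφ] at this; exact this⟩
      left_inv := fun f => rfl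
      right_inv := fun f => rfl }
  have hker : Module.Finite K (LinearMap.ker φ) := Module.Finite.equiv e
  have hfin : Module.Finite K (riemannRochSpace (D + Finsupp.single v 1)) := by
    have hr : Module.Finite K (LinearMap.range φ) := inferInstance
    rw [Module.finite_def] at hker hr ⊢
    refine Submodule.fg_of_fg_map_of_fg_inf_ker φ ?_ ?_
    · rw [Submodule.map_top]
      exact (Module.finite_def.mp (inferInstance : Module.Finite K (LinearMap.range φ))) |>
        fun h => (Submodule.fg_top _).mp h
    · rw [top_inf_eq]
      exact (Submodule.fg_top _).mp hker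
  refine ⟨hfin, ?_⟩
  have h1 := LinearMap.finrank_range_add_finrank_ker φ
  have h2 : Module.finrank K (LinearMap.range φ) ≤ v.deg := Submodule.finrank_le _
  have h3 := e.finrank_eq
  omega

/-- `L(0)` consists of the elements algebraic over `K`. -/
theorem mem_rr_zero_iff [IsFF K F] {f : F} :
    f ∈ riemannRochSpace (0 : Divisor K F) ↔ IsAlgebraic K f := by
  rw [mem_rr]
  constructor
  · intro h
    rcases eq_or_ne f 0 with rfl | hf
    · exact isAlgebraic_zero
    apply isAlgebraic_of_forall_ord_nonneg
    intro v
    have := h v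
    rwa [mem_geSub_of_ne hf, Finsupp.coe_zero, Pi.zero_apply, neg_zero] at this
  · intro h v
    rcases eq_or_ne f 0 with rfl | hf
    · exact Submodule.zero_mem _
    rw [mem_geSub_of_ne hf, ord_eq_zero_of_isAlgebraic v h]
    simp

theorem exists_place [h : IsFF K F] : Nonempty (Place K F) := by
  obtain ⟨x, hx, _⟩ := h.exists_transcendental
  obtain ⟨v, _⟩ := exists_place_ord_pos (K := K) hx
  exact ⟨v⟩

theorem rr_zero_finite [IsFF K F] : Module.Finite K (riemannRochSpace (0 : Divisor K F)) := by
  obtain ⟨v⟩ := exists_place (K := K) (F := F)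
  have hle : ∀ f : riemannRochSpace (0 : Divisor K F), f.1 ∈ geSub v 0 := by
    intro f
    have := mem_rr.mp f.2 v
    simpa using this
  let ι : riemannRochSpace (0 : Divisor K F) →ₗ[K] geSub v 0 :=
    { toFun := fun f => ⟨f.1, hle f⟩
      map_add' := fun f g => rfl
      map_smul' := fun c f => rfl }
  refine Module.Finite.of_injective ((residueLin v).comp ι) ?_
  rw [← LinearMap.ker_eq_bot, LinearMap.ker_eq_bot']
  intro f hf
  rw [LinearMap.comp_apply, residueLin_eq_zero_iff] at hf
  have hf' : f.1 ∈ geSub v 1 := hf
  by_contra hne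
  have hne' : f.1 ≠ 0 := fun h => hne (Subtype.ext h)
  rw [mem_geSub_of_ne hne', ord_eq_zero_of_isAlgebraic v (mem_rr_zero_iff.mp f.2)] at hf'
  omega

theorem rr_finite_add [IsFF K F] (D : Divisor K F) (hD : Module.Finite K (riemannRochSpace D)) :
    ∀ E : Divisor K F, 0 ≤ E → Module.Finite K (riemannRochSpace (D + E)) ∧
      (Module.finrank K (riemannRochSpace (D + E)) : ℤ) ≤
        Module.finrank K (riemannRochSpace D) + Divisor.degree E := by
  apply effective_induction
  · rw [add_zero, map_zero, add_zero]
    exact ⟨hD, le_rfl⟩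
  · rintro E v _ ⟨h1, h2⟩
    obtain ⟨h3, h4⟩ := rr_step_finite (D + E) v h1
    rw [← add_assoc]
    refine ⟨h3, ?_⟩
    rw [map_add, Divisor.degree_single, one_mul]
    have h4' : (Module.finrank K (riemannRochSpace (D + E + Finsupp.single v 1)) : ℤ) ≤
      Module.finrank K (riemannRochSpace (D + E)) + v.deg := by exact_mod_cast h4
    linarith

/-- Riemann–Roch spaces are finite dimensional. -/
instance rr_finite [IsFF K F] (D : Divisor K F) : Module.Finite K (riemannRochSpace D) := by
  have hpos : (0 : Divisor K F) ≤ D.mapRange (fun n => max n 0) (by simp) := fun v => by simp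
  have h := (rr_finite_add (0 : Divisor K F) rr_zero_finite _ hpos).1
  rw [zero_add] at h
  have hle : riemannRochSpace D ≤
      riemannRochSpace (D.mapRange (fun n => max n 0) (by simp)) :=
    rr_mono (fun v => by simp)
  exact Submodule.finiteDimensional_of_le hle

theorem finrank_rr_add_le [IsFF K F] (D E : Divisor K F) (hE : 0 ≤ E) :
    (Module.finrank K (riemannRochSpace (D + E)) : ℤ) ≤
        Module.finrank K (riemannRochSpace D) + Divisor.degree E :=
  (rr_finite_add D (rr_finite D) E hE).2

theorem finrank_rr_le_of_le [IsFF K F] {D E : Divisor K F} (h : D ≤ E) :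
    (Module.finrank K (riemannRochSpace E) : ℤ) ≤
        Module.finrank K (riemannRochSpace D) + (Divisor.degree E - Divisor.degree D) := by
  have hE : (0 : Divisor K F) ≤ E - D := fun v => by
    have := h v
    simp only [Finsupp.coe_zero, Pi.zero_apply, Finsupp.sub_apply]
    omega
  have := finrank_rr_add_le D (E - D) hE
  rwa [add_sub_cancel, map_sub] at this

theorem finrank_rr_mono [IsFF K F] {D E : Divisor K F} (h : D ≤ E) :
    Module.finrank K (riemannRochSpace D) ≤ Module.finrank K (riemannRochSpace E) :=
  Submodule.finrank_mono (rr_mono h)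

end Fermat.Agent.FunField
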