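import Fermat.Agent.FunField.AlgClosed
import Fermat.Agent.FunField.Kaehler

/-! # Derivations of function fields and orders. -/

noncomputable section

open AlgebraicCurve IsDedekindDomain WithZero IsLocalRing IntermediateField
open scoped KaehlerDifferential

namespace Fermat.Agent.FunField

variable {K F : Type*} [Field K] [Field F] [Algebra K F]

open PlaceLemmas

theorem exists_mem_geSub (v : Place K F) (f : F) : ∃ N : ℕ, f ∈ geSub v (-(N : ℤ)) := by
  refine ⟨(-(v.ord f)).toNat, ?_⟩
  by_cases hf : f = 0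
  · rw [hf]; exact Submodule.zero_mem _
  · rw [mem_geSub_of_ne hf]
    have := Int.self_le_toNat (-(v.ord f))
    omega

/-- A finite dimensional subspace has bounded poles. -/
theorem exists_le_geSub (v : Place K F) (V : Submodule K F) [hV : Module.Finite K V] :
    ∃ N : ℕ, V ≤ geSub v (-(N : ℤ)) := by
  have hfg : V.FG := Module.Finite.iff_fg.mp hV
  refine Submodule.fg_induction (motive := fun V _ => ∃ N : ℕ, V ≤ geSub v (-(N : ℤ)))
    ?_ ?_ V hfg
  · intro x
    obtain ⟨N, hN⟩ := exists_mem_geSub v x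
    exact ⟨N, by rwa [Submodule.span_singleton_le_iff_mem]⟩
  · rintro V W _ _ ⟨N, hN⟩ ⟨M, hM⟩
    exact ⟨max N M, sup_le (hN.trans (geSub_anti v (by push_cast; omega)))
      (hM.trans (geSub_anti v (by push_cast; omega)))⟩

/-- A derivation has bounded poles on the functions with poles only at `P`. -/
theorem deriv_bound_pole_only [IsAlgClosed K] [IsFF K F] (δ : Derivation K F F) (v P : Place K F)
    (hP : P ≠ v) : ∃ N : ℕ, ∀ f : F, (∀ w, w ≠ P → f ∈ geSub w 0) → δ f ∈ geSub v (-(N : ℤ)) := by
  classical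
  obtain ⟨N₀, hN₀⟩ := exists_mem_rr_ord_eq (K := K) (F := F)
  obtain ⟨z, hz0, hzP, hz⟩ := exists_pole_only P
  obtain ⟨a, ha⟩ : ∃ a : ℕ, P.ord z = -(a : ℤ) := ⟨(-(P.ord z)).toNat, by omega⟩
  have ha0 : 0 < a := by omega
  -- base: `L(M P)`
  let M : ℕ := N₀.toNat + a + 1
  let D : ℕ → Divisor K F := fun m => Finsupp.single P (m : ℤ)
  obtain ⟨N₁, hN₁⟩ := exists_le_geSub v ((riemannRochSpace (D M)).map (δ : F →ₗ[K] F))
  obtain ⟨N₂, hN₂⟩ := exists_mem_geSub v (δ z)
  let N := max N₁ N₂
  refine ⟨N, ?_⟩
  have hD : ∀ m w, w ≠ P → D m w = 0 := fun m w hw => by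
    simp only [D]; rw [Finsupp.single_apply, if_neg (fun h => hw h.symm)]
  have hDP : ∀ m, D m P = m := fun m => by simp only [D]; exact Finsupp.single_eq_same
  have hreg : ∀ m, ∀ f ∈ riemannRochSpace (D m), ∀ w, w ≠ P → f ∈ geSub w 0 := by
    intro m f hf w hw
    have := mem_rr.mp hf w
    rwa [hD m w hw, neg_zero] at this
  have key : ∀ m, ∀ f ∈ riemannRochSpace (D m), δ f ∈ geSub v (-(N : ℤ)) := by
    intro m
    induction m using Nat.strong_induction_on with
    | _ m ih =>
      intro f hf
      by_cases hm : m ≤ M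
      · have h1 : D m ≤ D M := by
          intro w
          by_cases hw : w = P
          · subst hw; rw [hDP, hDP]; exact_mod_cast hm
          · rw [hD _ _ hw, hD _ _ hw]
        have h2 := hN₁ ⟨f, rr_mono h1 hf, rfl⟩
        exact geSub_anti v (by simp only [N]; push_cast; omega) h2
      · push Not at hm
        -- function of exact pole order m - a
        obtain ⟨g, hg, hg0, hgord⟩ := hN₀ (D (m - a - 1)) P (by
          simp only [D]
          rw [Divisor.degree_single, deg_eq_one, Nat.cast_one, mul_one]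
          have := Int.self_le_toNat N₀
          omega)
        rw [hDP] at hgord
        have hDg : D (m - a - 1) + Finsupp.single P 1 = D (m - a) := by
          simp only [D]
          rw [← Finsupp.single_add]
          congr 1
          omega
        rw [hDg] at hg
        have hDm : D (m - 1) + Finsupp.single P 1 = D m := by
          simp only [D]
          rw [← Finsupp.single_add]
          congr 1
          omega
        obtain ⟨φ, hφ⟩ : ∃ φ : riemannRochSpace (D m) →ₗ[K] P.ResidueField,
            ∀ f, φ f = 0 ↔ f.1 ∈ riemannRochSpace (D (m - 1)) := by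
          rw [← hDm]; exact exists_rr_step (D (m - 1)) P
        have hzg0 : z * g ≠ 0 := mul_ne_zero hz0 hg0
        have hzg : z * g ∈ riemannRochSpace (D m) := by
          rw [mem_rr]
          intro w
          rw [mem_geSub_of_ne hzg0, w.ord_mul hz0 hg0]
          by_cases hw : w = P
          · subst hw
            rw [hDP, ha, hgord]
            omega
          · rw [hD _ _ hw]
            have h1 := hz w hw
            have h2 := (mem_geSub_of_ne hg0).mp (hreg _ g hg w hw)
            omega
        have hφne : φ ⟨z * g, hzg⟩ ≠ 0 := by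
          intro h
          rw [hφ] at h
          have := mem_rr.mp h P
          rw [mem_geSub_of_ne hzg0, P.ord_mul hz0 hg0, ha, hgord, hDP] at this
          omega
        obtain ⟨c, hc⟩ := exists_smul_eq_of_finrank_eq_one
          (K := K) (V := P.ResidueField) (deg_eq_one P) hφne (φ ⟨f, hf⟩)
        have hf' : f - c • (z * g) ∈ riemannRochSpace (D (m - 1)) := by
          have : φ (⟨f, hf⟩ - c • ⟨z * g, hzg⟩) = 0 := by
            rw [map_sub, map_smul, hc, sub_self]
          exact (hφ _).mp this
        have h1 := ih (m - 1) (by omega) _ hf'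
        have h2 := ih (m - a) (by omega) g hg
        have h3 : δ f = δ (f - c • (z * g)) + c • (z * δ g + g * δ z) := by
          rw [map_sub, Derivation.map_smul, Derivation.leibniz]
          simp only [smul_eq_mul]
          ring
        rw [h3]
        refine Submodule.add_mem _ h1 (Submodule.smul_mem _ c (Submodule.add_mem _ ?_ ?_))
        · have hzv : z ∈ geSub v 0 := (mem_geSub_of_ne hz0).mpr (hz v hP.symm)
          have := mul_mem_geSub hzv h2
          rwa [zero_add] at this
        · have hgv : g ∈ geSub v 0 := hreg _ g hg v hP.symm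
          have := mul_mem_geSub hgv (geSub_anti v (show -(N : ℤ) ≤ -(N₂ : ℤ) by
            simp only [N]; push_cast; omega) hN₂)
          rwa [zero_add] at this
  intro f hf
  obtain ⟨m, hm⟩ := exists_mem_geSub P f
  refine key m f ?_
  rw [mem_rr]
  intro w
  by_cases hw : w = P
  · subst hw; rw [hDP]; exact hm
  · rw [hD _ _ hw, neg_zero]; exact hf w hw

/-- A derivation has bounded poles on the valuation ring of `v`. -/
theorem deriv_bound [IsAlgClosed K] [IsFF K F] (δ : Derivation K F F) (v : Place K F) :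
    ∃ N : ℕ, ∀ f ∈ geSub v 0, δ f ∈ geSub v (-(N : ℤ)) := by
  classical
  obtain ⟨P, hP⟩ := exists_place_ne v
  obtain ⟨N, hN⟩ := deriv_bound_pole_only δ v P hP
  refine ⟨N, fun f hf => ?_⟩
  by_cases hf0 : f = 0
  · rw [hf0, map_zero]; exact Submodule.zero_mem _
  -- poles of f other than P
  let S : Finset (Place K F) := (insert v (divOf f : Divisor K F).support).erase P
  have hPS : P ∉ S := Finset.notMem_erase _ _
  have hvS : v ∈ S := Finset.mem_erase.mpr ⟨hP.symm, Finset.mem_insert_self _ _⟩
  obtain ⟨s, hs1, hs2⟩ := strong_approximation S P hPS (fun w => if w = v then 1 else 0)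
    (fun w => if w = v then 1 else max 0 (-(w.ord f)))
  have hsv : s - 1 ∈ geSub v 1 := by
    have := hs1 v hvS
    simpa using this
  have hsv0 : s ∈ geSub v 0 := by
    have := Submodule.add_mem _ (geSub_anti v zero_le_one hsv) (one_mem_geSub_zero v)
    rwa [sub_add_cancel] at this
  have hs0 : s ≠ 0 := by
    intro h0
    rw [h0, zero_sub] at hsv
    have := Submodule.neg_mem _ hsv
    rw [neg_neg, mem_geSub_of_ne one_ne_zero, v.ord_one] at this
    omega
  have hsord : v.ord s = 0 := by
    have h1 : 0 ≤ v.ord s := (mem_geSub_of_ne hs0).mp hsv0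
    by_contra hne
    have h2 : s ∈ geSub v 1 := by rw [mem_geSub_of_ne hs0]; omega
    have h3 := Submodule.sub_mem _ h2 hsv
    rw [sub_sub_cancel, mem_geSub_of_ne one_ne_zero, v.ord_one] at h3
    omega
  have hsw : ∀ w ∈ S, w ≠ v → s ∈ geSub w (max 0 (-(w.ord f))) := by
    intro w hw hwv
    have := hs1 w hw
    simp only [if_neg hwv, sub_zero] at this
    exact this
  have hsreg : ∀ w, w ≠ P → s ∈ geSub w 0 := by
    intro w hw
    by_cases hwS : w ∈ S
    · by_cases hwv : w = v
      · rw [hwv]; exact hsv0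
      · exact geSub_anti w (le_max_left _ _) (hsw w hwS hwv)
    · exact hs2 w hwS hw
  have hsfreg : ∀ w, w ≠ P → s * f ∈ geSub w 0 := by
    intro w hw
    by_cases hwv : w = v
    · rw [hwv]
      have := mul_mem_geSub hsv0 hf
      rwa [zero_add] at this
    · by_cases hwS : w ∈ S
      · have h1 := hsw w hwS hwv
        have h2 : f ∈ geSub w (w.ord f) := by rw [mem_geSub_of_ne hf0]
        exact geSub_anti w (by have := le_max_right 0 (-(w.ord f)); omega) (mul_mem_geSub h1 h2)
      · have h1 : w.ord f = 0 := by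
          by_contra hne
          apply hwS
          refine Finset.mem_erase.mpr ⟨hw, Finset.mem_insert_of_mem ?_⟩
          rw [Finsupp.mem_support_iff, divOf_apply]
          exact hne
        have h2 : f ∈ geSub w 0 := by rw [mem_geSub_of_ne hf0, h1]
        have := mul_mem_geSub (hsreg w hw) h2
        rwa [zero_add] at this
  have h1 := hN s hsreg
  have h2 := hN (s * f) hsfreg
  have h3 : s * δ f = δ (s * f) - f * δ s := by
    rw [Derivation.leibniz]
    simp only [smul_eq_mul]
    ring
  have h4 : s * δ f ∈ geSub v (-(N : ℤ)) := by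
    rw [h3]
    refine Submodule.sub_mem _ h2 ?_
    have := mul_mem_geSub hf h1
    rwa [zero_add] at this
  have h5 := (mul_mem_geSub_iff (v := v) (n := -(N : ℤ)) (g := δ f) hs0)
  rw [hsord, zero_add] at h5
  exact h5.mp h4

/-- If `δ t = 1` for a uniformizer `t` at `v` then `δ` preserves the valuation ring of `v`. -/
theorem deriv_regular [IsAlgClosed K] [IsFF K F] (δ : Derivation K F F) (v : Place K F) {t : F}
    (ht : v.ord t = 1) (hδ : δ t = 1) {f : F} (hf : f ∈ geSub v 0) : δ f ∈ geSub v 0 := by
  have ht0 : t ≠ 0 := by rintro rfl; rw [v.ord_zero] at ht; omega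
  obtain ⟨N, hN⟩ := deriv_bound δ v
  have key : ∀ N : ℕ, (∀ f ∈ geSub v 0, δ f ∈ geSub v (-(N : ℤ))) →
      ∀ f ∈ geSub v 0, δ f ∈ geSub v 0 := by
    intro N
    induction N with
    | zero => intro h; simpa using h
    | succ n ih =>
      intro h
      apply ih
      intro f hf
      obtain ⟨a, ha⟩ := exists_sub_mem v hf
      let g : F := (f - algebraMap K F a) / t
      have hg : g ∈ geSub v 0 := by
        have h1 := (mul_mem_geSub_iff (v := v) (n := 0) (g := g) ht0)
        rw [ht, add_zero] at h1
        rw [← h1]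
        simp only [g]
        rwa [mul_div_cancel₀ _ ht0]
      have hfg : f = algebraMap K F a + t * g := by
        simp only [g]
        rw [mul_div_cancel₀ _ ht0]; ring
      have hδf : δ f = t * δ g + g := by
        rw [hfg, map_add, Derivation.map_algebraMap, Derivation.leibniz, hδ]
        simp only [smul_eq_mul, mul_one, zero_add]
      rw [hδf]
      refine Submodule.add_mem _ ?_ (geSub_anti v (by omega) hg)
      have h2 : t ∈ geSub v 1 := by rw [mem_geSub_of_ne ht0, ht]
      have h3 := mul_mem_geSub h2 (h g hg)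
      exact geSub_anti v (by push_cast; omega) h3
  exact key N hN f hf

/-- Order of the derivative with respect to a uniformizer (tame case). -/
theorem ord_deriv [IsAlgClosed K] [IsFF K F] (δ : Derivation K F F) (v : Place K F) {t : F}
    (ht : v.ord t = 1) (hδ : δ t = 1) {f : F} (hf : f ≠ 0) (he : ((v.ord f : ℤ) : K) ≠ 0) :
    δ f ≠ 0 ∧ v.ord (δ f) = v.ord f - 1 := by
  have ht0 : t ≠ 0 := by rintro rfl; rw [v.ord_zero] at ht; omega
  -- positive case
  have key : ∀ f : F, f ≠ 0 → ((v.ord f : ℤ) : K) ≠ 0 → 0 < v.ord f →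
      δ f ≠ 0 ∧ v.ord (δ f) = v.ord f - 1 := by
    intro f hf he hpos
    obtain ⟨n, hn⟩ : ∃ n : ℕ, v.ord f = (n : ℤ) + 1 := ⟨(v.ord f - 1).toNat, by omega⟩
    let u : F := f / t ^ (n + 1)
    have htn : t ^ (n + 1) ≠ 0 := pow_ne_zero _ ht0
    have hu0 : u ≠ 0 := div_ne_zero hf htn
    have hu : v.ord u = 0 := by
      simp only [u]
      rw [ord_div v hf htn, ord_pow, ht, hn]
      push_cast; ring
    have hfu : f = t ^ (n + 1) * u := by
      simp only [u]; rw [mul_div_cancel₀ _ htn]
    have hδf : δ f = t ^ n * (((n + 1 : ℕ) : F) * u + t * δ u) := by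
      rw [hfu, Derivation.leibniz, Derivation.leibniz_pow, hδ]
      simp only [smul_eq_mul, nsmul_eq_mul, Nat.add_sub_cancel, mul_one]
      ring
    have hc : (((n + 1 : ℕ) : K)) ≠ 0 := by
      rw [hn] at he
      simpa using he
    have hcF : ((n + 1 : ℕ) : F) = algebraMap K F ((n + 1 : ℕ) : K) := by simp
    have hcF0 : ((n + 1 : ℕ) : F) ≠ 0 := by rw [hcF]; exact (map_ne_zero _).mpr hc
    have hcu : v.ord (((n + 1 : ℕ) : F) * u) = 0 := by
      rw [v.ord_mul hcF0 hu0, hu, hcF, ord_algebraMap, add_zero]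
    have hcu0 : ((n + 1 : ℕ) : F) * u ≠ 0 := mul_ne_zero hcF0 hu0
    have h1 : t * δ u = 0 ∨ v.ord (((n + 1 : ℕ) : F) * u) < v.ord (t * δ u) := by
      by_cases h0 : t * δ u = 0
      · exact Or.inl h0
      right
      rw [hcu]
      have h2 : t ∈ geSub v 1 := by rw [mem_geSub_of_ne ht0, ht]
      have h3 := deriv_regular δ v ht hδ (f := u) (by rw [mem_geSub_of_ne hu0, hu])
      have h4 := mul_mem_geSub h2 h3
      rw [mem_geSub_of_ne h0] at h4
      omega
    have h5 : ((n + 1 : ℕ) : F) * u + t * δ u ≠ 0 := by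
      rcases h1 with h | h
      · rw [h, add_zero]; exact hcu0
      · exact add_ne_zero_of_ord_lt v hcu0 h
    have h6 : v.ord (((n + 1 : ℕ) : F) * u + t * δ u) = 0 := by
      rw [ord_add_eq_of_lt v hcu0 h1, hcu]
    rw [hδf]
    refine ⟨mul_ne_zero (pow_ne_zero _ ht0) h5, ?_⟩
    rw [v.ord_mul (pow_ne_zero _ ht0) h5, h6, ord_pow, ht, hn]
    ring
  rcases lt_trichotomy (v.ord f) 0 with h | h | h
  · obtain ⟨h1, h2⟩ := key f⁻¹ (inv_ne_zero hf) (by
      rw [v.ord_inv]; simpa using he) (by rw [v.ord_inv]; omega)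
    have h3 : δ f = -(f ^ 2) * δ f⁻¹ := by
      have h4 : δ (f * f⁻¹) = 0 := by
        rw [mul_inv_cancel₀ hf]; exact δ.map_one_eq_zero
      rw [Derivation.leibniz] at h4
      simp only [smul_eq_mul] at h4
      have h5 : f * (f * δ f⁻¹ + f⁻¹ * δ f) = 0 := by rw [h4, mul_zero]
      have h6 : f * (f * δ f⁻¹ + f⁻¹ * δ f) = f ^ 2 * δ f⁻¹ + (f * f⁻¹) * δ f := by ring
      rw [h6, mul_inv_cancel₀ hf, one_mul] at h5
      linear_combination h5
    have h7 : -(f ^ 2) ≠ 0 := neg_ne_zero.mpr (pow_ne_zero 2 hf)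
    rw [h3]
    refine ⟨mul_ne_zero h7 h1, ?_⟩
    rw [v.ord_mul h7 h1, h2, ord_neg, ord_pow, v.ord_inv]
    push_cast
    ring
  · rw [h] at he; simp at he
  · exact key f hf he h

end Fermat.Agent.FunField
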