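import Fermat.Agent.FunField.StrongApprox

/-! # Weil differentials: existence of a canonical divisor with `h¹(D) = l(W - D)`. -/

noncomputable section

open AlgebraicCurve IsDedekindDomain WithZero IsLocalRing

namespace Fermat.Agent.FunField

variable {K F : Type*} [Field K] [Field F] [Algebra K F]

open PlaceLemmas

theorem degree_nonneg_of_mem_rr [IsFF K F] {D : Divisor K F} {f : F}
    (hf : f ∈ riemannRochSpace D) (hf0 : f ≠ 0) : 0 ≤ Divisor.degree D := by
  have h1 : (0 : Divisor K F) ≤ D + divOf f := by
    intro v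
    have := mem_rr.mp hf v
    rw [mem_geSub_of_ne hf0] at this
    rw [Finsupp.add_apply, divOf_apply, Finsupp.coe_zero, Pi.zero_apply]
    omega
  have h2 := degree_nonneg h1
  rwa [map_add, degree_divOf, add_zero] at h2

theorem finrank_rr_of_degree_neg [IsFF K F] {D : Divisor K F} (hD : Divisor.degree D < 0) :
    Module.finrank K (riemannRochSpace D) = 0 := by
  by_contra hne
  obtain ⟨f, hf, hf0⟩ := exists_ne_zero_of_finrank_pos (Nat.pos_of_ne_zero hne)
  have := degree_nonneg_of_mem_rr hf hf0
  omega

theorem eq_zero_of_degree_zero [IsFF K F] {D : Divisor K F} (h0 : 0 ≤ D)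
    (hD : Divisor.degree D = 0) : D = 0 := by
  by_contra hne
  obtain ⟨v, hv⟩ := Finsupp.support_nonempty_iff.mpr hne
  have hv0 : D v ≠ 0 := Finsupp.mem_support_iff.mp hv
  have h1 : 0 < D v := lt_of_le_of_ne (h0 v) hv0.symm
  rw [degree_eq_sum, Finsupp.sum] at hD
  have h2 : ∀ w ∈ D.support, 0 ≤ D w * (w.deg : ℤ) := fun w _ =>
    mul_nonneg (h0 w) (by positivity)
  have h3 := (Finset.sum_eq_zero_iff_of_nonneg h2).mp hD v hv
  have h4 : (0 : ℤ) < v.deg := by exact_mod_cast deg_pos v
  have h5 : (0 : ℤ) < D v * v.deg := mul_pos h1 h4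
  omega

variable (K F) in
/-- The constant `l(0) - g`. -/
def rrConst : ℤ :=
  (Module.finrank K (riemannRochSpace (0 : Divisor K F)) : ℤ) - (genusFF K F : ℤ)

theorem rr_const [IsFF K F] (D : Divisor K F) :
    (Module.finrank K (riemannRochSpace D) : ℤ) - (Module.finrank K (H1 D) : ℤ) =
      Divisor.degree D + rrConst K F := by
  rw [riemann_roch' D, rrConst]; ring

/-- Linear forms on the adeles vanishing on `A(D) + F`. -/
def van (D : Divisor K F) : Submodule K (Module.Dual K (repartitions K F)) :=
  (repartitionsOf D ⊔ principalRepartitions K F).dualAnnihilator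

theorem mem_van {D : Divisor K F} {l : Module.Dual K (repartitions K F)} :
    l ∈ van D ↔ (∀ α ∈ repartitionsOf D, l α = 0) ∧ ∀ α ∈ principalRepartitions K F, l α = 0 := by
  unfold van
  rw [Submodule.mem_dualAnnihilator]
  constructor
  · intro h
    exact ⟨fun α hα => h α (Submodule.mem_sup_left hα), fun α hα => h α (Submodule.mem_sup_right hα)⟩
  · rintro ⟨h1, h2⟩ α hα
    obtain ⟨β, hβ, γ, hγ, rfl⟩ := Submodule.mem_sup.mp hα
    rw [map_add, h1 β hβ, h2 γ hγ, add_zero]

theorem finrank_van [IsFF K F] (D : Divisor K F) :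
    Module.finrank K (van D) = Module.finrank K (H1 D) := by
  have e := (repartitionsOf D ⊔ principalRepartitions K F).dualQuotEquivDualAnnihilator
  have h1 : Module.finrank K (van D) = Module.finrank K (Module.Dual K (H1 D)) :=
    e.symm.finrank_eq
  rw [h1, Subspace.dual_finrank_eq]

instance finite_van [IsFF K F] (D : Divisor K F) : Module.Finite K (van D) := by
  have e := (repartitionsOf D ⊔ principalRepartitions K F).dualQuotEquivDualAnnihilator
  have h1 : Module.Finite K (Module.Dual K (H1 D)) := inferInstance
  exact Module.Finite.equiv e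

/-- The action of `F` on linear forms on the adeles. -/
def act [IsFF K F] : F →ₗ[K] Module.Dual K (repartitions K F) →ₗ[K]
    Module.Dual K (repartitions K F) where
  toFun f :=
    { toFun := fun l =>
        { toFun := fun α => l (constAdele f * α)
          map_add' := fun α β => by rw [mul_add, map_add]
          map_smul' := fun c α => by rw [mul_smul_comm, map_smul]; rfl }
      map_add' := fun _ _ => rfl
      map_smul' := fun _ _ => rfl }
  map_add' f g := by
    ext l α
    show l (constAdele (f + g) * α) = l (constAdele f * α) + l (constAdele g * α)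
    rw [← map_add, ← add_mul]
    unfold constAdele
    rw [map_add]
  map_smul' c f := by
    ext l α
    show l (constAdele (c • f) * α) = c • l (constAdele f * α)
    rw [← map_smul, ← smul_mul_assoc]
    congr 2

theorem act_apply [IsFF K F] (f : F) (l : Module.Dual K (repartitions K F))
    (α : repartitions K F) : act f l α = l (constAdele f * α) := rfl

theorem act_mul [IsFF K F] (f g : F) (l : Module.Dual K (repartitions K F)) :
    act (f * g) l = act f (act g l) := by
  ext α
  rw [act_apply, act_apply, act_apply]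
  congr 1
  unfold constAdele
  rw [map_mul]
  ring

theorem act_one [IsFF K F] (l : Module.Dual K (repartitions K F)) : act 1 l = l := by
  ext α
  rw [act_apply]
  unfold constAdele
  rw [map_one, one_mul]

theorem act_ne_zero [IsFF K F] {f : F} (hf : f ≠ 0) {l : Module.Dual K (repartitions K F)}
    (hl : l ≠ 0) : act f l ≠ 0 := by
  intro h
  apply hl
  rw [← act_one l, ← inv_mul_cancel₀ hf, act_mul, h, map_zero]

theorem constAdele_mul_mem_principal [IsFF K F] (f : F) {α : repartitions K F}
    (hα : α ∈ principalRepartitions K F) : constAdele f * α ∈ principalRepartitions K F := by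
  obtain ⟨g, rfl⟩ := mem_principal_iff.mp hα
  rw [mem_principal_iff]
  refine ⟨f * g, ?_⟩
  unfold constAdele
  rw [map_mul]

theorem act_mem_van [IsFF K F] {D D₀ : Divisor K F} {f : F} (hf : f ∈ riemannRochSpace D)
    {l : Module.Dual K (repartitions K F)} (hl : l ∈ van D₀) : act f l ∈ van (D₀ - D) := by
  rw [mem_van] at hl ⊢
  refine ⟨fun α hα => ?_, fun α hα => ?_⟩
  · rw [act_apply]
    apply hl.1
    rw [mem_repOf] at hα ⊢
    intro v
    have h1 := mul_mem_geSub (mem_rr.mp hf v) (hα v)
    have h2 : -(D v) + -((D₀ - D) v) = -(D₀ v) := by rw [Finsupp.sub_apply]; ring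
    rw [h2] at h1
    exact h1
  · rw [act_apply]
    exact hl.2 _ (constAdele_mul_mem_principal f hα)

theorem van_anti {D E : Divisor K F} (h : D ≤ E) : (van E : Submodule K _) ≤ van D := by
  intro l hl
  rw [mem_van] at hl ⊢
  exact ⟨fun α hα => hl.1 α (repartitionsOf_mono h hα), hl.2⟩

/-- The space of Weil differentials is one-dimensional over `F`. -/
theorem exists_act_eq [IsFF K F] {D₀ : Divisor K F} {l m : Module.Dual K (repartitions K F)}
    (hl : l ∈ van D₀) (hm : m ∈ van D₀) (hl0 : l ≠ 0) : ∃ f : F, m = act f l := by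
  classical
  by_contra hcon
  push Not at hcon
  obtain ⟨N, hN⟩ := exists_finrank_rr_eq (K := K) (F := F)
  obtain ⟨P⟩ := exists_place (K := K) (F := F)
  -- a divisor of large degree
  let k : ℕ := (|N| + |Divisor.degree D₀| + 3 * |rrConst K F| + 1).toNat
  have hk : (k : ℤ) = |N| + |Divisor.degree D₀| + 3 * |rrConst K F| + 1 :=
    Int.toNat_of_nonneg (by positivity)
  let D : Divisor K F := Finsupp.single P (k : ℤ)
  have hdegD : Divisor.degree D = k * P.deg := Divisor.degree_single _ _
  have hP : (1 : ℤ) ≤ P.deg := by exact_mod_cast deg_pos P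
  have hdegk : (k : ℤ) ≤ Divisor.degree D := by
    rw [hdegD]
    nlinarith [Int.natCast_nonneg k]
  let Ψ : (riemannRochSpace D × riemannRochSpace D) →ₗ[K] van (D₀ - D) :=
    { toFun := fun p => ⟨act (p.1 : F) l + act (p.2 : F) m,
        Submodule.add_mem _ (act_mem_van p.1.2 hl) (act_mem_van p.2.2 hm)⟩
      map_add' := fun p q => Subtype.ext (by
        show act ((p.1 : F) + q.1) l + act ((p.2 : F) + q.2) m =
          (act (p.1 : F) l + act (p.2 : F) m) + (act (q.1 : F) l + act (q.2 : F) m)
        rw [map_add, map_add, LinearMap.add_apply, LinearMap.add_apply]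
        abel)
      map_smul' := fun c p => Subtype.ext (by
        show act (c • (p.1 : F)) l + act (c • (p.2 : F)) m =
          c • (act (p.1 : F) l + act (p.2 : F) m)
        rw [map_smul, map_smul, LinearMap.smul_apply, LinearMap.smul_apply, smul_add]) }
  have hΨ : Function.Injective Ψ := by
    rw [injective_iff_map_eq_zero]
    rintro ⟨f, g⟩ h
    have h1 : act (f : F) l + act (g : F) m = 0 := congrArg Subtype.val h
    by_cases hg : (g : F) = 0
    · rw [hg, map_zero, LinearMap.zero_apply, add_zero] at h1
      have hf : (f : F) = 0 := by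
        by_contra hf
        exact act_ne_zero hf hl0 h1
      exact Prod.ext (Subtype.ext hf) (Subtype.ext hg)
    · exfalso
      apply hcon (-((g : F)⁻¹ * f))
      have h2 : act (g : F)⁻¹ (act (f : F) l + act (g : F) m) = 0 := by rw [h1, map_zero]
      rw [map_add, ← act_mul, ← act_mul, inv_mul_cancel₀ hg, act_one] at h2
      rw [map_neg, LinearMap.neg_apply]
      exact eq_neg_of_add_eq_zero_right h2
  have h1 := LinearMap.finrank_le_finrank_of_injective hΨ
  rw [Module.finrank_prod, finrank_van] at h1
  have h2 := hN D (by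
    have := le_abs_self N
    have := abs_nonneg (Divisor.degree D₀)
    have := abs_nonneg (rrConst K F)
    linarith)
  have h3 := rr_const (D₀ - D)
  have hneg : Divisor.degree (D₀ - D) < 0 := by
    rw [map_sub]
    have := le_abs_self (Divisor.degree D₀)
    have := abs_nonneg N
    have := abs_nonneg (rrConst K F)
    linarith
  rw [finrank_rr_of_degree_neg hneg, Nat.cast_zero, zero_sub, map_sub] at h3
  have h4 : (Module.finrank K (riemannRochSpace D) : ℤ) = Divisor.degree D + rrConst K F := by
    rw [h2, rrConst]; ring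
  have h5 : (Module.finrank K (riemannRochSpace D) : ℤ) +
      Module.finrank K (riemannRochSpace D) ≤ Module.finrank K (H1 (D₀ - D)) := by
    exact_mod_cast h1
  have h6 := neg_abs_le (Divisor.degree D₀)
  have h7 := neg_abs_le (rrConst K F)
  have := abs_nonneg N
  linarith

theorem exists_van_ne_zero [IsFF K F] :
    ∃ (D : Divisor K F) (l : Module.Dual K (repartitions K F)), l ∈ van D ∧ l ≠ 0 := by
  obtain ⟨P⟩ := exists_place (K := K) (F := F)
  let D : Divisor K F := Finsupp.single P (-(|rrConst K F| + 1))
  have hP : (1 : ℤ) ≤ P.deg := by exact_mod_cast deg_pos P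
  have hdeg : Divisor.degree D ≤ -(|rrConst K F| + 1) := by
    simp only [D]
    rw [Divisor.degree_single]
    nlinarith [abs_nonneg (rrConst K F)]
  have h3 := rr_const D
  rw [finrank_rr_of_degree_neg (by linarith [abs_nonneg (rrConst K F)])] at h3
  have h4 : 0 < Module.finrank K (van D) := by
    rw [finrank_van]
    have := le_abs_self (rrConst K F)
    have h5 : (0 : ℤ) < Module.finrank K (H1 D) := by
      push_cast at h3
      linarith
    exact_mod_cast h5
  have hne : van D ≠ ⊥ := by
    intro h
    rw [h, finrank_bot] at h4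
    exact lt_irrefl _ h4
  obtain ⟨l, hl, hl0⟩ := Submodule.exists_mem_ne_zero_of_ne_bot hne
  exact ⟨D, l, hl, hl0⟩

theorem mem_van_sup [IsFF K F] {D E : Divisor K F} {l : Module.Dual K (repartitions K F)}
    (hD : l ∈ van D) (hE : l ∈ van E) : l ∈ van (D ⊔ E) := by
  classical
  rw [mem_van] at hD hE ⊢
  refine ⟨fun α hα => ?_, hD.2⟩
  let β : repartitions K F := ⟨fun v => if E v ≤ D v then (α : Place K F → F) v else 0, by
    rw [mem_repartitions_iff]
    refine (mem_repartitions_iff.mp α.2).subset fun v hv => ?_
    simp only [Set.mem_ofPred_eq] at hv ⊢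
    intro h
    apply hv
    split_ifs
    · exact h
    · exact Submodule.zero_mem _⟩
  have hβ : ∀ v, (β : Place K F → F) v = if E v ≤ D v then (α : Place K F → F) v else 0 :=
    fun v => rfl
  have h1 : l β = 0 := by
    apply hD.1
    rw [mem_repOf] at hα ⊢
    intro v
    rw [hβ]
    split_ifs with h
    · have := hα v
      rwa [Finsupp.sup_apply, sup_of_le_left h] at this
    · exact Submodule.zero_mem _
  have h2 : l (α - β) = 0 := by
    apply hE.1
    rw [mem_repOf] at hα ⊢
    intro v
    show (α : Place K F → F) v - (β : Place K F → F) v ∈ _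
    rw [hβ]
    split_ifs with h
    · rw [sub_self]; exact Submodule.zero_mem _
    · have := hα v
      rw [Finsupp.sup_apply, sup_of_le_right (not_le.mp h).le] at this
      rwa [sub_zero]
  rw [map_sub, h1, sub_zero] at h2
  exact h2

/-- The divisor of a Weil differential. -/
theorem exists_max_van [IsFF K F] {D₀ : Divisor K F} {l : Module.Dual K (repartitions K F)}
    (hl : l ∈ van D₀) (hl0 : l ≠ 0) : ∃ W : Divisor K F, l ∈ van W ∧ ∀ D, l ∈ van D → D ≤ W := by
  obtain ⟨N, hN⟩ := exists_h1_vanishing (K := K) (F := F)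
  have hbd : ∀ D : Divisor K F, l ∈ van D → Divisor.degree D < N := by
    intro D hD
    by_contra hcon
    have h1 := hN D (not_lt.mp hcon)
    have h2 : Module.finrank K (van D) = 0 := by
      rw [finrank_van]; exact Module.finrank_zero_of_subsingleton
    have h3 : van D = ⊥ := Submodule.finrank_eq_zero.mp h2
    rw [h3] at hD
    exact hl0 hD
  -- choose a maximal degree
  obtain ⟨W, hW, hmax⟩ : ∃ W : Divisor K F, l ∈ van W ∧
      ∀ D, l ∈ van D → Divisor.degree D ≤ Divisor.degree W := by
    let S : Set ℕ := {n | ∃ D : Divisor K F, l ∈ van D ∧ (N - Divisor.degree D).toNat = n}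
    have hS : S.Nonempty := ⟨_, D₀, hl, rfl⟩
    obtain ⟨W, hW, hWn⟩ := Nat.sInf_mem hS
    refine ⟨W, hW, fun D hD => ?_⟩
    have h1 := Nat.sInf_le (s := S) ⟨D, hD, rfl⟩
    rw [← hWn] at h1
    have h2 := hbd W hW
    have h3 := hbd D hD
    omega
  refine ⟨W, hW, fun D hD => ?_⟩
  have h1 := mem_van_sup hD hW
  have h2 := hmax _ h1
  have h3 : (0 : Divisor K F) ≤ D ⊔ W - W := sub_nonneg.mpr le_sup_right
  have h4 : Divisor.degree (D ⊔ W - W) = 0 := by
    apply le_antisymm
    · rw [map_sub]; omega
    · exact degree_nonneg h3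
  have h5 := eq_zero_of_degree_zero h3 h4
  rw [sub_eq_zero] at h5
  rw [← h5]
  exact le_sup_left

theorem act_mem_van_iff [IsFF K F] {W : Divisor K F} {l : Module.Dual K (repartitions K F)}
    (hW : l ∈ van W) (hmax : ∀ D, l ∈ van D → D ≤ W) {f : F} (hf : f ≠ 0) {D : Divisor K F} :
    act f l ∈ van D ↔ f ∈ riemannRochSpace (W - D) := by
  constructor
  · intro h
    have h1 : l ∈ van (D - divOf f) := by
      rw [mem_van] at h ⊢
      refine ⟨fun α hα => ?_, fun α hα => ?_⟩
      · have h2 : constAdele f⁻¹ * α ∈ repartitionsOf D := by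
          rw [mem_repOf] at hα ⊢
          intro v
          have h3 : f⁻¹ ∈ geSub v (v.ord f⁻¹) := by rw [mem_geSub_of_ne (inv_ne_zero hf)]
          have h4 := mul_mem_geSub h3 (hα v)
          have h5 : v.ord f⁻¹ + -((D - divOf f : Divisor K F) v) = -(D v) := by
            rw [Finsupp.sub_apply, divOf_apply, v.ord_inv]; ring
          rw [h5] at h4
          exact h4
        have h6 := h.1 _ h2
        rw [act_apply, ← mul_assoc] at h6
        have h7 : (constAdele f * constAdele f⁻¹ : repartitions K F) = 1 := by
          unfold constAdele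
          rw [← map_mul, mul_inv_cancel₀ hf, map_one]
        rwa [h7, one_mul] at h6
      · have h6 := h.2 _ (constAdele_mul_mem_principal f⁻¹ hα)
        rw [act_apply, ← mul_assoc] at h6
        have h7 : (constAdele f * constAdele f⁻¹ : repartitions K F) = 1 := by
          unfold constAdele
          rw [← map_mul, mul_inv_cancel₀ hf, map_one]
        rwa [h7, one_mul] at h6
    have h2 := hmax _ h1
    rw [mem_rr]
    intro v
    rw [mem_geSub_of_ne hf, Finsupp.sub_apply]
    have := h2 v
    rw [Finsupp.sub_apply, divOf_apply] at this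
    omega
  · intro h
    have := act_mem_van h hW
    rwa [sub_sub_cancel] at this

/-- **Duality**: there is a divisor `W` with `h¹(D) = l(W - D)` for all `D`. -/
theorem exists_canonical [IsFF K F] :
    ∃ W : Divisor K F, ∀ D : Divisor K F,
      Module.finrank K (H1 D) = Module.finrank K (riemannRochSpace (W - D)) := by
  obtain ⟨D₀, l, hl, hl0⟩ := exists_van_ne_zero (K := K) (F := F)
  obtain ⟨W, hW, hmax⟩ := exists_max_van hl hl0
  refine ⟨W, fun D => ?_⟩
  let Φ : F →ₗ[K] Module.Dual K (repartitions K F) := act.flip l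
  have hΦ : ∀ f, Φ f = act f l := fun f => rfl
  have hinj : Function.Injective Φ := by
    rw [← LinearMap.ker_eq_bot, LinearMap.ker_eq_bot']
    intro f hf
    by_contra hne
    exact act_ne_zero hne hl0 hf
  have hmap : (riemannRochSpace (W - D)).map Φ = van D := by
    apply le_antisymm
    · rintro _ ⟨f, hf, rfl⟩
      rw [hΦ]
      have := act_mem_van hf hW
      rwa [sub_sub_cancel] at this
    · intro m hm
      obtain ⟨f, hf⟩ := exists_act_eq (D₀ := D ⊓ W) (van_anti inf_le_right hW)
        (van_anti inf_le_left hm) hl0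
      refine ⟨f, ?_, hf.symm⟩
      by_cases hf0 : f = 0
      · rw [hf0]; exact Submodule.zero_mem _
      · rw [SetLike.mem_coe, ← act_mem_van_iff hW hmax hf0, ← hf]
        exact hm
  rw [← finrank_van, ← hmap]
  exact (Submodule.equivMapOfInjective Φ hinj (riemannRochSpace (W - D))).finrank_eq.symm

/-- **Riemann–Roch** with duality over an algebraically closed field. -/
theorem exists_canonical_riemann_roch [IsFF K F] [IsAlgClosed K] :
    ∃ W : Divisor K F, Divisor.degree W = 2 * (genusFF K F : ℤ) - 2 ∧
      Module.finrank K (riemannRochSpace W) = genusFF K F ∧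
      ∀ D : Divisor K F, (Module.finrank K (riemannRochSpace D) : ℤ) -
        Module.finrank K (riemannRochSpace (W - D)) = Divisor.degree D + 1 - genusFF K F := by
  obtain ⟨W, hW⟩ := exists_canonical (K := K) (F := F)
  have h1 : Module.finrank K (riemannRochSpace W) = genusFF K F := by
    have := hW 0
    rw [sub_zero] at this
    rw [← this]; rfl
  have h2 : ∀ D : Divisor K F, (Module.finrank K (riemannRochSpace D) : ℤ) -
      Module.finrank K (riemannRochSpace (W - D)) = Divisor.degree D + 1 - genusFF K F := by
    intro D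
    rw [← hW D]
    exact riemann_roch D
  refine ⟨W, ?_, h1, h2⟩
  have h3 := h2 W
  rw [sub_self, h1, finrank_rr_zero, Nat.cast_one] at h3
  linarith

end Fermat.Agent.FunField
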