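import Fermat.Agent.FunField.Canonical
import Fermat.Agent.RH.Formula

/-! # The genus of the Prelude equals `genusFF` in characteristic zero. -/

noncomputable section

open AlgebraicCurve IsDedekindDomain WithZero IsLocalRing IntermediateField
open scoped KaehlerDifferential

namespace Fermat.Agent.FunField

variable {K F : Type*} [Field K] [Field F] [Algebra K F]

open PlaceLemmas

/-- Finiteness of ramification over `K(x)` (`K` algebraically closed, `x` separating). -/
theorem finite_ram_ne_one [IsAlgClosed K] [IsFF K F] {x : F} (hx : Transcendental K x)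
    [Algebra.IsSeparable K⟮x⟯ F] : {Q : Place K F | RH.ram x Q ≠ 1}.Finite := by
  by_contra hinf
  obtain ⟨T, hT, hcard⟩ := (Set.Infinite.exists_subset_card_eq hinf
    ((2 * (genusFF K F : ℤ) - 2 + 2 * Module.finrank K⟮x⟯ F).toNat + 1))
  have h1 := RH.riemann_hurwitz_le x hx T
  have h2 : (T.card : ℤ) ≤ ∑ Q ∈ T, (RH.ram x Q - 1) := by
    rw [Finset.card_eq_sum_ones, Nat.cast_sum]
    refine Finset.sum_le_sum fun Q hQ => ?_
    have h3 := RH.ram_pos hx Q
    have h4 : RH.ram x Q ≠ 1 := hT hQ
    push_cast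
    omega
  rw [hcard] at h2
  omega

theorem exists_unramified_outside [IsAlgClosed K] [IsFF K F] {x : F} (hx : Transcendental K x)
    [Algebra.IsSeparable K⟮x⟯ F] : ∃ S : Finset K, ∀ a : K, a ∉ S → ∀ v : Place K F,
      0 < v.ord (x - algebraMap K F a) → v.ord (x - algebraMap K F a) = 1 := by
  classical
  have hfin := finite_ram_ne_one (K := K) hx
  have h1 : {a : K | ∃ v ∈ {Q : Place K F | RH.ram x Q ≠ 1},
      0 < v.ord (x - algebraMap K F a)}.Finite := by
    have : {a : K | ∃ v ∈ {Q : Place K F | RH.ram x Q ≠ 1},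
        0 < v.ord (x - algebraMap K F a)} =
        ⋃ v ∈ {Q : Place K F | RH.ram x Q ≠ 1}, {a : K | 0 < v.ord (x - algebraMap K F a)} := by
      ext a; simp
    rw [this]
    refine hfin.biUnion fun v _ => ?_
    refine Set.Subsingleton.finite fun a ha b hb => eq_of_ord_sub_pos v ha hb
  refine ⟨h1.toFinset, fun a ha v hv => ?_⟩
  rw [Set.Finite.mem_toFinset] at ha
  by_contra hne
  apply ha
  refine ⟨v, ?_, hv⟩
  show RH.ram x v ≠ 1
  rwa [RH.ram_of_pos hv]

variable [CharZero K] [IsAlgClosed K] [IsFF K F]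

/-- Canonical divisors exist. -/
instance hasCanonicalDivisor : HasCanonicalDivisor (K := K) (F := F) where
  exists_divisor ω hω := by
    classical
    obtain ⟨x, hx, -⟩ := ‹IsFF K F›
    haveI := isSeparable_adjoin hx
    obtain ⟨c, hc⟩ := exists_smul_D hx ω
    have hc0 : c ≠ 0 := by rintro rfl; rw [zero_smul] at hc; exact hω hc
    have hfin := finite_ram_ne_one (K := K) hx
    have hsupp : {v : Place K F | v.ordDifferential ω ≠ 0}.Finite := by
      refine ((hfin.union (finite_support (K := K) c hc0)).union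
        (finite_zeros (K := K) x⁻¹ (inv_ne_zero
          (fun h0 => hx (h0 ▸ isAlgebraic_zero))))).subset fun v hv => ?_
      by_contra hcon
      rw [Set.mem_union, Set.mem_union, not_or, not_or] at hcon
      obtain ⟨⟨h1, h2⟩, h3⟩ := hcon
      simp only [Set.mem_ofPred_eq, not_not] at h1 h2 h3
      apply hv
      rw [hc, ordDifferential_smul' v hc0 (D_ne_zero hx), h2, zero_add]
      rcases exists_ord_sub_pos_or hx v with ⟨a, ha⟩ | h
      · rw [ordDifferential_D_sub v ha, ← RH.ram_of_pos ha, h1, sub_self]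
      · rw [v.ord_inv] at h3; omega
    exact ⟨Finsupp.ofSupportFinite _ hsupp, fun v => rfl⟩

/-- The degree of a canonical divisor is `2 g - 2`. -/
theorem degree_canonical_eq {ω : Ω[F⁄K]} (hω : ω ≠ 0) {D : Divisor K F}
    (hD : ∀ v, D v = v.ordDifferential ω) : Divisor.degree D = 2 * (genusFF K F : ℤ) - 2 := by
  obtain ⟨x, hx, hfin⟩ := ‹IsFF K F›
  haveI : IsFF K F := ⟨⟨x, hx, hfin⟩⟩
  haveI := isSeparable_adjoin hx
  obtain ⟨S, hS⟩ := exists_unramified_outside (K := K) hx
  rw [degree_canonical hx S hS hω hD,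
    RH.riemann_hurwitz_charZero hx S (fun a v ha hv => hS a ha v hv)]

/-- The genus of the Prelude is `dim H¹(0)`. -/
theorem genus_eq_genusFF [HasCanonicalDivisor (K := K) (F := F)] :
    AlgebraicCurve.genus K F = genusFF K F := by
  obtain ⟨x, hx, hfin⟩ := ‹IsFF K F›
  haveI : IsFF K F := ⟨⟨x, hx, hfin⟩⟩
  haveI := isSeparable_adjoin hx
  obtain ⟨S, hS⟩ := exists_unramified_outside (K := K) hx
  refine genus_eq_of_sum hx S hS _ ?_
  rw [RH.riemann_hurwitz_charZero hx S (fun a v ha hv => hS a ha v hv)]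

/-- Riemann–Hurwitz for the genus of the Prelude, in the form used for `S24`. -/
theorem two_mul_genus_sub_two [HasCanonicalDivisor (K := K) (F := F)] {x : F}
    (hx : Transcendental K x) (S : Finset K)
    (hS : ∀ a : K, a ∉ S → ∀ v : Place K F, 0 < v.ord (x - algebraMap K F a) →
      v.ord (x - algebraMap K F a) = 1) :
    2 * (AlgebraicCurve.genus K F : ℤ) - 2 = -2 * (Module.finrank K⟮x⟯ F : ℤ) +
      ∑ a ∈ S, ∑ v ∈ (zeroDiv (x - algebraMap K F a) : Divisor K F).support,
        (v.ord (x - algebraMap K F a) - 1) +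
      ∑ v ∈ (zeroDiv x⁻¹ : Divisor K F).support, (v.ord x⁻¹ - 1) := by
  rw [genus_eq_genusFF, RH.riemann_hurwitz_charZero hx S (fun a v ha hv => hS a ha v hv)]

end Fermat.Agent.FunField
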