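import Fermat.Agent.FunField.Local

set_option autoImplicit false

noncomputable section

open AlgebraicCurve IsDedekindDomain WithZero

namespace Fermat.Agent.FunField

variable {K F : Type*} [Field K] [Field F] [Algebra K F]

open PlaceLemmas

open Polynomial in
/-- If the `y i` are `K`-linearly independent modulo `x R`, they are independent over `K[x]`. -/
theorem indep_poly (x : F) (hx0 : x ≠ 0) {ι : Type*} (y : ι → F) (R : Submodule K F)
    (hR : ∀ (p : K[X]) (i : ι), aeval x p * y i ∈ R)
    (h : ∀ (s : Finset ι) (c : ι → K), (∃ r ∈ R, (∑ i ∈ s, c i • y i) = x * r) →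
      ∀ i ∈ s, c i = 0) (n : ℕ) :
    ∀ (s : Finset ι) (p : ι → K[X]), (∀ i ∈ s, (p i).degree < n) →
      (∑ i ∈ s, aeval x (p i) * y i) = 0 → ∀ i ∈ s, p i = 0 := by
  induction n with
  | zero =>
    intro s p hp _ i hi
    have := hp i hi
    rw [Nat.cast_zero] at this
    by_contra h0
    exact absurd this (not_lt.mpr (zero_le_degree_iff.mpr h0))
  | succ n ih =>
    intro s p hp hsum
    have hdecomp : ∀ i, aeval x (p i) = x * aeval x (divX (p i)) + algebraMap K F ((p i).coeff 0) := by
      intro i
      conv_lhs => rw [← X_mul_divX_add (p i)]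
      rw [map_add, map_mul, aeval_X, aeval_C]
    have hsum2 : (∑ i ∈ s, (p i).coeff 0 • y i) = x * (-∑ i ∈ s, aeval x (divX (p i)) * y i) := by
      have h1 : (∑ i ∈ s, aeval x (p i) * y i) =
          x * (∑ i ∈ s, aeval x (divX (p i)) * y i) + ∑ i ∈ s, (p i).coeff 0 • y i := by
        rw [Finset.mul_sum, ← Finset.sum_add_distrib]
        refine Finset.sum_congr rfl fun i _ => ?_
        rw [hdecomp, Algebra.smul_def]; ring
      rw [h1] at hsum
      linear_combination hsum
    have hc := h s (fun i => (p i).coeff 0)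
      ⟨_, Submodule.neg_mem _ (Submodule.sum_mem _ fun i _ => hR _ i), hsum2⟩
    have hsum3 : (∑ i ∈ s, aeval x (divX (p i)) * y i) = 0 := by
      have h2 : (∑ i ∈ s, (p i).coeff 0 • y i) = 0 :=
        Finset.sum_eq_zero fun i hi => by rw [hc i hi, zero_smul]
      rw [h2] at hsum2
      have := (mul_eq_zero.mp hsum2.symm).resolve_left hx0
      exact neg_eq_zero.mp this
    have hdeg : ∀ i ∈ s, (divX (p i)).degree < n := by
      intro i hi
      rcases eq_or_ne (p i) 0 with h0 | h0
      · rw [h0]; simp
      · have h1 := hp i hi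
        rw [degree_eq_natDegree h0] at h1
        have h1' : (p i).natDegree < n + 1 := by exact_mod_cast h1
        rcases eq_or_ne (divX (p i)) 0 with h2 | h2
        · rw [h2]; simp
        · rw [degree_eq_natDegree h2, natDegree_divX_eq_natDegree_tsub_one]
          have h3 : (p i).natDegree ≠ 0 := by
            intro h4
            apply h2
            have := natDegree_divX_eq_natDegree_tsub_one (p := p i)
            rw [divX_eq_zero_iff]
            exact eq_C_of_natDegree_eq_zero h4
          have : (p i).natDegree - 1 < n := by omega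
          exact_mod_cast this
    have h4 := ih s (fun i => divX (p i)) hdeg hsum3
    intro i hi
    have h5 := X_mul_divX_add (p i)
    rw [h4 i hi, hc i hi] at h5
    simpa using h5.symm

open scoped IntermediateField.algebraAdjoinAdjoin in
open Polynomial IntermediateField in
theorem linearIndependent_adjoin (x : F) (hx : Transcendental K x) {ι : Type*} (y : ι → F)
    (R : Submodule K F)
    (hR : ∀ (p : K[X]) (i : ι), aeval x p * y i ∈ R)
    (h : ∀ (s : Finset ι) (c : ι → K), (∃ r ∈ R, (∑ i ∈ s, c i • y i) = x * r) →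
      ∀ i ∈ s, c i = 0) :
    LinearIndependent K⟮x⟯ y := by
  have hx0 : x ≠ 0 := fun h0 => hx (h0 ▸ isAlgebraic_zero)
  rw [← LinearIndependent.iff_fractionRing (R := Algebra.adjoin K {x}) (K := K⟮x⟯)]
  rw [linearIndependent_iff']
  intro s g hg
  have hmem : ∀ z : F, z ∈ Algebra.adjoin K {x} → ∃ p : K[X], aeval x p = z := by
    intro z hz
    rw [Algebra.adjoin_singleton_eq_range_aeval] at hz
    exact hz
  have hp : ∀ i, ∃ p : K[X], aeval x p = (g i : F) := fun i => hmem _ (g i).2
  choose p hp using hp
  have hsum : (∑ i ∈ s, aeval x (p i) * y i) = 0 := by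
    rw [← hg]
    refine Finset.sum_congr rfl fun i _ => ?_
    rw [hp i]; rfl
  obtain ⟨n, hn⟩ : ∃ n : ℕ, ∀ i ∈ s, (p i).degree < n := by
    refine ⟨s.sup (fun i => (p i).natDegree) + 1, fun i hi => ?_⟩
    refine lt_of_le_of_lt degree_le_natDegree ?_
    have : (p i).natDegree ≤ s.sup (fun i => (p i).natDegree) :=
      Finset.le_sup (f := fun i => (p i).natDegree) hi
    exact_mod_cast Nat.lt_succ_of_le this
  have h0 := indep_poly x hx0 y R hR h n s p hn hsum
  intro i hi
  apply Subtype.ext
  rw [← hp i, h0 i hi]
  simp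

open IntermediateField in
/-- The basic inequality: zeros of `x` are bounded by `[F : K(x)]`. -/
theorem card_le_finrank (x : F) (hx : Transcendental K x) [FiniteDimensional K⟮x⟯ F]
    (S : Finset (Place K F)) (hS : ∀ v ∈ S, 0 < v.ord x) (d : S → ℕ)
    (s : ∀ v : S, Fin (d v) → F) (hs0 : ∀ v j, s v j ∈ geSub v.1 0)
    (hind : ∀ v : S, ∀ c : Fin (d v) → K, (∑ j, c j • s v j) ∈ geSub v.1 1 → c = 0) :
    ∑ v : S, d v * (v.1.ord x).toNat ≤ Module.finrank K⟮x⟯ F := by
  classical
  have hx0 : x ≠ 0 := fun h0 => hx (h0 ▸ isAlgebraic_zero)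
  choose π hπ0 hπ using fun v : S => exists_ord_eq_one v.1
  let e : S → ℕ := fun v => (v.1.ord x).toNat
  have he : ∀ v : S, ((e v : ℕ) : ℤ) = v.1.ord x := fun v =>
    Int.toNat_of_nonneg (hS v.1 v.2).le
  let ι := Σ v : S, Fin (d v) × Fin (e v)
  let target : ι → S → F := fun i w =>
    if h : i.1 = w then s w (h ▸ i.2.1) * π w ^ (i.2.2 : ℕ) else 0
  have happ : ∀ i : ι, ∃ f : F, ∀ w : S, f - target i w ∈ geSub w.1 (e w) := by
    intro i
    obtain ⟨f, hf⟩ := weak_approximation' (fun w : S => w.1) Subtype.val_injective (target i)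
      (fun w => (e w : ℤ))
    refine ⟨f, fun w => ?_⟩
    rw [mem_geSub]
    exact (hf w).imp sub_eq_zero.mpr id
  choose y hy using happ
  have hπmem : ∀ w : S, π w ∈ geSub w.1 0 := fun w => by
    rw [mem_geSub_of_ne (hπ0 w), hπ]; norm_num
  have htarget : ∀ i w, target i w ∈ geSub w.1 0 := by
    intro i w
    simp only [target]
    split_ifs with h
    · have := mul_mem_geSub (hs0 w (h ▸ i.2.1)) (pow_mem_geSub_zero (hπmem w) (i.2.2 : ℕ))
      simpa using this
    · exact Submodule.zero_mem _
  have hy0 : ∀ (i : ι) (w : S), y i ∈ geSub w.1 0 := by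
    intro i w
    have h1 := geSub_anti w.1 (Int.natCast_nonneg (e w)) (hy i w)
    have := Submodule.add_mem _ h1 (htarget i w)
    rwa [sub_add_cancel] at this
  let R : Submodule K F := ⨅ w : S, geSub w.1 0
  have hxmem : ∀ w : S, x ∈ geSub w.1 0 := fun w => by
    rw [mem_geSub_of_ne hx0]; exact (hS w.1 w.2).le
  have hli : LinearIndependent K⟮x⟯ y := by
    refine linearIndependent_adjoin x hx y R ?_ ?_
    · intro p i
      rw [Submodule.mem_iInf]
      intro w
      have hp : Polynomial.aeval x p ∈ geSub w.1 0 := by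
        rw [Polynomial.aeval_eq_sum_range]
        exact Submodule.sum_mem _ fun k _ =>
          Submodule.smul_mem _ _ (pow_mem_geSub_zero (hxmem w) k)
      simpa using mul_mem_geSub hp (hy0 i w)
    · rintro t c ⟨r, hr, hsum⟩
      -- extend c by zero
      let c' : ι → K := fun i => if i ∈ t then c i else 0
      have hsum' : (∑ i : ι, c' i • y i) = x * r := by
        rw [← hsum, ← Finset.sum_filter_add_sum_filter_not Finset.univ (fun i => i ∈ t)]
        rw [Finset.filter_mem_eq_inter, Finset.univ_inter]
        have : (∑ i ∈ Finset.univ.filter (fun i => i ∉ t), c' i • y i) = 0 := by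
          refine Finset.sum_eq_zero fun i hi => ?_
          simp only [c', if_neg (Finset.mem_filter.mp hi).2, zero_smul]
        rw [this, add_zero]
        refine Finset.sum_congr rfl fun i hi => ?_
        simp only [c', if_pos hi]
      suffices hc' : ∀ i, c' i = 0 by
        intro i hi
        have := hc' i
        simpa only [c', if_pos hi] using this
      -- local analysis at w
      have hloc : ∀ w : S, ∀ j a, c' ⟨w, (j, a)⟩ = 0 := by
        intro w
        have h1 : (∑ i : ι, c' i • y i) ∈ geSub w.1 (e w) := by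
          rw [hsum', he w]
          have := (mul_mem_geSub_iff (v := w.1) (n := 0) (f := x) (g := r) hx0).mpr
            ((Submodule.mem_iInf _).mp hr w)
          rwa [add_zero] at this
        have h2 : (∑ i : ι, c' i • (y i - target i w)) ∈ geSub w.1 (e w) :=
          Submodule.sum_mem _ fun i _ => Submodule.smul_mem _ _ (hy i w)
        have h3 : (∑ i : ι, c' i • target i w) ∈ geSub w.1 (e w) := by
          have h4 : (∑ i : ι, c' i • target i w) =
              (∑ i : ι, c' i • y i) - ∑ i : ι, c' i • (y i - target i w) := by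
            rw [← Finset.sum_sub_distrib]
            refine Finset.sum_congr rfl fun i _ => ?_
            rw [smul_sub]; ring
          rw [h4]
          exact Submodule.sub_mem _ h1 h2
        have h5 : (∑ i : ι, c' i • target i w) =
            ∑ j, ∑ a, c' ⟨w, (j, a)⟩ • (s w j * π w ^ (a : ℕ)) := by
          rw [Fintype.sum_sigma, Finset.sum_eq_single w]
          · rw [Fintype.sum_prod_type]
            refine Finset.sum_congr rfl fun j _ => Finset.sum_congr rfl fun a _ => ?_
            simp only [target, dif_pos]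
          · intro v _ hv
            refine Finset.sum_eq_zero fun ja _ => ?_
            simp only [target, dif_neg hv, smul_zero]
          · intro hw; exact absurd (Finset.mem_univ w) hw
        rw [h5] at h3
        have h6 := local_indep w.1 (hπ0 w) (hπ w) (s w) (hs0 w) (hind w) (e w) _ h3
        intro j a
        exact congrFun (congrFun h6 j) a
      rintro ⟨w, j, a⟩
      exact hloc w j a
  have hcard := hli.fintype_card_le_finrank
  have hc : Fintype.card ι = ∑ v : S, d v * (v.1.ord x).toNat := by
    simp only [ι, Fintype.card_sigma, Fintype.card_prod, Fintype.card_fin, e]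
  rw [← hc]
  exact hcard

/-- lifting an independent family in the residue field. -/
theorem exists_lift_family (v : Place K F) {d : ℕ} (b : Fin d → v.ResidueField)
    (hb : LinearIndependent K b) :
    ∃ s : Fin d → F, (∀ j, s j ∈ geSub v 0) ∧
      ∀ c : Fin d → K, (∑ j, c j • s j) ∈ geSub v 1 → c = 0 := by
  choose s hs using fun j => residueLin_surjective v (b j)
  refine ⟨fun j => (s j).1, fun j => (s j).2, fun c hc => ?_⟩
  have h1 : residueLin v (∑ j, c j • s j) = 0 := by
    rw [residueLin_eq_zero_iff]
    have : ((∑ j, c j • s j : geSub v 0) : F) = ∑ j, c j • (s j).1 := by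
      simp
    rw [this]; exact hc
  rw [map_sum] at h1
  simp only [map_smul, hs] at h1
  rw [Fintype.linearIndependent_iff] at hb
  funext j
  exact hb c h1 j

open IntermediateField in
/-- Residue fields are finite over `K`. -/
theorem finite_residueField_of_pos (x : F) (hx : Transcendental K x) [FiniteDimensional K⟮x⟯ F]
    (v : Place K F) (hv : 0 < v.ord x) : Module.Finite K v.ResidueField := by
  classical
  by_contra hinf
  rw [← Module.rank_lt_aleph0_iff, not_lt] at hinf
  set n := Module.finrank K⟮x⟯ F with hn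
  have hn1 : ((n + 1 : ℕ) : Cardinal) ≤ Module.rank K v.ResidueField :=
    (Cardinal.natCast_lt_aleph0.le).trans hinf
  obtain ⟨b, hb⟩ := exists_linearIndependent_of_le_rank hn1
  obtain ⟨s, hs0, hs⟩ := exists_lift_family v b hb
  have h := card_le_finrank x hx {v} (fun w hw => by rw [Finset.mem_singleton.mp hw]; exact hv)
    (fun _ => n + 1) (fun w j => s j)
    (fun w j => by
      have := Finset.mem_singleton.mp w.2
      rw [this]; exact hs0 j)
    (fun w c hc => by
      have := Finset.mem_singleton.mp w.2
      rw [this] at hc; exact hs c hc)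
  have h2 : ∑ w : ({v} : Finset (Place K F)), (n + 1) * (w.1.ord x).toNat = (n + 1) * (v.ord x).toNat := by
    rw [Finset.sum_coe_sort ({v} : Finset (Place K F)) (fun w => (n + 1) * (w.ord x).toNat)]
    simp
  rw [h2] at h
  have h3 : 1 ≤ (v.ord x).toNat := by omega
  nlinarith

open IntermediateField in
/-- `∑ ord_v(x) deg v ≤ [F : K(x)]` over finite sets of zeros. -/
theorem sum_ord_mul_deg_le (x : F) (hx : Transcendental K x) [FiniteDimensional K⟮x⟯ F]
    (S : Finset (Place K F)) (hS : ∀ v ∈ S, 0 < v.ord x) :
    ∑ v ∈ S, v.ord x * v.deg ≤ Module.finrank K⟮x⟯ F := by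
  classical
  have hfin : ∀ v : S, Module.Finite K v.1.ResidueField := fun v =>
    finite_residueField_of_pos x hx v.1 (hS v.1 v.2)
  have hex : ∀ v : S, ∃ s : Fin v.1.deg → F, (∀ j, s j ∈ geSub v.1 0) ∧
      ∀ c : Fin v.1.deg → K, (∑ j, c j • s j) ∈ geSub v.1 1 → c = 0 := by
    intro v
    have := hfin v
    exact exists_lift_family v.1 _ (Module.finBasis K v.1.ResidueField).linearIndependent
  choose s hs0 hs using hex
  have h := card_le_finrank x hx S hS (fun v => v.1.deg) s hs0 hs
  have h2 : ((∑ v : S, v.1.deg * (v.1.ord x).toNat : ℕ) : ℤ) = ∑ v ∈ S, v.ord x * v.deg := by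
    rw [Nat.cast_sum, ← Finset.sum_coe_sort S (fun v => v.ord x * v.deg)]
    refine Finset.sum_congr rfl fun v _ => ?_
    rw [Nat.cast_mul, Int.toNat_of_nonneg (hS v.1 v.2).le, mul_comm]
  rw [← h2]
  exact_mod_cast h

end Fermat.Agent.FunField
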